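/-
Congruences modulo powers of a uniformiser, for a reduction map `φ : V →+* Fb` of a discretely
valued field `F`: the language of the abstract part of Mazur's principle at `p`.
-/
import Mathlib.Algebra.Ring.Subring.Basic
import Mathlib.Algebra.Field.Basic
import Mathlib.Algebra.CharP.Lemmas
import Mathlib.RingTheory.Polynomial.Basic
import Mathlib.Data.Nat.Choose.Dvd
import Mathlib.Tactic.LinearCombination
import Mathlib.Tactic.FieldSimp
import Mathlib.Tactic.Ring

set_option autoImplicit false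

noncomputable section

namespace Fermat.Agent.MazurPrinciple

universe u v

/-- A discretely valued field with uniformiser `π` and a reduction map to the residue field
(which is allowed to sit inside a bigger field `Fb`). -/
structure UnifRed (F : Type u) [Field F] (π : F) (Fb : Type v) [Field Fb] where
  /-- the valuation ring -/
  V : Subring F
  π_mem : π ∈ V
  /-- the reduction -/
  φ : V →+* Fb
  π_ne_zero : π ≠ 0
  φ_π : φ ⟨π, π_mem⟩ = 0
  exists_eq_π_mul : ∀ x : V, φ x = 0 → ∃ y : V, (x : F) = π * y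
  inv_mem : ∀ x : V, φ x ≠ 0 → (x : F)⁻¹ ∈ V

variable {F : Type u} [Field F] {π : F} {Fb : Type v} [Field Fb]

namespace UnifRed

variable (R : UnifRed F π Fb)

/-- `a = π ^ i * c` with `c` integral. -/
def Div (i : ℕ) (a : F) : Prop := ∃ c : R.V, a = π ^ i * c

/-- `a = π ^ i * c` with `c` integral of reduction `B`. -/
def Lead (i : ℕ) (a : F) (B : Fb) : Prop := ∃ c : R.V, a = π ^ i * c ∧ R.φ c = B

variable {R}

theorem Lead.div {i : ℕ} {a : F} {B : Fb} (h : R.Lead i a B) : R.Div i a :=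
  let ⟨c, hc, _⟩ := h
  ⟨c, hc⟩

theorem Div.exists_lead {i : ℕ} {a : F} (h : R.Div i a) : ∃ B, R.Lead i a B :=
  let ⟨c, hc⟩ := h
  ⟨_, c, hc, rfl⟩

theorem Div.mono {i j : ℕ} {a : F} (h : R.Div j a) (hij : i ≤ j) : R.Div i a := by
  obtain ⟨c, rfl⟩ := h
  refine ⟨⟨π, R.π_mem⟩ ^ (j - i) * c, ?_⟩
  push_cast
  rw [← mul_assoc, ← pow_add, Nat.add_sub_cancel' hij]

theorem lead_zero_iff {i : ℕ} {a : F} : R.Lead i a 0 ↔ R.Div (i + 1) a := by
  constructor
  · rintro ⟨c, rfl, hc⟩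
    obtain ⟨y, hy⟩ := R.exists_eq_π_mul c hc
    exact ⟨y, by rw [hy, pow_succ, mul_assoc]⟩
  · rintro ⟨c, rfl⟩
    exact ⟨⟨π, R.π_mem⟩ * c, by push_cast; rw [pow_succ, mul_assoc],
      by rw [map_mul, R.φ_π, zero_mul]⟩

theorem Div.lead_zero {i j : ℕ} {a : F} (h : R.Div j a) (hij : i < j) : R.Lead i a 0 :=
  lead_zero_iff.2 (h.mono hij)

theorem Lead.unique {i : ℕ} {a : F} {B B' : Fb} (h : R.Lead i a B) (h' : R.Lead i a B') :
    B = B' := by
  obtain ⟨c, rfl, rfl⟩ := h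
  obtain ⟨c', hc', rfl⟩ := h'
  rw [Subtype.ext (mul_left_cancel₀ (pow_ne_zero i R.π_ne_zero) hc')]

theorem Lead.add {i : ℕ} {a b : F} {B C : Fb} (h : R.Lead i a B) (h' : R.Lead i b C) :
    R.Lead i (a + b) (B + C) := by
  obtain ⟨c, rfl, rfl⟩ := h
  obtain ⟨d, rfl, rfl⟩ := h'
  exact ⟨c + d, by push_cast; ring, map_add _ _ _⟩

theorem Lead.neg {i : ℕ} {a : F} {B : Fb} (h : R.Lead i a B) : R.Lead i (-a) (-B) := by
  obtain ⟨c, rfl, rfl⟩ := h
  exact ⟨-c, by push_cast; ring, map_neg _ _⟩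

theorem Lead.sub {i : ℕ} {a b : F} {B C : Fb} (h : R.Lead i a B) (h' : R.Lead i b C) :
    R.Lead i (a - b) (B - C) := by
  rw [sub_eq_add_neg, sub_eq_add_neg]; exact h.add h'.neg

theorem Lead.mul {i j : ℕ} {a b : F} {B C : Fb} (h : R.Lead i a B) (h' : R.Lead j b C) :
    R.Lead (i + j) (a * b) (B * C) := by
  obtain ⟨c, rfl, rfl⟩ := h
  obtain ⟨d, rfl, rfl⟩ := h'
  exact ⟨c * d, by push_cast; ring, map_mul _ _ _⟩

theorem Lead.pow {i : ℕ} {a : F} {B : Fb} (h : R.Lead i a B) (n : ℕ) :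
    R.Lead (i * n) (a ^ n) (B ^ n) := by
  obtain ⟨c, rfl, rfl⟩ := h
  exact ⟨c ^ n, by push_cast; rw [mul_pow, pow_mul], map_pow _ _ _⟩

theorem lead_one : R.Lead 0 (1 : F) 1 := ⟨1, by simp, map_one _⟩

theorem lead_zero_zero (i : ℕ) : R.Lead i (0 : F) 0 := ⟨0, by simp, map_zero _⟩

theorem lead_π_pow (i : ℕ) : R.Lead i (π ^ i) 1 := ⟨1, by simp, map_one _⟩

theorem lead_coe (x : R.V) : R.Lead 0 (x : F) (R.φ x) := ⟨x, by simp, rfl⟩

theorem Lead.ne_zero {i : ℕ} {a : F} {B : Fb} (h : R.Lead i a B) (hB : B ≠ 0) : a ≠ 0 := by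
  rintro rfl
  exact hB (h.unique (lead_zero_zero i))

theorem Lead.inv {a : F} {B : Fb} (h : R.Lead 0 a B) (hB : B ≠ 0) : R.Lead 0 a⁻¹ B⁻¹ := by
  obtain ⟨c, rfl, rfl⟩ := h
  simp only [pow_zero, one_mul]
  refine ⟨⟨_, R.inv_mem c hB⟩, by simp, ?_⟩
  apply eq_inv_of_mul_eq_one_left
  rw [← map_mul, ← map_one R.φ]
  congr 1
  refine Subtype.ext ?_
  push_cast
  refine inv_mul_cancel₀ ?_
  exact fun h0 => hB (by rw [show c = 0 from Subtype.ext h0, map_zero])

/-- A product of two elements congruent to `1` modulo `π ^ i` is too. -/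
theorem Lead.sub_one_mul {i : ℕ} {a b : F} {B C : Fb} (hi : 0 < i) (h : R.Lead i (a - 1) B)
    (h' : R.Lead i (b - 1) C) : R.Lead i (a * b - 1) (B + C) := by
  have h2 : R.Lead i ((a - 1) * (b - 1)) 0 := (h.mul h').div.lead_zero (by omega)
  convert (h.add h').add h2 using 1 <;> ring

theorem Lead.sub_one_pow {i : ℕ} {a : F} {B : Fb} (hi : 0 < i) (h : R.Lead i (a - 1) B) :
    ∀ n : ℕ, R.Lead i (a ^ n - 1) (n * B)
  | 0 => by simpa using lead_zero_zero (R := R) i
  | n + 1 => by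
    rw [pow_succ]
    convert (h.sub_one_pow hi n).sub_one_mul hi h using 1
    push_cast; ring

theorem Lead.sub_one_inv {i : ℕ} {a : F} {B : Fb} (hi : 0 < i) (h : R.Lead i (a - 1) B) :
    R.Lead i (a⁻¹ - 1) (-B) := by
  have ha : R.Lead 0 a 1 := by
    convert (h.div.lead_zero (show 0 < i by omega)).add lead_one using 1 <;> ring
  have hne : a ≠ 0 := ha.ne_zero one_ne_zero
  have h' := h.neg.mul (ha.inv one_ne_zero)
  rw [inv_one, mul_one, add_zero] at h'
  convert h' using 1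
  field_simp
  ring

theorem exists_binomial_remainder {S : Type*} [CommRing S] {p : ℕ} (hp : p.Prime) (a : S) :
    ∃ r : S, (1 + a) ^ p = 1 + a ^ p + p * a + p * a ^ 2 * r := by
  rw [add_comm 1 a, add_pow, Finset.sum_range_succ]
  obtain ⟨m, hm⟩ : ∃ m, p = m + 2 := ⟨p - 2, by have := hp.two_le; omega⟩
  subst hm
  rw [Finset.sum_range_succ', Finset.sum_range_succ']
  have hdvd : ∀ k ∈ Finset.range m,
      a ^ (k + 1 + 1) * 1 ^ (m + 2 - (k + 1 + 1)) * ((m + 2).choose (k + 1 + 1) : S)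
        = ((m + 2 : ℕ) : S) * a ^ 2 *
          (a ^ k * (((m + 2).choose (k + 2) / (m + 2) : ℕ) : S)) := by
    intro k hk
    rw [Finset.mem_range] at hk
    obtain ⟨q, hq⟩ := hp.dvd_choose_self (k := k + 2) (by omega) (by omega)
    rw [show k + 1 + 1 = k + 2 from rfl, hq, Nat.mul_div_cancel_left _ (by omega), one_pow]
    push_cast
    ring
  rw [Finset.sum_congr rfl hdvd, ← Finset.mul_sum]
  refine ⟨∑ k ∈ Finset.range m, a ^ k * (((m + 2).choose (k + 2) / (m + 2) : ℕ) : S), ?_⟩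
  simp only [zero_add, pow_one, pow_zero, Nat.choose_one_right, Nat.choose_zero_right,
    Nat.choose_self, one_pow, mul_one, Nat.cast_one, Nat.sub_self]
  ring

section Binomial

variable {p e : ℕ} (hp : p.Prime) {ub : Fb} (hpe : R.Lead e (p : F) ub) {l : ℕ} {z : F} {X : Fb}

include hp hpe

/-- `(1 + z) ^ p - 1 = z ^ p + p z + p z ^ 2 r`, read at level `m = min (p l) (e + l)`. -/
theorem lead_pow_sub_one (hl : 0 < l) (hz : R.Lead l z X) (m : ℕ) (h1 : m ≤ p * l)
    (h2 : m ≤ e + l) : R.Lead m ((1 + z) ^ p - 1)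
      ((if m = p * l then X ^ p else 0) + (if m = e + l then ub * X else 0)) := by
  obtain ⟨c, rfl, rfl⟩ := hz
  have hz' : R.Lead l (π ^ l * (c : F)) (R.φ c) := ⟨c, rfl, rfl⟩
  obtain ⟨r, hr⟩ := exists_binomial_remainder hp (⟨π, R.π_mem⟩ ^ l * c : R.V)
  have hr' := congrArg (Subtype.val) hr
  push_cast at hr'
  have hA : R.Lead m ((π ^ l * (c : F)) ^ p) (if m = p * l then R.φ c ^ p else 0) := by
    have h := hz'.pow p
    rw [mul_comm l p] at h
    split_ifs with he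
    · exact he ▸ h
    · exact h.div.lead_zero (by omega)
  have hB : R.Lead m ((p : F) * (π ^ l * (c : F))) (if m = e + l then ub * R.φ c else 0) := by
    have h := hpe.mul hz'
    split_ifs with he
    · exact he ▸ h
    · exact h.div.lead_zero (by omega)
  have hC : R.Lead m ((p : F) * (π ^ l * (c : F)) ^ 2 * (r : F)) 0 :=
    ((hpe.mul (hz'.pow 2)).mul (lead_coe r)).div.lead_zero (by omega)
  have hA' := (hA.add hB).add hC
  rw [add_zero] at hA'
  convert hA' using 1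
  linear_combination hr'

end Binomial

end UnifRed

end Fermat.Agent.MazurPrinciple

end
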