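/-
The abstract setting of Mazur's principle at `p` and the comparison of two `p`-th root
approximations `κ ψ ^ p f ≡ κ' ψ' ^ p f ≡ 1 (mod π ^ i)`.
-/
import Fermat.Agent.MP.SecondBasic
import Mathlib.Algebra.Module.Submodule.Lattice
import Mathlib.Algebra.Module.Submodule.Map
import Mathlib.Algebra.Module.Pi
import Mathlib.Algebra.Field.Subfield.Basic
import Mathlib.FieldTheory.IsAlgClosed.Basic

set_option autoImplicit false

noncomputable section

open scoped Polynomial

namespace Fermat.Agent.MazurPrinciple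

universe u v w x

/-- Reductions of `F` on finitely many components, together with the field `Kc` of constants. -/
structure RedSystem (F : Type u) [Field F] (π : F) (k : Type w) [Field k] {ι : Type x}
    (Fb : ι → Type v) [∀ b, Field (Fb b)] [∀ b, Algebra k (Fb b)] where
  /-- the reduction on each component -/
  R : ∀ b, UnifRed F π (Fb b)
  /-- the constants -/
  Kc : Subfield F
  π_mem_Kc : π ∈ Kc
  exists_const : ∀ c : k, ∃ a ∈ Kc, ∀ b, (R b).Lead 0 a (algebraMap k (Fb b) c)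
  const_residue : ∀ a ∈ Kc, ∀ b, (R b).Div 0 a →
    ∃ c : k, ∀ b', (R b').Lead 0 a (algebraMap k (Fb b') c)

variable {F : Type u} [Field F] {π : F} {k : Type w} [Field k] {ι : Type x}
  {Fb : ι → Type v} [∀ b, Field (Fb b)] [∀ b, Algebra k (Fb b)]

namespace RedSystem

variable (S : RedSystem F π k Fb)

/-- The tuple of constant functions with the values `c`. -/
def constTuple (c : ι → k) : ∀ b, Fb b := fun b => algebraMap k (Fb b) (c b)

include S in
theorem π_ne_zero [Nonempty ι] : π ≠ 0 :=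
  (S.R (Classical.arbitrary ι)).π_ne_zero

theorem lead_const [Nonempty ι] {m : ℕ} {a : F} (ha : a ∈ S.Kc) {B : ∀ b, Fb b}
    (hB : ∀ b, (S.R b).Lead m a (B b)) : ∃ c : k, ∀ b, B b = algebraMap k (Fb b) c := by
  have hd : ∀ b, (S.R b).Lead 0 (a / π ^ m) (B b) := by
    intro b
    obtain ⟨y, rfl, hy⟩ := hB b
    refine ⟨y, ?_, hy⟩
    rw [pow_zero, one_mul, mul_div_cancel_left₀ _ (pow_ne_zero m (S.R b).π_ne_zero)]
  obtain ⟨c, hc⟩ := S.const_residue (a / π ^ m) (div_mem ha (pow_mem S.π_mem_Kc m))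
    (Classical.arbitrary ι) (hd _).div
  exact ⟨c, fun b => (hd b).unique (hc b)⟩

theorem exists_const_lead (m : ℕ) (c : k) :
    ∃ a ∈ S.Kc, ∀ b, (S.R b).Lead m a (algebraMap k (Fb b) c) := by
  obtain ⟨a, ha, hc⟩ := S.exists_const c
  refine ⟨π ^ m * a, mul_mem (pow_mem S.π_mem_Kc m) ha, fun b => ?_⟩
  simpa using (UnifRed.lead_π_pow (R := S.R b) m).mul (hc b)

/-- The data in which `p`-th roots of `f` are looked for: functions `ψ ∈ M` have `ψ ^ p f ∈ L`,
reductions of integral elements of `L` lie in `W`, and every tuple `r` with `r ^ p ∈ W` is the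
reduction of some `ψ ∈ M` scaled by `h`. -/
structure Target (p : ℕ) (h : ι → F) (f : F) where
  /-- the target space -/
  L : Submodule S.Kc F
  /-- the root space -/
  M : Submodule S.Kc F
  /-- the reduction of the target space -/
  W : Submodule k (∀ b, Fb b)
  /-- the reduction of the root space -/
  U : Submodule k (∀ b, Fb b)
  one_mem_L : (1 : F) ∈ L
  mem_L : ∀ ψ ∈ M, ψ ^ p * f ∈ L
  red_L : ∀ z ∈ L, ∀ B : ∀ b, Fb b, (∀ b, (S.R b).Lead 0 z (B b)) → B ∈ W
  root : ∀ r : ∀ b, Fb b, (fun b => r b ^ p) ∈ W → r ∈ U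
  move : ∀ r ∈ U, ∃ η ∈ M, ∀ b, (S.R b).Lead 0 (h b * η) (r b)

variable {S} {p : ℕ} {h : ι → F} {f : F}

namespace Target

variable (T : S.Target p h f)

theorem one_mem_W : (fun _ => 1 : ∀ b, Fb b) ∈ T.W :=
  T.red_L 1 T.one_mem_L _ fun _ => UnifRed.lead_one

theorem one_mem_U : (fun _ => 1 : ∀ b, Fb b) ∈ T.U :=
  T.root _ (by simpa using T.one_mem_W)

theorem constTuple_mem_W (c : k) : constTuple (Fb := Fb) (fun _ => c) ∈ T.W := by
  convert T.W.smul_mem c T.one_mem_W using 1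
  funext b
  simp [constTuple, Algebra.smul_def]

theorem constTuple_mem_U (c : k) : constTuple (Fb := Fb) (fun _ => c) ∈ T.U := by
  convert T.U.smul_mem c T.one_mem_U using 1
  funext b
  simp [constTuple, Algebra.smul_def]

/-- `κ ψ ^ p f ≡ 1 (mod π ^ i)` on every component, with `h ψ` reducing to `1`. -/
structure Approx (i : ℕ) (κ ψ : F) : Prop where
  κ_mem : κ ∈ S.Kc
  ψ_mem : ψ ∈ T.M
  norm : ∀ b, (S.R b).Lead 0 (h b * ψ) 1
  div : ∀ b, (S.R b).Div i (κ * ψ ^ p * f - 1)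

variable {T} {i : ℕ} {κ ψ : F}

theorem Approx.mono {j : ℕ} (ha : T.Approx i κ ψ) (hji : j ≤ i) : T.Approx j κ ψ :=
  ⟨ha.κ_mem, ha.ψ_mem, ha.norm, fun b => (ha.div b).mono hji⟩

theorem Approx.sub_one_mem_L (ha : T.Approx i κ ψ) : κ * ψ ^ p * f - 1 ∈ T.L := by
  refine T.L.sub_mem ?_ T.one_mem_L
  rw [mul_assoc]
  exact T.L.smul_mem ⟨κ, ha.κ_mem⟩ (T.mem_L ψ ha.ψ_mem)

theorem Approx.lead_mem_W [Nonempty ι] (ha : T.Approx i κ ψ) {B : ∀ b, Fb b}
    (hB : ∀ b, (S.R b).Lead i (κ * ψ ^ p * f - 1) (B b)) : B ∈ T.W := by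
  refine T.red_L ((κ * ψ ^ p * f - 1) / π ^ i) ?_ B fun b => ?_
  · rw [div_eq_inv_mul]
    exact T.L.smul_mem (⟨(π ^ i)⁻¹, inv_mem (pow_mem S.π_mem_Kc i)⟩ : S.Kc) ha.sub_one_mem_L
  · obtain ⟨c, hc, hBc⟩ := hB b
    refine ⟨c, ?_, hBc⟩
    rw [hc, pow_zero, one_mul, mul_div_cancel_left₀ _ (pow_ne_zero i S.π_ne_zero)]

theorem Approx.lead_g (ha : T.Approx i κ ψ) (hi : 0 < i) (b : ι) :
    (S.R b).Lead 0 (κ * ψ ^ p * f) 1 := by
  convert ((ha.div b).lead_zero hi).add UnifRed.lead_one using 1 <;> ring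

theorem Approx.lead_κ (ha : T.Approx i κ ψ) (hi : 0 < i) {b : ι}
    (hf : (S.R b).Lead 0 (f / h b ^ p) 1) : (S.R b).Lead 0 κ 1 := by
  have hne : h b * ψ ≠ 0 := (ha.norm b).ne_zero one_ne_zero
  have hhb : h b ≠ 0 := left_ne_zero_of_mul hne
  have hψ : ψ ≠ 0 := right_ne_zero_of_mul hne
  have hf0 : f ≠ 0 := fun h0 => by
    have := hf.ne_zero one_ne_zero; simp [h0] at this
  have h2 := ((ha.norm b).pow p).mul hf
  rw [Nat.zero_mul, one_pow, mul_one] at h2
  have h3 := (ha.lead_g hi b).mul (h2.inv one_ne_zero)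
  rw [inv_one, mul_one] at h3
  convert h3 using 1
  rw [mul_pow]
  field_simp

end Target

section Compare

variable [IsAlgClosed k] [Nonempty ι]

theorem isIntegral_of_pow_add_mul {E : Type v} [Field E] [Algebra k E] {X : E} {p : ℕ}
    {a b c : k} (hp : 1 < p) (hab : a ≠ 0 ∨ b ≠ 0)
    (hX : algebraMap k E a * X ^ p + algebraMap k E b * X = algebraMap k E c) :
    IsIntegral k X := by
  refine IsAlgebraic.isIntegral
    ⟨Polynomial.C a * Polynomial.X ^ p + Polynomial.C b * Polynomial.X - Polynomial.C c, ?_, ?_⟩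
  · intro h0
    rcases hab with ha | hb
    · exact ha (by simpa [Polynomial.coeff_C, Polynomial.coeff_X, show p ≠ 0 by omega, show (1 : ℕ) ≠ p by omega]
        using congrArg (Polynomial.coeff · p) h0)
    · refine hb ?_
      simpa [Polynomial.coeff_X_pow, Polynomial.coeff_C, show (1 : ℕ) ≠ p by omega]
        using congrArg (Polynomial.coeff · 1) h0
  · simp [Polynomial.aeval_def, hX]

variable {e : ℕ} {u0 : k} {f' : F} {T T' : S.Target p h f} {i : ℕ} {κ κ' ψ ψ' : F}
  (hp : p.Prime) (hu0 : u0 ≠ 0)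
  (hpe : ∀ b, (S.R b).Lead e (p : F) (algebraMap k (Fb b) u0))
  (hf : ∀ b, (S.R b).Lead 0 (f / h b ^ p) 1)
  (U2 : Submodule k (∀ b, Fb b))
  (hU2 : ∀ z ∈ T.M ⊔ T'.M, ∀ B : ∀ b, Fb b, (∀ b, (S.R b).Lead 0 (h b * z) (B b)) → B ∈ U2)
  (hU2c : ∀ c : ι → k, constTuple c ∈ U2 → ∀ b b', c b = c b')

include hp hpe hf hU2

omit [IsAlgClosed k] in
/-- The residue of `ψ / ψ' - ρ` at level `l`, and its effect on the residue of `g - g'`. -/
theorem sub_lead_of_div {i l m : ℕ} (hm : 0 < l) (hmi : m ≤ i) (hi : 0 < i) (h1 : m ≤ p * l)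
    (h2 : m ≤ e + l) (ha : T.Approx i κ ψ) (ha' : T'.Approx i κ' ψ') {B B' : ∀ b, Fb b}
    (hB : ∀ b, (S.R b).Lead m (κ * ψ ^ p * f - 1) (B b))
    (hB' : ∀ b, (S.R b).Lead m (κ' * ψ' ^ p * f - 1) (B' b))
    {ρ : F} (hρ : ρ ∈ S.Kc) (hρ1 : ∀ b, (S.R b).Lead 0 ρ 1) {X : ∀ b, Fb b}
    (hX : ∀ b, (S.R b).Lead l (ψ / ψ' - ρ) (X b)) :
    X ∈ U2 ∧ ∃ C : k, ∀ b, B b - B' b = algebraMap k (Fb b) C
      + (if m = p * l then X b ^ p else 0)
      + (if m = e + l then algebraMap k (Fb b) u0 * X b else 0) := by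
  have hψ' : ψ' ≠ 0 :=
    right_ne_zero_of_mul ((ha'.norm (Classical.arbitrary ι)).ne_zero one_ne_zero)
  refine ⟨?_, ?_⟩
  · refine hU2 ((ψ - ρ * ψ') / π ^ l) ?_ X fun b => ?_
    · rw [div_eq_inv_mul]
      refine (T.M ⊔ T'.M).smul_mem (⟨_, inv_mem (pow_mem S.π_mem_Kc l)⟩ : S.Kc) ?_
      exact sub_mem (Submodule.mem_sup_left ha.ψ_mem)
        (Submodule.mem_sup_right (T'.M.smul_mem ⟨ρ, hρ⟩ ha'.ψ_mem))
    · have h0 := (hX b).mul (ha'.norm b)
      rw [add_zero, mul_one] at h0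
      obtain ⟨c, hc, hcX⟩ := h0
      refine ⟨c, ?_, hcX⟩
      rw [pow_zero, one_mul, ← mul_right_inj' (pow_ne_zero l (S.R b).π_ne_zero), ← hc]
      field_simp [S.π_ne_zero]
  · have hρne : ρ ≠ 0 := (hρ1 (Classical.arbitrary ι)).ne_zero one_ne_zero
    set z := (ψ / ψ' - ρ) * ρ⁻¹ with hzdef
    have hz : ∀ b, (S.R b).Lead l z (X b) := by
      intro b
      simpa [hzdef] using (hX b).mul ((hρ1 b).inv one_ne_zero)
    have hP := fun b =>
      UnifRed.lead_pow_sub_one hp (hpe b) hm (hz b) m h1 h2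
    have hκ' : κ' ≠ 0 :=
      (ha'.lead_κ hi (hf (Classical.arbitrary ι))).ne_zero one_ne_zero
    set κ'' := κ * ρ ^ p / κ' with hκdef
    have hκ''mem : κ'' ∈ S.Kc := div_mem (mul_mem ha.κ_mem (pow_mem hρ p)) ha'.κ_mem
    have hD : ∀ b, (S.R b).Lead m (κ'' * (1 + z) ^ p - 1) (B b - B' b) := by
      intro b
      have hg : κ' * ψ' ^ p * f ≠ 0 := (ha'.lead_g hi b).ne_zero one_ne_zero
      have := ((hB b).sub (hB' b)).mul ((ha'.lead_g hi b).inv one_ne_zero)
      simp only [inv_one, mul_one, add_zero] at this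
      convert this using 1
      have hz1 : 1 + z = ψ / ψ' * ρ⁻¹ := by rw [hzdef]; field_simp; ring
      rw [hz1, hκdef]
      have hψp : ψ' ^ p ≠ 0 := pow_ne_zero _ hψ'
      have hρp : ρ ^ p ≠ 0 := pow_ne_zero _ hρne
      have hf0 : f ≠ 0 := right_ne_zero_of_mul hg
      rw [mul_pow, div_pow, inv_pow]
      field_simp
      ring
    have hκ1 : ∀ b, (S.R b).Lead 0 κ'' 1 := by
      intro b
      rw [hκdef, div_eq_mul_inv]
      simpa using ((ha.lead_κ hi (hf b)).mul ((hρ1 b).pow p)).mul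
        ((ha'.lead_κ hi (hf b)).inv one_ne_zero)
    have hK : ∀ b, (S.R b).Lead m (κ'' - 1) (B b - B' b
        - ((if m = p * l then X b ^ p else 0)
          + (if m = e + l then algebraMap k (Fb b) u0 * X b else 0))) := by
      intro b
      have := (hκ1 b).mul (hP b)
      rw [zero_add, one_mul] at this
      convert (hD b).sub this using 1
      ring
    obtain ⟨C, hC⟩ := S.lead_const (sub_mem hκ''mem (one_mem _)) hK
    exact ⟨C, fun b => by linear_combination hC b⟩

include hu0 hU2c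

/-- Two approximations differ by a constant modulo high powers of `π`. -/
theorem exists_const_div_sub (hi : 0 < i) (ha : T.Approx i κ ψ) (ha' : T'.Approx i κ' ψ') :
    ∀ l : ℕ, 0 < l → (l = 1 ∨ p * (l - 1) < i ∨ e + (l - 1) < i) →
      ∃ ρ ∈ S.Kc, (∀ b, (S.R b).Lead 0 ρ 1) ∧ ∀ b, (S.R b).Div l (ψ / ψ' - ρ) := by
  intro l
  induction l with
  | zero => intro h0; omega
  | succ l ih =>
    intro _ hl
    rcases Nat.eq_zero_or_pos l with rfl | hl0
    · refine ⟨1, one_mem _, fun b => UnifRed.lead_one, fun b => ?_⟩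
      have hne : h b * ψ' ≠ 0 := (ha'.norm b).ne_zero one_ne_zero
      have hhb : h b ≠ 0 := left_ne_zero_of_mul hne
      have h1 := ((ha.norm b).mul ((ha'.norm b).inv one_ne_zero)).sub UnifRed.lead_one
      rw [inv_one, mul_one, sub_self] at h1
      have h2 := UnifRed.lead_zero_iff.1 h1
      convert h2 using 1
      field_simp
    · simp only [Nat.add_sub_cancel] at hl
      have hlt : p * l < i ∨ e + l < i := hl.resolve_left (by omega)
      obtain ⟨ρ, hρ, hρ1, hd⟩ := ih hl0 (by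
        rcases hlt with h' | h'
        · exact Or.inr (Or.inl (lt_of_le_of_lt (Nat.mul_le_mul_left p (Nat.sub_le l 1)) h'))
        · exact Or.inr (Or.inr (by omega)))
      have hX : ∀ b, ∃ X, (S.R b).Lead l (ψ / ψ' - ρ) X := fun b => (hd b).exists_lead
      choose X hX using hX
      set m := min (p * l) (e + l) with hmdef
      have hmi : m < i := by rcases hlt with h' | h' <;> omega
      have h0 : ∀ b, (S.R b).Lead m (κ * ψ ^ p * f - 1) 0 := fun b => (ha.div b).lead_zero hmi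
      have h0' : ∀ b, (S.R b).Lead m (κ' * ψ' ^ p * f - 1) 0 :=
        fun b => (ha'.div b).lead_zero hmi
      obtain ⟨hXU, C, hC⟩ := sub_lead_of_div hp hpe hf U2 hU2 hl0 hmi.le hi
        (min_le_left _ _) (min_le_right _ _) ha ha' (B := fun b => 0) (B' := fun b => 0)
        h0 h0' hρ hρ1 hX
      have hint : ∀ b, ∃ c : k, algebraMap k (Fb b) c = X b := by
        intro b
        suffices hi : IsIntegral k (X b) from
          RingHom.mem_range.mp (minpoly.mem_range_of_degree_eq_one k (X b)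
            (IsAlgClosed.degree_eq_one_of_irreducible k (minpoly.irreducible hi)))
        refine isIntegral_of_pow_add_mul (a := if m = p * l then 1 else 0)
          (b := if m = e + l then u0 else 0) (c := -C) hp.one_lt ?_ ?_
        · by_cases hm' : m = p * l
          · exact Or.inl (by simp [hm'])
          · exact Or.inr (by simp [show m = e + l by omega, hu0])
        · have := hC b
          simp only [sub_zero] at this
          rw [map_neg]
          split_ifs at this ⊢ <;> simp only [map_one, map_zero] <;> linear_combination -this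
      choose c hc using hint
      have hcU : constTuple c ∈ U2 := by
        rwa [show constTuple c = X from funext hc]
      have hcc := hU2c c hcU
      obtain ⟨a, ha0, ha1⟩ := S.exists_const_lead l (c (Classical.arbitrary ι))
      refine ⟨ρ + a, add_mem hρ ha0, fun b => ?_, fun b => ?_⟩
      · simpa using (hρ1 b).add ((ha1 b).div.lead_zero hl0)
      · rw [← UnifRed.lead_zero_iff]
        have := (hX b).sub (ha1 b)
        rw [hcc (Classical.arbitrary ι) b, hc b, sub_self] at this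
        convert this using 1
        ring

/-- The residues at level `i` of two approximations differ, up to a constant, by the image of
some `X ∈ U2`: `X ^ p` if `i = p l`, `u0 X` if `i = e + l`, nothing if neither. -/
theorem exists_lead_sub {l : ℕ} (hl : 0 < l) (h1 : i ≤ p * l) (h2 : i ≤ e + l)
    (hl' : l = 1 ∨ p * (l - 1) < i ∨ e + (l - 1) < i) (hi : 0 < i)
    (ha : T.Approx i κ ψ) (ha' : T'.Approx i κ' ψ') {B B' : ∀ b, Fb b}
    (hB : ∀ b, (S.R b).Lead i (κ * ψ ^ p * f - 1) (B b))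
    (hB' : ∀ b, (S.R b).Lead i (κ' * ψ' ^ p * f - 1) (B' b)) :
    ∃ C : k, ∃ X ∈ U2, ∀ b, B b - B' b = algebraMap k (Fb b) C
      + (if i = p * l then X b ^ p else 0)
      + (if i = e + l then algebraMap k (Fb b) u0 * X b else 0) := by
  obtain ⟨ρ, hρ, hρ1, hd⟩ :=
    exists_const_div_sub hp hu0 hpe hf U2 hU2 hU2c hi ha ha' l hl hl'
  choose X hX using fun b => (hd b).exists_lead
  obtain ⟨hXU, C, hC⟩ := sub_lead_of_div hp hpe hf U2 hU2 hl le_rfl hi h1 h2 ha ha' hB hB'
    hρ hρ1 hX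
  exact ⟨C, X, hXU, hC⟩

end Compare

end RedSystem

end Fermat.Agent.MazurPrinciple

end
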