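/-
Mazur's principle at `p`, abstract part: if the residues of `g - 1` at levels divisible by `p` are
`p`-th powers, then `p`-th root approximations exist up to the threshold `p e / (p - 1)`.
-/
import Fermat.Agent.MP.SecondCompare
import Mathlib.Tactic.Linarith

set_option autoImplicit false

noncomputable section

namespace Fermat.Agent.MazurPrinciple

universe u v w x

variable {F : Type u} [Field F] {π : F} {k : Type w} [Field k] {ι : Type x}
  {Fb : ι → Type v} [∀ b, Field (Fb b)] [∀ b, Algebra k (Fb b)]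

namespace RedSystem

variable {S : RedSystem F π k Fb} [Nonempty ι] {p : ℕ} {h : ι → F} {f : F}

/-- The hypothesis of the induction: residues at levels `p ∣ i` below the threshold which agree
modulo `p`-th powers with a residue for the second target `T'` are componentwise `p`-th powers. -/
def ExactResidues (T T' : S.Target p h f) (e : ℕ) : Prop :=
  ∀ i : ℕ, 0 < i → (p - 1) * i < p * e → p ∣ i → ∀ κ ψ : F, T.Approx i κ ψ →
    ∀ B : ∀ b, Fb b, (∀ b, (S.R b).Lead i (κ * ψ ^ p * f - 1) (B b)) →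
      (∃ B' ∈ T'.W, ∀ b, ∃ G : Fb b, B b = B' b + G ^ p) →
        ∀ b, ∃ G : Fb b, B b = G ^ p

theorem Target.exists_approx_one (T : S.Target p h f)
    (hf : ∀ b, (S.R b).Lead 0 (f / h b ^ p) 1) : ∃ κ ψ, T.Approx 1 κ ψ := by
  obtain ⟨η, hη, hlead⟩ := T.move _ T.one_mem_U
  refine ⟨1, η, one_mem _, hη, hlead, fun b => UnifRed.lead_zero_iff.1 ?_⟩
  have hne : h b * η ≠ 0 := (hlead b).ne_zero one_ne_zero
  have hhb : h b ≠ 0 := left_ne_zero_of_mul hne
  have h0 := ((hlead b).pow p).mul (hf b)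
  simp only [one_pow, mul_one, Nat.zero_mul, add_zero] at h0
  have h1 := h0.sub (UnifRed.lead_one (R := S.R b))
  rw [sub_self] at h1
  convert h1 using 1
  rw [mul_pow]
  field_simp

/-- Multiplying `ψ` by `1 + z` changes `g - 1` by `g ((1 + z) ^ p - 1)`. -/
theorem Target.Approx.sub_mul_lead {T : S.Target p h f} {i : ℕ} {κ ψ : F}
    (ha : T.Approx i κ ψ) (hi : 0 < i) {e : ℕ} {u0 : k} (hp : p.Prime)
    (hpe : ∀ b, (S.R b).Lead e (p : F) (algebraMap k (Fb b) u0))
    {l : ℕ} (hl : 0 < l) (h1 : i ≤ p * l) (h2 : i ≤ e + l) {η : F} {G : ∀ b, Fb b}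
    (hη : η ∈ T.M) (hG : ∀ b, (S.R b).Lead 0 (h b * η) (G b))
    {B : ∀ b, Fb b} (hB : ∀ b, (S.R b).Lead i (κ * ψ ^ p * f - 1) (B b)) :
    (ψ - π ^ l * η ∈ T.M ∧ ∀ b, (S.R b).Lead 0 (h b * (ψ - π ^ l * η)) 1) ∧
      ∀ b, (S.R b).Lead i (κ * (ψ - π ^ l * η) ^ p * f - 1)
        (B b + ((if i = p * l then (-G b) ^ p else 0)
          + (if i = e + l then algebraMap k (Fb b) u0 * (-G b) else 0))) := by
  refine ⟨⟨sub_mem ha.ψ_mem (T.M.smul_mem (⟨_, pow_mem S.π_mem_Kc l⟩ : S.Kc) hη), fun b => ?_⟩,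
    fun b => ?_⟩
  · have h0 := ((UnifRed.lead_π_pow (R := S.R b) l).mul (hG b)).div.lead_zero
      (show 0 < l + 0 by omega)
    convert (ha.norm b).sub h0 using 1 <;> ring
  · have hne : h b * ψ ≠ 0 := (ha.norm b).ne_zero one_ne_zero
    have hhb : h b ≠ 0 := left_ne_zero_of_mul hne
    have hψ : ψ ≠ 0 := right_ne_zero_of_mul hne
    have hz : (S.R b).Lead l (-(π ^ l * η / ψ)) (-G b) := by
      have := ((UnifRed.lead_π_pow (R := S.R b) l).mul (hG b)).mul ((ha.norm b).inv one_ne_zero)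
      simp only [one_mul, inv_one, mul_one, add_zero] at this
      convert this.neg using 1
      field_simp
    have h3 := (ha.lead_g hi b).mul
      (UnifRed.lead_pow_sub_one hp (hpe b) hl hz i h1 h2)
    rw [zero_add, one_mul] at h3
    convert (hB b).add h3 using 1
    have : ψ - π ^ l * η = ψ * (1 + -(π ^ l * η / ψ)) := by field_simp; ring
    rw [this, mul_pow]
    ring

variable [IsAlgClosed k] {e : ℕ} {u0 : k}

/-- One step of the induction: from level `i` to level `i + 1` below the threshold. -/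
theorem exists_approx_succ (hp : p.Prime) (hp2 : Odd p) (hu0 : u0 ≠ 0)
    (hpe : ∀ b, (S.R b).Lead e (p : F) (algebraMap k (Fb b) u0))
    (hf : ∀ b, (S.R b).Lead 0 (f / h b ^ p) 1) {T T' : S.Target p h f}
    (hcap : ∀ B ∈ T.W, B ∈ T'.W → ∃ c : k, ∀ b, B b = algebraMap k (Fb b) c)
    (U2 : Submodule k (∀ b, Fb b))
    (hU2 : ∀ z ∈ T.M ⊔ T'.M, ∀ B : ∀ b, Fb b, (∀ b, (S.R b).Lead 0 (h b * z) (B b)) → B ∈ U2)
    (hU2c : ∀ c : ι → k, constTuple c ∈ U2 → ∀ b b', c b = c b')
    (hexact : ExactResidues T T' e) {i : ℕ} (hi : 0 < i) (hth : (p - 1) * i < p * e)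
    {κ ψ κ' ψ' : F} (ha : T.Approx i κ ψ) (ha' : T'.Approx i κ' ψ') :
    ∃ κ₁ ψ₁, T.Approx (i + 1) κ₁ ψ₁ := by
  choose B hB using fun b => (ha.div b).exists_lead
  choose B' hB' using fun b => (ha'.div b).exists_lead
  have hp1 : p - 1 + 1 = p := Nat.succ_pred_eq_of_pos hp.pos
  by_cases hdvd : p ∣ i
  · obtain ⟨l, rfl⟩ := hdvd
    have hl : 0 < l := Nat.pos_of_mul_pos_left hi
    have hlt : p * l < e + l := by
      have h1 : (p - 1) * l < e := by
        have : p * ((p - 1) * l) < p * e := by rw [← mul_assoc, mul_comm p (p - 1), mul_assoc]; exact hth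
        exact Nat.lt_of_mul_lt_mul_left this
      calc p * l = (p - 1) * l + l := by rw [← add_one_mul, hp1]
        _ < e + l := by omega
    obtain ⟨C, X, -, hC⟩ := exists_lead_sub hp hu0 hpe hf U2 hU2 hU2c hl le_rfl hlt.le
      (Or.inr (Or.inl (Nat.mul_lt_mul_of_pos_left (Nat.sub_lt hl one_pos) hp.pos))) hi ha ha'
      hB hB'
    obtain ⟨z, hz⟩ := IsAlgClosed.exists_pow_nat_eq C hp.pos
    have hBB : (fun b => B' b + algebraMap k (Fb b) C) ∈ T'.W :=
      add_mem (ha'.lead_mem_W hB') (T'.constTuple_mem_W C)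
    obtain ⟨G, hG⟩ := Classical.axiomOfChoice (hexact (p * l) hi hth (dvd_mul_right p l) κ ψ ha B
      hB ⟨_, hBB, fun b => ⟨X b, by
        have := hC b
        rw [if_pos rfl, if_neg hlt.ne] at this
        linear_combination this⟩⟩)
    have hGU : (fun b => G b) ∈ T.U := T.root _ (by
      simpa only [← hG] using ha.lead_mem_W hB)
    obtain ⟨η, hη, hηG⟩ := T.move _ hGU
    obtain ⟨⟨hmem, hnorm⟩, hnew⟩ := ha.sub_mul_lead hi hp hpe hl le_rfl hlt.le hη hηG hB
    refine ⟨κ, _, ha.κ_mem, hmem, hnorm, fun b => UnifRed.lead_zero_iff.1 ?_⟩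
    convert hnew b using 1
    rw [if_pos rfl, if_neg (by omega), hG b, hp2.neg_pow]
    ring
  · have hl : 0 < i / p + 1 := Nat.succ_pos _
    have hdm := Nat.div_add_mod i p
    have hmod : i % p < p := Nat.mod_lt _ hp.pos
    have hmod0 : 0 < i % p := Nat.pos_of_ne_zero fun h0 => hdvd (Nat.dvd_of_mod_eq_zero h0)
    have h1 : i < p * (i / p + 1) := by rw [mul_add, mul_one]; omega
    have h2 : i < e + (i / p + 1) := by
      by_contra hcon
      push Not at hcon
      nlinarith [Nat.mul_le_mul_left p hcon]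
    obtain ⟨C, X, -, hC⟩ := exists_lead_sub hp hu0 hpe hf U2 hU2 hU2c hl h1.le h2.le
      (Or.inr (Or.inl (by simp only [Nat.add_sub_cancel]; omega))) hi ha ha' hB hB'
    have hBB : B ∈ T'.W := by
      have : B = B' + constTuple (fun _ => C) := by
        funext b
        have := hC b
        rw [if_neg h1.ne, if_neg h2.ne] at this
        simp only [Pi.add_apply, constTuple]
        linear_combination this
      rw [this]
      exact add_mem (ha'.lead_mem_W hB') (T'.constTuple_mem_W C)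
    obtain ⟨c, hc⟩ := hcap B (ha.lead_mem_W hB) hBB
    obtain ⟨a, haK, haL⟩ := S.exists_const_lead i c
    refine ⟨κ * (1 - a), ψ, mul_mem ha.κ_mem (sub_mem (one_mem _) haK), ha.ψ_mem, ha.norm,
      fun b => UnifRed.lead_zero_iff.1 ?_⟩
    have h3 := (hB b).sub (by simpa using (haL b).mul (ha.lead_g hi b))
    rw [hc b, sub_self] at h3
    convert h3 using 1
    ring

/-- Approximations exist for both targets up to the threshold. -/
theorem exists_approx_threshold (hp : p.Prime) (hp2 : Odd p) (hu0 : u0 ≠ 0)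
    (hpe : ∀ b, (S.R b).Lead e (p : F) (algebraMap k (Fb b) u0))
    (hf : ∀ b, (S.R b).Lead 0 (f / h b ^ p) 1) {T T' : S.Target p h f}
    (hcap : ∀ B ∈ T.W, B ∈ T'.W → ∃ c : k, ∀ b, B b = algebraMap k (Fb b) c)
    (U2 : Submodule k (∀ b, Fb b))
    (hU2 : ∀ z ∈ T.M ⊔ T'.M, ∀ B : ∀ b, Fb b, (∀ b, (S.R b).Lead 0 (h b * z) (B b)) → B ∈ U2)
    (hU2c : ∀ c : ι → k, constTuple c ∈ U2 → ∀ b b', c b = c b')
    (hexact : ExactResidues T T' e) (hexact' : ExactResidues T' T e) :
    ∀ i : ℕ, (p - 1) * i ≤ p * e →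
      (∃ κ ψ, T.Approx i κ ψ) ∧ ∃ κ ψ, T'.Approx i κ ψ := by
  intro i
  induction i with
  | zero =>
    intro _
    obtain ⟨κ, ψ, ha⟩ := T.exists_approx_one hf
    obtain ⟨κ', ψ', ha'⟩ := T'.exists_approx_one hf
    exact ⟨⟨κ, ψ, ha.mono (Nat.zero_le _)⟩, κ', ψ', ha'.mono (Nat.zero_le _)⟩
  | succ n ih =>
    intro hn
    rcases Nat.eq_zero_or_pos n with rfl | hn0
    · exact ⟨T.exists_approx_one hf, T'.exists_approx_one hf⟩
    · have hlt : (p - 1) * n < p * e := by
        have := hp.two_le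
        rw [mul_add] at hn; omega
      obtain ⟨⟨κ, ψ, ha⟩, κ', ψ', ha'⟩ := ih hlt.le
      exact ⟨exists_approx_succ hp hp2 hu0 hpe hf hcap U2 hU2 hU2c hexact hn0 hlt ha ha',
        exists_approx_succ hp hp2 hu0 hpe hf (fun B h1 h2 => hcap B h2 h1) U2
          (fun z hz => hU2 z (by rwa [sup_comm])) hU2c hexact' hn0 hlt ha' ha⟩

end RedSystem

end Fermat.Agent.MazurPrinciple

end
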