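/-
Mazur's principle at `p`, abstract part: beyond the threshold `p e / (p - 1)` approximations lift
linearly to every level.
-/
import Fermat.Agent.MP.SecondLevels

set_option autoImplicit false

noncomputable section

namespace Fermat.Agent.MazurPrinciple

universe u v w x

variable {F : Type u} [Field F] {π : F} {k : Type w} [Field k] {ι : Type x}
  {Fb : ι → Type v} [∀ b, Field (Fb b)] [∀ b, Algebra k (Fb b)]

namespace RedSystem

variable {S : RedSystem F π k Fb} [Nonempty ι] [IsAlgClosed k] {p : ℕ} {h : ι → F} {f : F}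
  {e : ℕ} {u0 : k}

/-- One step beyond the threshold. -/
theorem exists_approx_beyond_succ (hp : p.Prime) (hu0 : u0 ≠ 0)
    (hpe : ∀ b, (S.R b).Lead e (p : F) (algebraMap k (Fb b) u0))
    (hf : ∀ b, (S.R b).Lead 0 (f / h b ^ p) 1) {T T' : S.Target p h f}
    (U2 : Submodule k (∀ b, Fb b))
    (hU2 : ∀ z ∈ T.M ⊔ T'.M, ∀ B : ∀ b, Fb b, (∀ b, (S.R b).Lead 0 (h b * z) (B b)) → B ∈ U2)
    (hU2c : ∀ c : ι → k, constTuple c ∈ U2 → ∀ b b', c b = c b')
    (hlift : ∀ B ∈ T.W, ∀ X ∈ U2, B - u0 • X ∈ T'.W → B ∈ T.U)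
    {i : ℕ} (hth : p * e < (p - 1) * i) {κ ψ κ' ψ' : F}
    (ha : T.Approx i κ ψ) (ha' : T'.Approx i κ' ψ') :
    ∃ κ₁ ψ₁, T.Approx (i + 1) κ₁ ψ₁ := by
  have hi : 0 < i := Nat.pos_of_ne_zero fun h0 => by simp [h0] at hth
  have hp1 : p - 1 + 1 = p := Nat.succ_pred_eq_of_pos hp.pos
  have hei : e < i := by
    by_contra hcon
    push Not at hcon
    have := Nat.mul_le_mul (Nat.sub_le p 1) hcon
    omega
  obtain ⟨l, rfl⟩ : ∃ l, i = e + l := ⟨i - e, by omega⟩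
  have hl : 0 < l := by omega
  have hpl : e + l < p * l := by
    have h1 : e < (p - 1) * l := by
      by_contra hcon
      push Not at hcon
      have h2 : (p - 1) * e + (p - 1) * l ≤ p * e := by
        calc (p - 1) * e + (p - 1) * l ≤ (p - 1) * e + e := by omega
          _ = p * e := by rw [← add_one_mul, hp1]
      rw [mul_add] at hth
      omega
    calc e + l < (p - 1) * l + l := by omega
      _ = p * l := by rw [← add_one_mul, hp1]
  choose B hB using fun b => (ha.div b).exists_lead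
  choose B' hB' using fun b => (ha'.div b).exists_lead
  obtain ⟨C, X, hX, hC⟩ := exists_lead_sub hp hu0 hpe hf U2 hU2 hU2c hl hpl.le le_rfl
    (Or.inr (Or.inr (by omega))) hi ha ha' hB hB'
  have hBU : B ∈ T.U := by
    refine hlift B (ha.lead_mem_W hB) X hX ?_
    have : B - u0 • X = B' + constTuple (fun _ => C) := by
      funext b
      have := hC b
      rw [if_neg hpl.ne, if_pos rfl, add_zero] at this
      simp only [Pi.sub_apply, Pi.add_apply, Pi.smul_apply, constTuple]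
      rw [Algebra.smul_def]
      linear_combination this
    rw [this]
    exact add_mem (ha'.lead_mem_W hB') (T'.constTuple_mem_W C)
  obtain ⟨η, hη, hηG⟩ := T.move _ (T.U.smul_mem u0⁻¹ hBU)
  obtain ⟨⟨hmem, hnorm⟩, hnew⟩ := ha.sub_mul_lead hi hp hpe hl hpl.le le_rfl hη hηG hB
  refine ⟨κ, _, ha.κ_mem, hmem, hnorm, fun b => UnifRed.lead_zero_iff.1 ?_⟩
  convert hnew b using 1
  rw [if_neg hpl.ne, if_pos rfl]
  simp only [Pi.smul_apply]
  rw [Algebra.smul_def]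
  simp only [mul_neg, ← mul_assoc, ← map_mul, mul_inv_cancel₀ hu0, map_one, one_mul]
  ring

/-- Beyond the threshold approximations exist at every level. -/
theorem exists_approx_all (hp : p.Prime) (hu0 : u0 ≠ 0)
    (hpe : ∀ b, (S.R b).Lead e (p : F) (algebraMap k (Fb b) u0))
    (hf : ∀ b, (S.R b).Lead 0 (f / h b ^ p) 1) {T T' : S.Target p h f}
    (U2 : Submodule k (∀ b, Fb b))
    (hU2 : ∀ z ∈ T.M ⊔ T'.M, ∀ B : ∀ b, Fb b, (∀ b, (S.R b).Lead 0 (h b * z) (B b)) → B ∈ U2)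
    (hU2c : ∀ c : ι → k, constTuple c ∈ U2 → ∀ b b', c b = c b')
    (hlift : ∀ B ∈ T.W, ∀ X ∈ U2, B - u0 • X ∈ T'.W → B ∈ T.U)
    (hlift' : ∀ B ∈ T'.W, ∀ X ∈ U2, B - u0 • X ∈ T.W → B ∈ T'.U)
    {i₀ : ℕ} (hth : p * e < (p - 1) * i₀) {κ ψ κ' ψ' : F}
    (ha : T.Approx i₀ κ ψ) (ha' : T'.Approx i₀ κ' ψ') :
    ∀ i : ℕ, (∃ κ₁ ψ₁, T.Approx i κ₁ ψ₁) ∧ ∃ κ₁ ψ₁, T'.Approx i κ₁ ψ₁ := by
  intro i
  induction i with
  | zero => exact ⟨⟨κ, ψ, ha.mono (Nat.zero_le _)⟩, κ', ψ', ha'.mono (Nat.zero_le _)⟩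
  | succ n ih =>
    by_cases hn : n < i₀
    · exact ⟨⟨κ, ψ, ha.mono hn⟩, κ', ψ', ha'.mono hn⟩
    · push Not at hn
      have hlt : p * e < (p - 1) * n := lt_of_lt_of_le hth (Nat.mul_le_mul_left _ hn)
      obtain ⟨⟨κ₁, ψ₁, h1⟩, κ₂, ψ₂, h2⟩ := ih
      exact ⟨exists_approx_beyond_succ hp hu0 hpe hf U2 hU2 hU2c hlift hlt h1 h2,
        exists_approx_beyond_succ hp hu0 hpe hf U2 (fun z hz => hU2 z (by rwa [sup_comm]))
          hU2c hlift' hlt h2 h1⟩

end RedSystem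

end Fermat.Agent.MazurPrinciple

end
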