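/-
Mazur's principle at `p`, abstract part: approximations at every level in a fixed finite
dimensional space give an exact `p`-th root over an algebraically closed overfield.
-/
import Fermat.Agent.MP.SecondBeyond
import Mathlib.RingTheory.Nullstellensatz
import Mathlib.LinearAlgebra.FreeModule.Finite.Basic
import Mathlib.LinearAlgebra.Basis.VectorSpace
import Mathlib.LinearAlgebra.FiniteDimensional.Basic

set_option autoImplicit false

noncomputable section

namespace Fermat.Agent.MazurPrinciple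

universe u v w x z

variable {F : Type u} [Field F] {π : F} {k : Type w} [Field k] {ι : Type x}
  {Fb : ι → Type v} [∀ b, Field (Fb b)] [∀ b, Algebra k (Fb b)]

namespace RedSystem

variable (S : RedSystem F π k Fb)

/-- Linear functionals on `V` are bounded for the congruences scaled by `h`. -/
def IsBounded (h : ι → F) (V : Submodule S.Kc F) : Prop :=
  ∀ φ : V →ₗ[S.Kc] S.Kc, ∃ N : ℕ, ∀ (i : ℕ) (z : V),
    (∀ b, (S.R b).Div (i + N) (h b * (z : F))) → ∀ b, (S.R b).Div i ((φ z : S.Kc) : F)

theorem sum_div {b : ι} {α : Type*} (s : Finset α) {i : ℕ} {g : α → F}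
    (hg : ∀ a ∈ s, (S.R b).Div i (g a)) : (S.R b).Div i (∑ a ∈ s, g a) := by
  choose c hc using hg
  refine ⟨∑ a ∈ s.attach, c a a.2, ?_⟩
  rw [AddSubmonoidClass.coe_finsetSum, Finset.mul_sum, ← Finset.sum_attach]
  exact Finset.sum_congr rfl fun a _ => hc a a.2

theorem mul_div {b : ι} {i j : ℕ} {x y : F} (hx : (S.R b).Div i x) (hy : (S.R b).Div j y) :
    (S.R b).Div (i + j) (x * y) :=
  let ⟨_, hX⟩ := hx.exists_lead
  let ⟨_, hY⟩ := hy.exists_lead
  (hX.mul hY).div

variable [Nonempty ι] {p : ℕ} {h : ι → F} {f : F}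

open MvPolynomial in
/-- Approximate `p`-th roots at every level give an exact one over an overfield `FΩ`. -/
theorem exists_pow_eq (T : S.Target p h f) [FiniteDimensional S.Kc T.M] (hp0 : 0 < p)
    (hbM : S.IsBounded h T.M)
    (hb1 : ∀ V : Submodule S.Kc F, FiniteDimensional S.Kc V → S.IsBounded (fun _ => 1) V)
    (happ : ∀ i : ℕ, ∃ κ ψ, T.Approx i κ ψ)
    (hf : ∀ b, (S.R b).Lead 0 (f / h b ^ p) 1)
    {Ω : Type z} [Field Ω] [Algebra S.Kc Ω] [IsAlgClosed Ω]
    {FΩ : Type z} [Field FΩ] [Algebra Ω FΩ] (emb : F →+* FΩ)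
    (hemb : ∀ a : S.Kc, emb (a : F) = algebraMap Ω FΩ (algebraMap S.Kc Ω a)) :
    ∃ G : FΩ, G ^ p = emb f := by
  classical
  obtain ⟨d, ⟨bM⟩⟩ : ∃ d, Nonempty (Module.Basis (Fin d) S.Kc T.M) :=
    ⟨_, ⟨Module.finBasis S.Kc T.M⟩⟩
  let P : MvPolynomial (Option (Fin d)) F :=
    X none * (∑ j, C ((bM j : T.M) : F) * X (some j)) ^ p * C f - 1
  let V : Submodule S.Kc F := Submodule.span S.Kc (Set.range fun α : P.support => P.coeff α.1)
  have : FiniteDimensional S.Kc V := FiniteDimensional.span_of_finite _ (Set.finite_range _)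
  have hmemV : ∀ α ∈ P.support, P.coeff α ∈ V := fun α hα =>
    Submodule.subset_span ⟨⟨α, hα⟩, rfl⟩
  obtain ⟨r, ⟨bV⟩⟩ : ∃ r, Nonempty (Module.Basis (Fin r) S.Kc V) :=
    ⟨_, ⟨Module.finBasis S.Kc V⟩⟩
  let Φ : Fin r → MvPolynomial (Option (Fin d)) S.Kc := fun t =>
    ∑ α ∈ P.support.attach, monomial α.1 (bV.repr ⟨P.coeff α.1, hmemV α.1 α.2⟩ t)
  by_cases hsol : ∃ x : Option (Fin d) → Ω, ∀ t, aeval x (Φ t) = 0
  · obtain ⟨x, hx⟩ := hsol
    -- evaluate `P` at the solution
    have hP : P.eval₂ emb (fun s => algebraMap Ω FΩ (x s)) = 0 := by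
      rw [eval₂_eq', ← Finset.sum_attach]
      have hcoeff : ∀ α : P.support, emb (P.coeff α.1) = ∑ t,
          algebraMap Ω FΩ (algebraMap S.Kc Ω (bV.repr ⟨P.coeff α.1, hmemV α.1 α.2⟩ t))
            * emb ((bV t : V) : F) := by
        intro α
        conv_lhs => rw [show P.coeff α.1 = ((⟨P.coeff α.1, hmemV α.1 α.2⟩ : V) : F) from rfl,
          ← bV.sum_repr ⟨P.coeff α.1, hmemV α.1 α.2⟩]
        rw [AddSubmonoidClass.coe_finsetSum, map_sum]
        refine Finset.sum_congr rfl fun t _ => ?_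
        rw [SetLike.val_smul, Subfield.smul_def, smul_eq_mul, map_mul, hemb]
      simp only [hcoeff, Finset.sum_mul]
      rw [Finset.sum_comm]
      refine Finset.sum_eq_zero fun t _ => ?_
      have h0 := congrArg (algebraMap Ω FΩ) (hx t)
      simp only [Φ, map_sum, aeval_monomial, map_mul, map_zero, Finsupp.prod, map_prod,
        map_pow] at h0
      have h1 := congrArg (· * emb ((bV t : V) : F)) h0
      simp only [zero_mul, Finset.sum_mul] at h1
      refine Eq.trans (Finset.sum_congr rfl fun α _ => ?_) h1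
      rw [mul_right_comm, Finset.prod_subset (Finset.subset_univ α.1.support) (fun s _ hs => by
        rw [Finsupp.notMem_support_iff.1 hs, pow_zero])]
    simp only [P, eval₂_sub, eval₂_mul, eval₂_pow, eval₂_sum, eval₂_X, eval₂_C, eval₂_one,
      sub_eq_zero] at hP
    obtain ⟨ξ, hξ⟩ := IsAlgClosed.exists_pow_nat_eq (x none) hp0
    refine ⟨(algebraMap Ω FΩ ξ * ∑ j, emb ((bM j : T.M) : F) * algebraMap Ω FΩ (x (some j)))⁻¹,
      ?_⟩
    rw [inv_pow]
    refine inv_eq_of_mul_eq_one_right ?_
    rw [mul_pow, ← map_pow, hξ, hP]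
  · exfalso
    -- the equations generate the unit ideal
    push Not at hsol
    have htop : Ideal.span (Set.range Φ) = ⊤ := by
      rw [← Ideal.radical_eq_top, ← vanishingIdeal_zeroLocus_eq_radical (K := Ω)]
      rw [eq_top_iff]
      intro q _ y hy
      obtain ⟨t, ht⟩ := hsol y
      exact absurd (hy _ (Ideal.subset_span ⟨t, rfl⟩)) ht
    obtain ⟨Q, hQ⟩ : ∃ Q : Fin r → MvPolynomial (Option (Fin d)) S.Kc, ∑ t, Q t * Φ t = 1 := by
      have h1 : (1 : MvPolynomial (Option (Fin d)) S.Kc) ∈ Ideal.span (Set.range Φ) := by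
        rw [htop]; exact Submodule.mem_top
      exact Ideal.mem_span_range_iff_exists_fun.1 h1
    -- bounds on the coordinates
    choose NM hNM using fun j => hbM (bM.coord j)
    choose NV hNV using fun t => hb1 V inferInstance (bV.coord t)
    set b := Classical.arbitrary ι
    have hQb : ∀ q : MvPolynomial (Option (Fin d)) S.Kc, ∃ N : ℕ,
        ∀ y : Option (Fin d) → S.Kc,
          (∀ s, ∃ M : ℕ, M ≤ ∑ j, NM j ∧ (S.R b).Div 0 (π ^ M * (y s : F))) →
          (S.R b).Div 0 (π ^ N * ((eval y q : S.Kc) : F)) := by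
      intro q
      have hscal : ∀ a : S.Kc, ∃ N : ℕ, (S.R b).Div 0 (π ^ N * (a : F)) := by
        intro a
        have hfd : FiniteDimensional S.Kc (Submodule.span S.Kc {(1 : F)}) :=
          FiniteDimensional.span_of_finite _ (Set.finite_singleton _)
        obtain ⟨N, hN⟩ := hb1 _ hfd
          ((a • (LinearEquiv.toSpanNonzeroSingleton S.Kc F 1 one_ne_zero).symm.toLinearMap))
        refine ⟨N, ?_⟩
        have h1 := hN 0 ((⟨π ^ N, pow_mem S.π_mem_Kc N⟩ : S.Kc) •
          ⟨1, Submodule.mem_span_singleton_self 1⟩) (fun b' => ?_) b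
        · have h2 : (LinearEquiv.toSpanNonzeroSingleton S.Kc F 1 one_ne_zero).symm
              ⟨1, Submodule.mem_span_singleton_self 1⟩ = (1 : S.Kc) := by
            rw [LinearEquiv.symm_apply_eq]
            ext; simp
          rw [map_smul, LinearMap.smul_apply, LinearEquiv.coe_toLinearMap, h2] at h1
          simpa [mul_comm] using h1
        · rw [zero_add]
          refine ⟨1, ?_⟩
          simp [Subfield.smul_def]
      induction q using MvPolynomial.induction_on with
      | C a =>
        obtain ⟨N, hN⟩ := hscal a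
        exact ⟨N, fun y _ => by simpa using hN⟩
      | add q₁ q₂ h₁ h₂ =>
        obtain ⟨N₁, h₁⟩ := h₁
        obtain ⟨N₂, h₂⟩ := h₂
        refine ⟨N₁ + N₂, fun y hy => ?_⟩
        have e1 := S.mul_div (UnifRed.lead_π_pow (R := S.R b) N₂).div (h₁ y hy)
        have e2 := S.mul_div (UnifRed.lead_π_pow (R := S.R b) N₁).div (h₂ y hy)
        obtain ⟨_, l1⟩ := (e1.mono (Nat.zero_le _)).exists_lead
        obtain ⟨_, l2⟩ := (e2.mono (Nat.zero_le _)).exists_lead
        convert (l1.add l2).div using 1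
        simp only [map_add, Subfield.coe_add, pow_add]
        ring
      | mul_X q s h₁ =>
        obtain ⟨N₁, h₁⟩ := h₁
        refine ⟨N₁ + ∑ j, NM j, fun y hy => ?_⟩
        obtain ⟨M, hM, hs⟩ := hy s
        have e1 := S.mul_div (h₁ y hy) hs
        obtain ⟨c, hc⟩ := Nat.exists_eq_add_of_le (show N₁ + M ≤ N₁ + ∑ j, NM j by omega)
        have e2 := S.mul_div (UnifRed.lead_π_pow (R := S.R b) c).div e1
        convert e2.mono (Nat.zero_le _) using 1
        rw [show N₁ + ∑ j, NM j = N₁ + M + c from hc]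
        simp only [map_mul, eval_X, Subfield.coe_mul, pow_add]
        ring
    choose NQ hNQ using fun t => hQb (Q t)
    -- a very good approximation contradicts the identity
    set N := ∑ t, NV t + ∑ t, NQ t + 1 with hN
    obtain ⟨κ, ψ, ha⟩ := happ N
    let y : Option (Fin d) → S.Kc := fun s =>
      s.elim ⟨κ, ha.κ_mem⟩ (bM.repr ⟨ψ, ha.ψ_mem⟩)
    have hNpos : 0 < N := by omega
    have hy : ∀ s, ∃ M : ℕ, M ≤ ∑ j, NM j ∧ (S.R b).Div 0 (π ^ M * (y s : F)) := by
      intro s
      cases s with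
      | none => exact ⟨0, Nat.zero_le _, by simpa [y] using (ha.lead_κ hNpos (hf b)).div⟩
      | some j =>
        refine ⟨NM j, Finset.single_le_sum (fun i _ => Nat.zero_le _) (Finset.mem_univ j), ?_⟩
        have h1 := hNM j 0 ((⟨π ^ NM j, pow_mem S.π_mem_Kc _⟩ : S.Kc) • ⟨ψ, ha.ψ_mem⟩)
          (fun b' => ?_) b
        · rw [map_smul] at h1
          simpa [y] using h1
        · rw [zero_add]
          obtain ⟨c, hc, -⟩ := ha.norm b'
          refine ⟨c, ?_⟩
          rw [pow_zero, one_mul] at hc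
          rw [SetLike.val_smul, Subfield.smul_def, smul_eq_mul, ← hc]
          ring
    -- the value of `P` at `y`
    have hPy : P.eval₂ (RingHom.id F) (fun s => (y s : F)) = κ * ψ ^ p * f - 1 := by
      have hsum : (∑ j, ((bM j : T.M) : F) * (y (some j) : F)) = ψ := by
        conv_rhs => rw [show ψ = ((⟨ψ, ha.ψ_mem⟩ : T.M) : F) from rfl,
          ← bM.sum_repr ⟨ψ, ha.ψ_mem⟩]
        rw [AddSubmonoidClass.coe_finsetSum]
        refine Finset.sum_congr rfl fun j _ => ?_
        rw [SetLike.val_smul, Subfield.smul_def, smul_eq_mul, mul_comm]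
        rfl
      simp only [P, eval₂_sub, eval₂_mul, eval₂_pow, eval₂_sum, eval₂_X, eval₂_C, eval₂_one,
        RingHom.id_apply, hsum]
      rfl
    have hPV : κ * ψ ^ p * f - 1 = ∑ t, ((eval y (Φ t) : S.Kc) : F) * ((bV t : V) : F) := by
      rw [← hPy, eval₂_eq', ← Finset.sum_attach]
      simp only [Φ, map_sum, eval_monomial, AddSubmonoidClass.coe_finsetSum, Finset.sum_mul]
      rw [Finset.sum_comm]
      refine Finset.sum_congr rfl fun α _ => ?_
      conv_lhs => rw [RingHom.id_apply, show P.coeff α.1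
        = ((⟨P.coeff α.1, hmemV α.1 α.2⟩ : V) : F) from rfl,
        ← bV.sum_repr ⟨P.coeff α.1, hmemV α.1 α.2⟩]
      rw [AddSubmonoidClass.coe_finsetSum, Finset.sum_mul]
      refine Finset.sum_congr rfl fun t _ => ?_
      rw [SetLike.val_smul, Subfield.smul_def, smul_eq_mul, Subfield.coe_mul, Finsupp.prod,
        SubmonoidClass.coe_finsetProd]
      simp only [SubmonoidClass.coe_pow]
      rw [mul_right_comm, Finset.prod_subset (Finset.subset_univ α.1.support) (fun s _ hs => by
        rw [Finsupp.notMem_support_iff.1 hs, pow_zero])]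
    have hz : (⟨κ * ψ ^ p * f - 1, hPV ▸ sum_mem fun t _ => V.smul_mem (eval y (Φ t))
        (bV t).2⟩ : V) = ∑ t, (eval y (Φ t)) • bV t := by
      apply Subtype.ext
      rw [AddSubmonoidClass.coe_finsetSum]
      exact hPV
    have hΦ : ∀ t, (S.R b).Div (N - NV t) ((eval y (Φ t) : S.Kc) : F) := by
      intro t
      have hle : NV t ≤ N := by
        have := Finset.single_le_sum (f := NV) (fun i _ => Nat.zero_le _) (Finset.mem_univ t)
        omega
      have h1 := hNV t (N - NV t) ⟨κ * ψ ^ p * f - 1, hPV ▸ sum_mem fun t _ =>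
        V.smul_mem (eval y (Φ t)) (bV t).2⟩ (fun b' => by
        rw [Nat.sub_add_cancel hle, one_mul]; exact ha.div b') b
      rw [hz, map_sum] at h1
      simpa [Finsupp.single_apply] using h1
    have hone : (S.R b).Div 1 ((1 : S.Kc) : F) := by
      rw [show (1 : S.Kc) = eval y (1 : MvPolynomial (Option (Fin d)) S.Kc) by simp, ← hQ,
        map_sum, AddSubmonoidClass.coe_finsetSum]
      refine S.sum_div _ fun t _ => ?_
      have h1 := S.mul_div (hNQ t y hy) (hΦ t)
      have hNle : NQ t + 1 ≤ N - NV t := by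
        have := Finset.single_le_sum (f := NQ) (fun i _ => Nat.zero_le _) (Finset.mem_univ t)
        have := Finset.single_le_sum (f := NV) (fun i _ => Nat.zero_le _) (Finset.mem_univ t)
        omega
      obtain ⟨c, hc⟩ := h1.mono (show NQ t + 1 ≤ 0 + (N - NV t) by omega)
      refine ⟨c, ?_⟩
      rw [map_mul, Subfield.coe_mul, ← mul_right_inj' (pow_ne_zero (NQ t) (S.R b).π_ne_zero),
        ← mul_assoc, hc, pow_add, mul_assoc]
    have := (UnifRed.lead_one (R := S.R b)).unique (UnifRed.lead_zero_iff.2 (by simpa using hone))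
    exact one_ne_zero this

end RedSystem

end Fermat.Agent.MazurPrinciple

end
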