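/-
Mazur's principle at `p`, abstract part: a basis with independent reductions bounds the linear
functionals of a space of functions.
-/
import Fermat.Agent.MP.SecondExact
import Mathlib.LinearAlgebra.LinearIndependent.Basic

set_option autoImplicit false

noncomputable section

namespace Fermat.Agent.MazurPrinciple

universe u v w x

variable {F : Type u} [Field F] {π : F} {k : Type w} [Field k] {ι : Type x}
  {Fb : ι → Type v} [∀ b, Field (Fb b)] [∀ b, Algebra k (Fb b)]

namespace RedSystem

variable {S : RedSystem F π k Fb} [Nonempty ι]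

/-- The coordinates, in a basis whose scaled reductions are independent, of an element divisible
by `π ^ i` are divisible by `π ^ i`. -/
theorem div_coord {n : ℕ} {η : Fin n → F} {h : ι → F} {r : Fin n → ∀ b, Fb b}
    (hr : ∀ t b, (S.R b).Lead 0 (h b * η t) (r t b)) (hind : LinearIndependent k r)
    (hKc : ∀ a ∈ S.Kc, ∃ M : ℕ, ∀ b, (S.R b).Div 0 (π ^ M * a))
    {i : ℕ} {c : Fin n → S.Kc}
    (hdiv : ∀ b, (S.R b).Div i (h b * ∑ t, (c t : F) * η t)) :
    ∀ t b, (S.R b).Div i (c t : F) := by
  classical
  -- if all coordinates are integral up to `π ^ M`, one of these powers of `π` can be removed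
  have step : ∀ M : ℕ, ∀ d : Fin n → S.Kc, (∀ t b, (S.R b).Div 0 (d t : F)) →
      (∀ b, (S.R b).Div (M + 1) (h b * ∑ t, (d t : F) * η t)) →
      ∀ t b, (S.R b).Div 1 (d t : F) := by
    intro M d hd hsum
    choose e he using fun t => S.const_residue (d t : F) (d t).2 (Classical.arbitrary ι)
      (hd t (Classical.arbitrary ι))
    have hzero : ∑ t, e t • r t = 0 := by
      funext b
      rw [Finset.sum_apply, Pi.zero_apply]
      obtain ⟨X, hX⟩ := ((hsum b).mono (Nat.zero_le _)).exists_lead
      have hX0 : X = 0 := hX.unique ((hsum b).lead_zero (by omega))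
      have hsum' : ∀ s : Finset (Fin n), (S.R b).Lead 0 (∑ t ∈ s, h b * ((d t : F) * η t))
          (∑ t ∈ s, e t • r t b) := by
        intro s
        induction s using Finset.induction with
        | empty => simpa using UnifRed.lead_zero_zero (R := S.R b) 0
        | insert t s hts ih =>
          rw [Finset.sum_insert hts, Finset.sum_insert hts]
          refine UnifRed.Lead.add ?_ ih
          have := (he t b).mul (hr t b)
          rw [Algebra.smul_def]
          convert this using 1
          ring
      have h1 := hsum' Finset.univ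
      rw [← Finset.mul_sum] at h1
      exact (h1.unique (hX0 ▸ hX))
    have he0 := Fintype.linearIndependent_iff.1 hind e hzero
    intro t b
    rw [← UnifRed.lead_zero_iff]
    simpa [he0 t] using he t b
  -- integrality
  have hint : ∀ t b, (S.R b).Div 0 (c t : F) := by
    have key : ∀ M : ℕ, (∀ t b, (S.R b).Div 0 (π ^ M * (c t : F))) →
        ∀ t b, (S.R b).Div 0 (c t : F) := by
      intro M
      induction M with
      | zero => intro hM; simpa using hM
      | succ M ih =>
        intro hM
        refine ih fun t b => ?_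
        have hpow : π ^ (M + 1) ∈ S.Kc := pow_mem S.π_mem_Kc _
        have hsumM : ∀ b, (S.R b).Div (M + 1)
            (h b * ∑ t, (((⟨π ^ (M + 1), hpow⟩ : S.Kc) * c t : S.Kc) : F) * η t) := by
          intro b
          have h2 := S.mul_div (UnifRed.lead_π_pow (R := S.R b) (M + 1)).div
            ((hdiv b).mono (Nat.zero_le i))
          rw [add_zero] at h2
          convert h2 using 1
          rw [mul_left_comm, Finset.mul_sum]
          simp only [Finset.mul_sum, Subfield.coe_mul, mul_assoc]
        obtain ⟨u, hu⟩ := step M (fun t => (⟨π ^ (M + 1), hpow⟩ : S.Kc) * c t) hM hsumM t b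
        refine ⟨u, ?_⟩
        simp only [Subfield.coe_mul, pow_succ', pow_zero] at hu
        rw [pow_zero, one_mul, ← mul_right_inj' (S.R b).π_ne_zero, ← mul_assoc]
        simpa using hu
    choose M hM using fun t => hKc (c t : F) (c t).2
    refine key (∑ t, M t) fun t b => ?_
    obtain ⟨d, hd⟩ := Nat.exists_eq_add_of_le
      (Finset.single_le_sum (f := M) (fun t _ => Nat.zero_le _) (Finset.mem_univ t))
    have := S.mul_div (UnifRed.lead_π_pow (R := S.R b) d).div (hM t b)
    rw [hd, add_comm (M t) d, pow_add, mul_assoc]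
    exact this.mono (Nat.zero_le _)
  -- divisibility
  induction i generalizing c with
  | zero => exact hint
  | succ i ih =>
    have h1 := step i c hint hdiv
    intro t b
    have hπ : π ∈ S.Kc := S.π_mem_Kc
    have hc' : ∀ b, (S.R b).Div i (h b * ∑ t, ((⟨π, hπ⟩⁻¹ * c t : S.Kc) : F) * η t) := by
      intro b
      obtain ⟨u, hu⟩ := hdiv b
      refine ⟨u, ?_⟩
      rw [← mul_right_inj' (S.R b).π_ne_zero, ← mul_assoc π (π ^ i), ← pow_succ', ← hu]
      simp only [Finset.mul_sum, Subfield.coe_mul, Subfield.coe_inv]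
      refine Finset.sum_congr rfl fun t _ => ?_
      field_simp [(S.R b).π_ne_zero]
    have hint' : ∀ t b, (S.R b).Div 0 (((⟨π, hπ⟩⁻¹ * c t : S.Kc) : F)) := by
      intro t b
      obtain ⟨u, hu⟩ := h1 t b
      refine ⟨u, ?_⟩
      rw [Subfield.coe_mul, Subfield.coe_inv, hu, pow_one, pow_zero, one_mul, ← mul_assoc,
        inv_mul_cancel₀ (S.R b).π_ne_zero, one_mul]
    obtain ⟨u, hu⟩ := ih hc' hint' t b
    refine ⟨u, ?_⟩
    rw [Subfield.coe_mul, Subfield.coe_inv, inv_mul_eq_iff_eq_mul₀ (S.R b).π_ne_zero] at hu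
    rw [hu, pow_succ']
    ring

/-- A basis with independent scaled reductions makes all functionals bounded. -/
theorem isBounded_of_basis {n : ℕ} {h : ι → F} {V : Submodule S.Kc F}
    (η : Module.Basis (Fin n) S.Kc V) {r : Fin n → ∀ b, Fb b}
    (hr : ∀ t b, (S.R b).Lead 0 (h b * ((η t : V) : F)) (r t b))
    (hind : LinearIndependent k r)
    (hKc : ∀ a ∈ S.Kc, ∃ M : ℕ, ∀ b, (S.R b).Div 0 (π ^ M * a)) : S.IsBounded h V := by
  intro φ
  choose M hM using fun t => hKc ((φ (η t) : S.Kc) : F) (φ (η t)).2
  refine ⟨∑ t, M t, fun i z hz b => ?_⟩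
  have hz' : ∀ b', (S.R b').Div (i + ∑ t, M t)
      (h b' * ∑ t, ((η.repr z t : S.Kc) : F) * ((η t : V) : F)) := by
    intro b'
    convert hz b' using 2
    conv_rhs => rw [← η.sum_repr z]
    rw [AddSubmonoidClass.coe_finsetSum]
    exact Finset.sum_congr rfl fun t _ => rfl
  have hc := div_coord hr hind hKc hz'
  rw [show φ z = ∑ t, η.repr z t • φ (η t) by
    conv_lhs => rw [← η.sum_repr z]
    rw [map_sum]; simp only [map_smul]]
  rw [AddSubmonoidClass.coe_finsetSum]
  refine S.sum_div _ fun t _ => ?_
  rw [smul_eq_mul, Subfield.coe_mul]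
  obtain ⟨u, hu⟩ := ((hc t b).mono (show i + M t ≤ i + ∑ t, M t by
    have := Finset.single_le_sum (f := M) (fun t _ => Nat.zero_le _) (Finset.mem_univ t)
    omega))
  obtain ⟨u', hu'⟩ := hM t b
  refine ⟨u * u', ?_⟩
  rw [pow_zero, one_mul] at hu'
  rw [hu, pow_add, Subring.coe_mul, ← hu']
  ring

end RedSystem

end Fermat.Agent.MazurPrinciple

end
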