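/-
Mazur's principle at `p`: the spaces of `p`-th roots `L(D + ⌊div f / p⌋)` of a function `f`.
-/
import Fermat.Agent.Bad.GluingValue

set_option autoImplicit false

noncomputable section

namespace Fermat.Agent.MazurPrinciple.Move

open AlgebraicCurve Fermat.Agent.Curve Fermat.Agent.Curve.RedAux

universe uK uF

variable {K : Type uK} [Field K] {F : Type uF} [Field F] [Algebra K F]

/-- `⌊D / p⌋`. -/
def floorDiv (p : ℕ) (D : Divisor K F) : Divisor K F :=
  D.mapRange (fun z => z / (p : ℤ)) (Int.zero_ediv _)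

@[simp]
theorem floorDiv_apply (p : ℕ) (D : Divisor K F) (v : Place K F) :
    floorDiv p D v = D v / (p : ℤ) := rfl

/-- The number of places where `p` does not divide `D`. -/
def indivisible (p : ℕ) (D : Divisor K F) : Finset (Place K F) :=
  D.support.filter fun v => ¬ (p : ℤ) ∣ D v

theorem mem_indivisible {p : ℕ} {D : Divisor K F} {v : Place K F} :
    v ∈ indivisible p D ↔ ¬ (p : ℤ) ∣ D v := by
  simp only [indivisible, Finset.mem_filter, Finsupp.mem_support_iff]
  exact and_iff_right_of_imp fun h h0 => h (h0 ▸ dvd_zero _)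

theorem floorDiv_add_floorDiv_neg {p : ℕ} (hp : 0 < p) (D : Divisor K F) (v : Place K F) :
    floorDiv p D v + floorDiv p (-D) v = if (p : ℤ) ∣ D v then 0 else -1 := by
  rw [floorDiv_apply, floorDiv_apply, Finsupp.neg_apply]
  have hp' : (0 : ℤ) < p := by exact_mod_cast hp
  split_ifs with h
  · rw [Int.neg_ediv_of_dvd h]
    ring
  · have h1 := Int.mul_ediv_add_emod (D v) p
    have h2 := Int.mul_ediv_add_emod (-D v) p
    have h3 := Int.emod_nonneg (D v) hp'.ne'
    have h4 := Int.emod_lt_of_pos (D v) hp'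
    have h5 := Int.emod_nonneg (-D v) hp'.ne'
    have h6 := Int.emod_lt_of_pos (-D v) hp'
    have h7 : D v % (p : ℤ) ≠ 0 := fun h0 => h (Int.dvd_of_emod_eq_zero h0)
    rcases lt_trichotomy (D v / (p : ℤ) + -D v / (p : ℤ)) (-1) with h8 | h8 | h8
    · have h9 : (p : ℤ) * (D v / (p : ℤ) + -D v / (p : ℤ)) ≤ (p : ℤ) * (-2) :=
        mul_le_mul_of_nonneg_left (by omega) hp'.le
      linarith
    · exact h8
    · have h9 : (0 : ℤ) ≤ (p : ℤ) * (D v / (p : ℤ) + -D v / (p : ℤ)) :=
        mul_nonneg hp'.le (by omega)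
      have h10 : (p : ℤ) * (D v / (p : ℤ) + -D v / (p : ℤ))
          = -(D v % (p : ℤ) + -D v % (p : ℤ)) := by rw [mul_add]; linarith
      omega

variable [IsFunctionFieldOne K F]

/-- `ψ` with `div (ψ ^ p f) ≥ -p • D`. -/
def rootSp (p : ℕ) (D : Divisor K F) (f : F) : Submodule K F :=
  riemannRochSpace (D + floorDiv p (divisorOf K f))

theorem pow_mul_mem {p : ℕ} (hp : 0 < p) {D : Divisor K F} {f ψ : F}
    (hψ : ψ ∈ rootSp p D f) : ψ ^ p * f ∈ riemannRochSpace (p • D) := by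
  rcases eq_or_ne (ψ ^ p * f) 0 with h0 | h0
  · rw [h0]; exact Submodule.zero_mem _
  have hψ0 : ψ ≠ 0 := fun h => h0 (by rw [h, zero_pow hp.ne', zero_mul])
  have hf0 : f ≠ 0 := right_ne_zero_of_mul h0
  rw [mem_L_iff h0]
  intro v
  have h1 := (mem_L_iff hψ0).1 hψ v
  rw [Finsupp.add_apply, floorDiv_apply, divisorOf_apply] at h1
  rw [v.ord_mul (pow_ne_zero _ hψ0) hf0, Curve.ord_pow v, Finsupp.smul_apply, nsmul_eq_mul]
  have hp' : (0 : ℤ) < p := by exact_mod_cast hp
  have h2 := Int.ediv_mul_le (v.ord f) hp'.ne'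
  nlinarith

theorem mem_rootSp_iff {p : ℕ} (hp : 0 < p) {D : Divisor K F} {f ψ : F} (hψ0 : ψ ≠ 0)
    (hf0 : f ≠ 0) : ψ ∈ rootSp p D f ↔ ψ ^ p * f ∈ riemannRochSpace (p • D) := by
  refine ⟨pow_mul_mem hp, fun h => ?_⟩
  rw [mem_L_iff (mul_ne_zero (pow_ne_zero _ hψ0) hf0)] at h
  rw [rootSp, mem_L_iff hψ0]
  intro v
  have h1 := h v
  rw [v.ord_mul (pow_ne_zero _ hψ0) hf0, Curve.ord_pow v, Finsupp.smul_apply, nsmul_eq_mul] at h1
  rw [Finsupp.add_apply, floorDiv_apply, divisorOf_apply]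
  have hp' : (0 : ℤ) < p := by exact_mod_cast hp
  have h3 : -(D v) - v.ord ψ ≤ v.ord f / (p : ℤ) :=
    (Int.le_ediv_iff_mul_le hp').2 (by nlinarith)
  omega

theorem degree_floorDiv_add_neg [IsAlgClosed K] {p : ℕ} (hp : 0 < p) (D : Divisor K F) :
    Divisor.degree (floorDiv p D) + Divisor.degree (floorDiv p (-D))
      = -((indivisible p D).card : ℤ) := by
  classical
  have hsum : floorDiv p D + floorDiv p (-D)
      = -∑ v ∈ indivisible p D, Finsupp.single v (1 : ℤ) := by
    refine Finsupp.ext fun w => ?_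
    rw [Finsupp.add_apply, floorDiv_add_floorDiv_neg hp, Finsupp.neg_apply,
      Finsupp.finsetSum_apply]
    simp only [Finsupp.single_apply, Finset.sum_ite_eq']
    by_cases hw : (p : ℤ) ∣ D w
    · rw [if_pos hw, if_neg (fun h => mem_indivisible.1 h hw), neg_zero]
    · rw [if_neg hw, if_pos (mem_indivisible.2 hw)]
  rw [← map_add, hsum, map_neg, map_sum]
  simp [Divisor.degree_single, deg_one]

end Fermat.Agent.MazurPrinciple.Move

end
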