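/-
Mazur's principle at `p`: moving `p`-th roots away from the nodes by counting dimensions.

For a function `f` scaled to have reductions `φ`, the reductions of the scaled space
`{ψ | div (ψ ^ p f) ≥ -p N poleX}` are all tuples `r` with `r ^ p φ` bounded and glued.
-/
import Fermat.Agent.MP.SecondMoveFloor
import Fermat.Agent.Bad.GluingFibre
import Fermat.Agent.Ribet.SecondMPSlot

set_option autoImplicit false

noncomputable section

namespace Fermat.Agent.MazurPrinciple.Move

open AlgebraicCurve IntermediateField Fermat.Agent.Curve Fermat.Agent.Curve.RedAux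
open Fermat.Agent.Bad Fermat.Agent.Bad.MultiReduction Fermat.Agent.Ribet.Slot

universe uK uF uι uk uFb uS

variable {K : Type uK} [Field K] {A : ValuationSubring K}
  {F : Type uF} [Field F] [Algebra K F] {ι : Type uι} [Fintype ι]
  {k : Type uk} [Field k] {Fb : ι → Type uFb} [∀ i, Field (Fb i)] [∀ i, Algebra k (Fb i)]
  [IsAlgClosed K] [IsFunctionFieldOne K F] [∀ i, IsFunctionFieldOne k (Fb i)]

/-- The nodes of a special fibre: pairs of branches at which values match, as many as the drop of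
the genus. -/
structure NodePairs (R : MultiReduction A F k Fb) (S : Type uS) [Fintype S] where
  /-- the two branches at a node -/
  br : S → Fin 2 → Σ i, Place k (Fb i)
  br_injective : Function.Injective fun x : S × Fin 2 => br x.1 x.2
  regular : ∀ s j, 0 ≤ (br s j).2.ord (R.xb (br s j).1)
  matched : ∀ (N : ℕ), ∀ h ∈ R.spFibre (R.polarSp N), ∀ s,
    bval (br s 0) h = bval (br s 1) h
  count : (Fintype.card S : ℤ)
    = (∑ i, (1 - (genusFF k (Fb i) : ℤ))) - (1 - (genusFF K F : ℤ))

variable {R : MultiReduction A F k Fb} {S : Type uS} [Fintype S] {P : NodePairs R S}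
  {p : ℕ} [hp : Fact p.Prime] [CharP k p]

variable (k) in
omit [IsAlgClosed K] [Fintype ι] [IsFunctionFieldOne K F] [∀ i, IsFunctionFieldOne k (Fb i)] in
include k in
theorem add_pow_p [CharP k p] (i : ι) (x y : Fb i) : (x + y) ^ p = x ^ p + y ^ p := by
  haveI := charP_of_injective_algebraMap (algebraMap k (Fb i)).injective p
  exact add_pow_char x y p

theorem poleBound_eq_zero {N : ℕ} {b : Σ i, Place k (Fb i)} (hb : 0 ≤ b.2.ord (R.xb b.1)) :
    (N • poleDivisor k (R.xb b.1)) b.2 = 0 := by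
  simp [max_eq_right (show -(b.2.ord (R.xb b.1)) ≤ 0 by omega)]

variable (R p) in
/-- The bound for roots on the components. -/
def rootPolar (φ : ∀ i, Fb i) (N : ℕ) : Submodule k (∀ i, Fb i) :=
  Submodule.pi Set.univ fun i => rootSp p (N • poleDivisor k (R.xb i)) (φ i)

variable {φ : ∀ i, Fb i} {N : ℕ}

theorem mem_rootPolar {r : ∀ i, Fb i} :
    r ∈ rootPolar R p φ N ↔ ∀ i, r i ∈ rootSp p (N • poleDivisor k (R.xb i)) (φ i) := by
  simp [rootPolar]

theorem pow_mul_mem_polarFibre {r : ∀ i, Fb i} (hr : r ∈ rootPolar R p φ N) :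
    (fun i => r i ^ p * φ i) ∈ R.polarFibre (p * N) := by
  rw [R.mem_polarFibre]
  intro i
  rw [mul_comm p N, mul_nsmul]
  exact pow_mul_mem hp.out.pos (mem_rootPolar.1 hr i)

theorem mem_branch {r : ∀ i, Fb i} (hr : r ∈ rootPolar R p φ N) {b : Σ i, Place k (Fb i)}
    (hb : 0 ≤ b.2.ord (R.xb b.1)) :
    r b.1 ^ p * φ b.1 ∈ b.2.toValuationSubring :=
  R.mem_of_mem_polarFibre (pow_mul_mem_polarFibre hr) hb

variable (P p) in
/-- Tuples `r` with `r ^ p φ` bounded and glued. -/
def rootFibre (φ : ∀ i, Fb i) (N : ℕ) : Submodule k (∀ i, Fb i) where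
  carrier := {r | r ∈ rootPolar R p φ N ∧ ∀ s,
    bval (P.br s 0) (fun i => r i ^ p * φ i) = bval (P.br s 1) (fun i => r i ^ p * φ i)}
  zero_mem' := by
    refine ⟨zero_mem _, fun s => ?_⟩
    haveI := R.isAlgClosed_residue
    simp only [Pi.zero_apply, zero_pow hp.out.ne_zero, zero_mul, bval]
    rw [placeValue_zero, placeValue_zero]
  add_mem' := by
    rintro r r' ⟨hr, hr'⟩ ⟨hs, hs'⟩
    haveI := R.isAlgClosed_residue
    refine ⟨add_mem hr hs, fun s => ?_⟩
    simp only [Pi.add_apply, add_pow_p k, add_mul, bval]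
    rw [placeValue_add _ (mem_branch hr (P.regular s 0)) (mem_branch hs (P.regular s 0)),
      placeValue_add _ (mem_branch hr (P.regular s 1)) (mem_branch hs (P.regular s 1))]
    exact congrArg₂ (· + ·) (hr' s) (hs' s)
  smul_mem' := by
    rintro c r ⟨hr, hr'⟩
    haveI := R.isAlgClosed_residue
    refine ⟨Submodule.smul_mem _ c hr, fun s => ?_⟩
    simp only [Pi.smul_apply, smul_pow, smul_mul_assoc, bval]
    rw [placeValue_smul _ _ (mem_branch hr (P.regular s 0)),
      placeValue_smul _ _ (mem_branch hr (P.regular s 1))]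
    exact congrArg _ (hr' s)

theorem mem_rootFibre {r : ∀ i, Fb i} :
    r ∈ rootFibre P p φ N ↔ r ∈ rootPolar R p φ N ∧ ∀ s,
      bval (P.br s 0) (fun i => r i ^ p * φ i) = bval (P.br s 1) (fun i => r i ^ p * φ i) :=
  Iff.rfl

omit [IsAlgClosed K] [∀ i, IsFunctionFieldOne k (Fb i)] hp [CharP k p]
  [IsFunctionFieldOne K F] in
/-- Reductions of scaled roots. -/
theorem isSlot_pow_mul {c d : ι → K} {f ψ : F} {r : ∀ i, Fb i} (hc : IsSlot R c f φ)
    (hd : ∀ i, d i ^ p * c i = 1) (h : IsSlot R d ψ r) :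
    IsSlot R 1 (ψ ^ p * f) fun i => r i ^ p * φ i := by
  have h' := (h.pow p).mul hc
  rw [show d ^ p * c = 1 from funext hd] at h'
  exact h'

theorem slotFibre_le {c d : ι → K} {f : F} (hf : f ≠ 0) (hc : IsSlot R c f φ)
    (hφ : ∀ i, φ i ≠ 0) (hd : ∀ i, d i ^ p * c i = 1) :
    slotFibre (R := R) d (rootSp p (N • R.poleX) f) ≤ rootFibre P p φ N := by
  rintro r ⟨ψ, hψ, h⟩
  have h1 := isSlot_pow_mul hc hd h
  have hmem : (fun i => r i ^ p * φ i) ∈ R.spFibre (R.polarSp (p * N)) := by
    refine ⟨⟨ψ ^ p * f, R.mem_integers.2 fun i => by obtain ⟨hV, _⟩ := h1 i; simpa using hV⟩, ?_, ?_⟩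
    · unfold polarSp
      rw [mul_comm p N, mul_nsmul]
      exact pow_mul_mem hp.out.pos hψ
    · funext i
      obtain ⟨hV, he⟩ := h1 i
      rw [R.red_apply]
      refine Eq.trans ?_ he
      exact congrArg _ (Subtype.ext (by simp))
  refine ⟨mem_rootPolar.2 fun i => ?_, fun s => P.matched _ _ hmem s⟩
  rcases eq_or_ne (r i) 0 with h0 | h0
  · rw [h0]; exact zero_mem _
  · have h2 := R.spFibre_polar_le _ hmem
    rw [R.mem_polarFibre] at h2
    have h3 := h2 i
    rw [mul_comm p N, mul_nsmul] at h3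
    exact (mem_rootSp_iff hp.out.pos h0 (hφ i)).2 h3

/-- At a branch where `p` does not divide the order of `φ`, values of `r ^ p φ` vanish. -/
theorem bval_eq_zero_of_not_dvd (hφ : ∀ i, φ i ≠ 0) {r : ∀ i, Fb i}
    (hr : r ∈ rootPolar R p φ N) {b : Σ i, Place k (Fb i)} (hb : 0 ≤ b.2.ord (R.xb b.1))
    (hdiv : ¬ (p : ℤ) ∣ b.2.ord (φ b.1)) : bval b (fun i => r i ^ p * φ i) = 0 := by
  haveI := R.isAlgClosed_residue
  refine (placeValue_eq_zero_iff _ (mem_branch hr hb)).2 ?_
  rcases eq_or_ne (r b.1) 0 with h0 | h0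
  · left; rw [h0, zero_pow hp.out.ne_zero, zero_mul]
  · right
    have h1 := ord_nonneg_of_mem b.2 (mem_branch hr hb)
    rw [b.2.ord_mul (pow_ne_zero _ h0) (hφ _), Curve.ord_pow b.2] at h1 ⊢
    rcases lt_or_eq_of_le h1 with h | h
    · omega
    · exact absurd ⟨-(b.2.ord (r b.1)), by rw [mul_neg]; omega⟩ hdiv

/-- A tuple with a prescribed non-zero value at one branch and zero values at the other
branches of the nodes. -/
theorem exists_single_value (P : NodePairs R S) (φ : ∀ i, Fb i) (hφ : ∀ i, φ i ≠ 0) :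
    ∃ N₀ : ℕ, ∀ N, N₀ ≤ N → ∀ b : Σ i, Place k (Fb i), 0 ≤ b.2.ord (R.xb b.1) →
      (p : ℤ) ∣ b.2.ord (φ b.1) → ∃ r ∈ rootPolar R p φ N,
        bval b (fun i => r i ^ p * φ i) ≠ 0 ∧
        ∀ s j, P.br s j ≠ b → bval (P.br s j) (fun i => r i ^ p * φ i) = 0 := by
  classical
  haveI := R.isAlgClosed_residue
  choose c hc using fun i => exists_exact_pole (k := k) (E := Fb i)
  refine ⟨∑ i, (c i + 2 * (Fintype.card S : ℤ)
    - Divisor.degree (floorDiv p (divisorOf k (φ i)))).toNat, fun N hN b hb hdvd => ?_⟩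
  obtain ⟨i, v⟩ := b
  set O : Finset (Place k (Fb i)) :=
    ((Finset.univ : Finset (S × Fin 2)).filter fun x => P.br x.1 x.2 ≠ ⟨i, v⟩).biUnion
      fun x => if h : (P.br x.1 x.2).1 = i then {h ▸ (P.br x.1 x.2).2} else ∅ with hO
  have hcardO : O.card ≤ 2 * Fintype.card S := by
    refine Finset.card_biUnion_le.trans ?_
    refine (Finset.sum_le_card_nsmul _ _ 1 fun x _ => ?_).trans ?_
    · split_ifs <;> simp
    · rw [smul_eq_mul, mul_one]
      refine (Finset.card_filter_le _ _).trans ?_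
      simp [mul_comm]
  have hvO : v ∉ O := by
    intro hv
    simp only [hO, Finset.mem_biUnion, Finset.mem_filter, Finset.mem_univ, true_and] at hv
    obtain ⟨x, hx, hv⟩ := hv
    generalize hbx : P.br x.1 x.2 = bx at hx hv
    obtain ⟨i', v'⟩ := bx
    split_ifs at hv with h
    · subst h
      simp only [Finset.mem_singleton] at hv
      exact hx (by rw [hv])
    · simp at hv
  set D : Divisor k (Fb i) := N • poleDivisor k (R.xb i) + floorDiv p (divisorOf k (φ i))
    - ∑ w ∈ O, Finsupp.single w 1 with hD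
  have hdeg : c i ≤ Divisor.degree D := by
    rw [hD, map_sub, map_add, map_nsmul, map_sum,
      degree_poleDivisor (t := R.xb i) (R.x_transcendental i)]
    simp only [Divisor.degree_single, deg_one, Nat.cast_one, mul_one, Finset.sum_const,
      nsmul_eq_mul]
    have h1 : (c i + 2 * (Fintype.card S : ℤ)
        - Divisor.degree (floorDiv p (divisorOf k (φ i)))).toNat ≤ N :=
      le_trans (Finset.single_le_sum (f := fun i => (c i + 2 * (Fintype.card S : ℤ)
        - Divisor.degree (floorDiv p (divisorOf k (φ i)))).toNat) (fun _ _ => Nat.zero_le _)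
        (Finset.mem_univ i)) hN
    have h2 : (N : ℤ) * 1 ≤ (N : ℤ) * (Module.finrank k⟮R.xb i⟯ (Fb i) : ℤ) :=
      mul_le_mul_of_nonneg_left (by exact_mod_cast R.degree_pos i) (by positivity)
    omega
  obtain ⟨w, hw, hw0, hword⟩ := hc i D v hdeg
  have hDle : D ≤ N • poleDivisor k (R.xb i) + floorDiv p (divisorOf k (φ i)) := by
    rw [hD]
    refine sub_le_self _ (Finset.sum_nonneg fun _ _ => ?_)
    exact Finsupp.single_nonneg.2 zero_le_one
  have hrmem : Pi.single i w ∈ rootPolar R p φ N := by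
    refine mem_rootPolar.2 fun i' => ?_
    rcases eq_or_ne i' i with rfl | hne
    · rw [Pi.single_eq_same]
      exact L_mono hDle hw
    · rw [Pi.single_eq_of_ne hne]; exact zero_mem _
  refine ⟨Pi.single i w, hrmem, ?_, fun s j hsj => ?_⟩
  · refine (placeValue_ne_zero_iff _ (mem_branch (b := ⟨i, v⟩) hrmem hb)).2 ?_
    simp only [Pi.single_eq_same]
    refine ⟨mul_ne_zero (pow_ne_zero _ hw0) (hφ i), ?_⟩
    rw [v.ord_mul (pow_ne_zero _ hw0) (hφ i), Curve.ord_pow v, hword, hD, Finsupp.sub_apply,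
      Finsupp.add_apply, poleBound_eq_zero (b := ⟨i, v⟩) hb, Finsupp.finsetSum_apply]
    simp only [Finsupp.single_apply, Finset.sum_ite_eq', hvO, if_false, zero_add, sub_zero,
      floorDiv_apply, divisorOf_apply]
    obtain ⟨q, hq⟩ := hdvd
    simp only at hq
    rw [hq, Int.mul_ediv_cancel_left _ (by exact_mod_cast hp.out.ne_zero)]
    ring
  · have hreg := P.regular s j
    have hmem := mem_branch (b := P.br s j) hrmem hreg
    refine (placeValue_eq_zero_iff _ hmem).2 ?_
    have hO' : ∀ h : (P.br s j).1 = i, h ▸ (P.br s j).2 ∈ O := fun h => by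
      simp only [hO, Finset.mem_biUnion, Finset.mem_filter, Finset.mem_univ, true_and]
      exact ⟨(s, j), hsj, by simp [h]⟩
    revert hreg hmem hO' hsj
    generalize P.br s j = bx
    obtain ⟨i', v'⟩ := bx
    intro hsj hreg hmem hO'
    rcases eq_or_ne i' i with rfl | hne
    · right
      have hv'O : v' ∈ O := hO' rfl
      simp only [Pi.single_eq_same]
      have h1 := (mem_L_iff hw0).1 hw v'
      rw [hD, Finsupp.sub_apply, Finsupp.add_apply, poleBound_eq_zero (b := ⟨i', v'⟩) hreg,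
        Finsupp.finsetSum_apply] at h1
      simp only [Finsupp.single_apply, Finset.sum_ite_eq', hv'O, if_true, zero_add,
        floorDiv_apply, divisorOf_apply] at h1
      rw [v'.ord_mul (pow_ne_zero _ hw0) (hφ i'), Curve.ord_pow v']
      have hp' : (0 : ℤ) < p := by exact_mod_cast hp.out.pos
      have h2 := Int.lt_ediv_add_one_mul_self (v'.ord (φ i')) hp'
      have h3 : (p : ℤ) * (1 - v'.ord (φ i') / (p : ℤ)) ≤ (p : ℤ) * v'.ord w :=
        mul_le_mul_of_nonneg_left (by omega) hp'.le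
      have h4 := Int.mul_ediv_add_emod (v'.ord (φ i')) p
      have h5 := Int.emod_nonneg (v'.ord (φ i')) hp'.ne'
      rw [mul_sub, mul_one] at h3
      omega
    · left
      simp only [Pi.single_eq_of_ne hne, zero_pow hp.out.ne_zero, zero_mul]

end Fermat.Agent.MazurPrinciple.Move

end
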