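/-
Mazur's principle at `p`: a reduction of a function field restricted to the functions fixed by a
group acting on the constants (`Descent`), as a `RedSystem`.
-/
import Fermat.Agent.MP.SecondCompare
import Fermat.Agent.MP.SecondMove

set_option autoImplicit false

noncomputable section

namespace Fermat.Agent.MazurPrinciple.Move

open AlgebraicCurve IntermediateField Fermat.Agent.Curve Fermat.Agent.Curve.RedAux
open Fermat.Agent.Bad Fermat.Agent.Bad.MultiReduction Fermat.Agent.Ribet.Slot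

universe uK uF uι uk uFb

variable {K : Type uK} [Field K] {A : ValuationSubring K}
  {F : Type uF} [Field F] [Algebra K F] {ι : Type uι} [Fintype ι]
  {k : Type uk} [Field k] {Fb : ι → Type uFb} [∀ i, Field (Fb i)] [∀ i, Algebra k (Fb i)]

/-- The fixed constants `K0`, with uniformiser `ϖ`, and the fixed functions `F0`. -/
structure Descent (R : MultiReduction A F k Fb) where
  /-- fixed constants -/
  K0 : Subfield K
  /-- fixed functions -/
  F0 : Subfield F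
  algebraMap_mem : ∀ a ∈ K0, algebraMap K F a ∈ F0
  /-- uniformiser -/
  ϖ : K
  ϖ_mem : ϖ ∈ K0
  ϖ_ne_zero : ϖ ≠ 0
  ϖ_nonunit : ϖ ∈ A.nonunits
  div_ϖ : ∀ a ∈ K0, a ∈ A.nonunits → a / ϖ ∈ A
  exists_lift : ∀ c : k, ∃ a : A, (a : K) ∈ K0 ∧ R.π a = c
  exists_pow_mul_mem : ∀ a ∈ K0, ∃ M : ℕ, ϖ ^ M * a ∈ A
  exists_scale : ∀ i, ∀ f ∈ F0, f ≠ 0 →
    ∃ c ∈ K0, ∃ h : c • f ∈ R.V i, R.φ i ⟨c • f, h⟩ ≠ 0
  indep : ∀ {n : ℕ} (v : Fin n → F), (∀ t, v t ∈ F0) → LinearIndependent K0 v →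
    LinearIndependent K v

variable {R : MultiReduction A F k Fb}

namespace Descent

variable (D : Descent R)

/-- The uniformiser as a fixed function. -/
def πF : D.F0 := ⟨algebraMap K F D.ϖ, D.algebraMap_mem _ D.ϖ_mem⟩

theorem ϖ_mem_A : D.ϖ ∈ A := A.nonunits_subset D.ϖ_nonunit

theorem π_ϖ : R.π ⟨D.ϖ, D.ϖ_mem_A⟩ = 0 := by
  rw [R.π_eq_zero_iff_mem, ← ValuationSubring.coe_mem_nonunits_iff]
  exact D.ϖ_nonunit

theorem coe_πF : (D.πF : F) = algebraMap K F D.ϖ := rfl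

theorem smul_mem {a : K} (ha : a ∈ D.K0) {f : F} (hf : f ∈ D.F0) : a • f ∈ D.F0 := by
  rw [Algebra.smul_def]; exact mul_mem (D.algebraMap_mem a ha) hf

theorem ϖ_mul_div {i : ι} {x : F} (hx : x ∈ D.F0) (hV : x ∈ R.V i) (h0 : R.φ i ⟨x, hV⟩ = 0) :
    D.ϖ⁻¹ • x ∈ R.V i := by
  rcases eq_or_ne x 0 with rfl | hx0
  · rw [smul_zero]; exact zero_mem _
  obtain ⟨c, hc, hcV, hcφ⟩ := D.exists_scale i x hx hx0
  have hc0 : c ≠ 0 := by
    rintro rfl
    refine hcφ ?_
    rw [← map_zero (R.φ i)]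
    exact congrArg _ (Subtype.ext (zero_smul K x))
  have hcA : c⁻¹ ∈ A.nonunits := by
    by_contra hnu
    have hcmem : c ∈ A := by
      by_contra hc'
      refine hnu ?_
      rw [A.mem_nonunits_iff, map_inv₀]
      exact inv_lt_one_of_one_lt₀ (lt_of_not_ge fun h => hc' ((A.valuation_le_one_iff c).1 h))
    refine hcφ ?_
    rw [show (⟨c • x, hcV⟩ : R.V i)
        = ⟨algebraMap K F c, (R.mem_V_iff i c).2 hcmem⟩ * ⟨x, hV⟩ from
      Subtype.ext (Algebra.smul_def c x), map_mul, h0, mul_zero]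
  have h1 := D.div_ϖ c⁻¹ (inv_mem hc) hcA
  have h2 : D.ϖ⁻¹ • x = algebraMap K F (c⁻¹ / D.ϖ) * (c • x) := by
    rw [← Algebra.smul_def, smul_smul]
    congr 1
    field_simp
  rw [h2]
  exact mul_mem ((R.mem_V_iff i _).2 h1) hcV

/-- The fixed functions with the reduction to the component `i`. -/
def unifRed (i : ι) : UnifRed D.F0 D.πF (Fb i) where
  V := (R.V i).toSubring.comap D.F0.subtype
  π_mem := (R.mem_V_iff i _).2 D.ϖ_mem_A
  φ := (R.φ i).comp
    { toFun := fun x => ⟨(x.1 : F), x.2⟩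
      map_one' := rfl
      map_mul' := fun _ _ => rfl
      map_zero' := rfl
      map_add' := fun _ _ => rfl }
  π_ne_zero := fun h => by
    have := congrArg Subtype.val h
    simp [πF, D.ϖ_ne_zero] at this
  φ_π := by
    refine (R.φ_algebraMap i ⟨D.ϖ, D.ϖ_mem_A⟩).trans ?_
    rw [D.π_ϖ, map_zero]
  exists_eq_π_mul := by
    rintro ⟨⟨x, hx⟩, hxV⟩ h0
    refine ⟨⟨⟨D.ϖ⁻¹ • x, D.smul_mem (inv_mem D.ϖ_mem) hx⟩, D.ϖ_mul_div hx hxV h0⟩,
      Subtype.ext ?_⟩
    show x = algebraMap K F D.ϖ * (D.ϖ⁻¹ • x)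
    rw [← Algebra.smul_def, smul_inv_smul₀ D.ϖ_ne_zero]
  inv_mem := fun x hx => R.inv_mem_V (f := ⟨(x.1 : F), x.2⟩) hx

/-- The fixed constants as fixed functions. -/
def constHom : D.K0 →+* D.F0 where
  toFun a := ⟨algebraMap K F a, D.algebraMap_mem a a.2⟩
  map_one' := Subtype.ext (by simp)
  map_mul' a b := Subtype.ext (by simp)
  map_zero' := Subtype.ext (by simp)
  map_add' a b := Subtype.ext (by simp)

theorem lead_zero_iff {i : ι} {z : D.F0} {B : Fb i} :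
    (D.unifRed i).Lead 0 z B ↔ ∃ h : (z : F) ∈ R.V i, R.φ i ⟨(z : F), h⟩ = B := by
  constructor
  · rintro ⟨c, hc, hB⟩
    rw [pow_zero, one_mul] at hc
    subst hc
    exact ⟨c.2, hB⟩
  · rintro ⟨h, hB⟩
    exact ⟨⟨z, h⟩, by simp, hB⟩

theorem lead_const {a : A} (ha : (a : K) ∈ D.K0) (i : ι) :
    (D.unifRed i).Lead 0 (D.constHom ⟨a, ha⟩) (algebraMap k (Fb i) (R.π a)) :=
  D.lead_zero_iff.2 ⟨(R.mem_V_iff i _).2 a.2, R.φ_algebraMap i a⟩

theorem mem_A_of_div {i : ι} {a : D.K0} (h : (D.unifRed i).Div 0 (D.constHom a)) :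
    (a : K) ∈ A := by
  obtain ⟨B, hB⟩ := h.exists_lead
  obtain ⟨hV, -⟩ := D.lead_zero_iff.1 hB
  exact (R.mem_V_iff i _).1 hV

/-- The fixed functions as a `RedSystem`. -/
def redSystem : RedSystem D.F0 D.πF k Fb where
  R := D.unifRed
  Kc := D.constHom.fieldRange
  π_mem_Kc := ⟨⟨D.ϖ, D.ϖ_mem⟩, rfl⟩
  exists_const c := by
    obtain ⟨a, ha, rfl⟩ := D.exists_lift c
    exact ⟨_, ⟨⟨a, ha⟩, rfl⟩, fun i => D.lead_const ha i⟩
  const_residue := by
    rintro _ ⟨a, rfl⟩ i h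
    exact ⟨R.π ⟨a, D.mem_A_of_div h⟩, fun j => D.lead_const (a := ⟨a, D.mem_A_of_div h⟩) a.2 j⟩

theorem exists_pow_mul_div : ∀ a ∈ D.redSystem.Kc,
    ∃ M : ℕ, ∀ b, (D.redSystem.R b).Div 0 (D.πF ^ M * a) := by
  rintro _ ⟨a, rfl⟩
  obtain ⟨M, hM⟩ := D.exists_pow_mul_mem a a.2
  refine ⟨M, fun b => ⟨⟨_, ?_⟩, by rw [pow_zero, one_mul]⟩⟩
  show ((D.πF ^ M * D.constHom a : D.F0) : F) ∈ R.V b
  simp only [Subfield.coe_mul, SubmonoidClass.coe_pow, coe_πF]
  show algebraMap K F D.ϖ ^ M * algebraMap K F (a : K) ∈ R.V b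
  rw [← map_pow, ← map_mul]
  exact (R.mem_V_iff b _).2 hM

end Descent

/-- Fixed families independent over the fixed constants are independent over all constants, when
`K0` and `F0` are the fixed elements of compatible automorphisms. -/
theorem indep_of_fixed {K₀ : Subfield K} {F₀ : Subfield F} {α : Type*} (σ : α → K →+* K)
    (τ : α → F →+* F) (hcomp : ∀ a c, τ a (algebraMap K F c) = algebraMap K F (σ a c))
    (hK₀ : ∀ c : K, (∀ a, σ a c = c) → c ∈ K₀) (hF₀ : ∀ f ∈ F₀, ∀ a, τ a f = f)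
    {n : ℕ} (v : Fin n → F) (hv : ∀ t, v t ∈ F₀) (hli : LinearIndependent K₀ v) :
    LinearIndependent K v := by
  classical
  rw [Fintype.linearIndependent_iff]
  by_contra hcon
  push Not at hcon
  obtain ⟨g, hg, s, hs⟩ := hcon
  -- a relation with smallest support
  have hex : ∃ m : ℕ, ∃ g : Fin n → K, ∑ t, g t • v t = 0 ∧ (∃ t, g t ≠ 0) ∧
      (Finset.univ.filter fun t => g t ≠ 0).card = m := ⟨_, g, hg, ⟨s, hs⟩, rfl⟩
  obtain ⟨g, hg, ⟨s, hs⟩, hcard⟩ := Nat.find_spec hex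
  set g' := fun t => (g s)⁻¹ * g t with hg'def
  have hg' : ∑ t, g' t • v t = 0 := by
    simp only [hg'def, mul_smul, ← Finset.smul_sum, hg, smul_zero]
  have hfix : ∀ a t, σ a (g' t) = g' t := by
    intro a
    by_contra hne
    push Not at hne
    obtain ⟨t₀, ht₀⟩ := hne
    have hrel : ∑ t, (σ a (g' t) - g' t) • v t = 0 := by
      simp only [sub_smul, Finset.sum_sub_distrib, hg', sub_zero]
      have h := congrArg (τ a) hg'
      rw [map_sum, map_zero] at h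
      refine Eq.trans (Finset.sum_congr rfl fun t _ => ?_) h
      rw [Algebra.smul_def, Algebra.smul_def, map_mul (τ a), hcomp, hF₀ _ (hv t)]
    have hlt : (Finset.univ.filter fun t => σ a (g' t) - g' t ≠ 0).card < Nat.find hex := by
      rw [← hcard]
      refine Finset.card_lt_card ⟨fun t ht => ?_, fun h => ?_⟩
      · simp only [Finset.mem_filter, Finset.mem_univ, true_and] at ht ⊢
        exact fun h0 => ht (by simp [hg'def, h0])
      · have := h (Finset.mem_filter.2 ⟨Finset.mem_univ s, hs⟩)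
        simp only [Finset.mem_filter, Finset.mem_univ, true_and, hg'def] at this
        exact this (by rw [inv_mul_cancel₀ hs, map_one, sub_self])
    exact Nat.find_min hex hlt ⟨_, hrel, ⟨t₀, sub_ne_zero.2 ht₀⟩, rfl⟩
  have h0 := Fintype.linearIndependent_iff.1 hli
    (fun t => ⟨g' t, hK₀ _ fun a => hfix a t⟩) hg' s
  have h1 := congrArg Subtype.val h0
  simp [hg'def, hs] at h1

end Fermat.Agent.MazurPrinciple.Move

end
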