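/-
Mazur's principle at `p`: spaces of functions spanned by fixed functions have fixed bases with
independent scaled reductions.
-/
import Fermat.Agent.MP.SecondDescent
import Fermat.Agent.MP.SecondBounded
import Mathlib.LinearAlgebra.Dimension.OrzechProperty
import Mathlib.LinearAlgebra.Basis.VectorSpace

set_option autoImplicit false

noncomputable section

namespace Fermat.Agent.MazurPrinciple.Move

open AlgebraicCurve IntermediateField Fermat.Agent.Curve Fermat.Agent.Curve.RedAux
open Fermat.Agent.Bad Fermat.Agent.Bad.MultiReduction Fermat.Agent.Ribet.Slot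

universe uK uF uι uk uFb

variable {K : Type uK} [Field K] {A : ValuationSubring K}
  {F : Type uF} [Field F] [Algebra K F] {ι : Type uι} [Fintype ι]
  {k : Type uk} [Field k] {Fb : ι → Type uFb} [∀ i, Field (Fb i)] [∀ i, Algebra k (Fb i)]
  {R : MultiReduction A F k Fb} (D : Descent R) {d : ι → K}

theorem isSlot_sum {b : ι → K} {α : Type*} (s : Finset α) {ψ : α → F} {r : α → ∀ i, Fb i}
    (h : ∀ t ∈ s, IsSlot R b (ψ t) (r t)) : IsSlot R b (∑ t ∈ s, ψ t) (∑ t ∈ s, r t) := by
  classical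
  induction s using Finset.induction with
  | empty =>
    intro i
    rw [Finset.sum_empty, Finset.sum_empty]
    refine ⟨by rw [smul_zero]; exact zero_mem _, ?_⟩
    rw [Pi.zero_apply, ← map_zero (R.φ i)]
    exact congrArg _ (Subtype.ext (smul_zero _))
  | insert t s hts ih =>
    intro i
    rw [Finset.sum_insert hts, Finset.sum_insert hts]
    obtain ⟨h1, e1⟩ := h t (Finset.mem_insert_self t s) i
    obtain ⟨h2, e2⟩ := ih (fun u hu => h u (Finset.mem_insert_of_mem hu)) i
    refine ⟨by rw [smul_add]; exact add_mem h1 h2, ?_⟩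
    rw [Pi.add_apply, ← e1, ← e2, ← map_add]
    exact congrArg _ (Subtype.ext (smul_add _ _ _))

theorem isSlot_smul {b : ι → K} {ψ : F} {r : ∀ i, Fb i} (h : IsSlot R b ψ r) (a : A) :
    IsSlot R b ((a : K) • ψ) (R.π a • r) := by
  intro i
  obtain ⟨h1, e1⟩ := h i
  have he : b i • (a : K) • ψ = algebraMap K F (a : K) * (b i • ψ) := by
    rw [smul_comm, Algebra.smul_def]
  refine ⟨by rw [he]; exact mul_mem ((R.mem_V_iff i _).2 a.2) h1, ?_⟩
  rw [Pi.smul_apply, Algebra.smul_def (R.π a), ← R.φ_algebraMap i a, ← e1, ← map_mul]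
  exact congrArg _ (Subtype.ext he)

theorem linearIndependent_of_fixed_mem {m : ℕ} {η : Fin m → F} {z : F}
    (hη : LinearIndependent K η) (hz : z ∈ D.F0) (hη0 : ∀ t, η t ∈ D.F0)
    (hzspan : z ∈ Submodule.span K (Set.range η)) :
    ∃ c : Fin m → D.K0, z = ∑ t, (c t : K) • η t := by
  have hη' : LinearIndependent D.K0 η := hη.restrict_scalars
    (fun a b h => Subtype.ext (by simpa using h))
  by_cases hmem : z ∈ Submodule.span D.K0 (Set.range η)
  · obtain ⟨c, hc⟩ := (Submodule.mem_span_range_iff_exists_fun D.K0).1 hmem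
    exact ⟨c, hc.symm⟩
  · exfalso
    have h1 : LinearIndependent D.K0 (Fin.cons z η : Fin (m + 1) → F) :=
      linearIndependent_finCons.2 ⟨hη', hmem⟩
    have h2 := D.indep _ (fun t => by
      refine Fin.cases ?_ ?_ t
      · simpa using hz
      · intro t; simpa using hη0 t) h1
    exact (linearIndependent_finCons.1 h2).2 hzspan

/-- A basis of fixed functions of `M` with independent scaled reductions spanning the scaled
reduction of `M`. -/
structure FixedBasis (d : ι → K) (M : Submodule K F) (m : ℕ) where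
  η : Fin m → F
  r : Fin m → ∀ i, Fb i
  mem : ∀ t, η t ∈ M
  fixed : ∀ t, η t ∈ D.F0
  slot : ∀ t, IsSlot R d (η t) (r t)
  indep : LinearIndependent k r

variable {D}

theorem FixedBasis.linearIndependent [IsAlgClosed K] (hA : RankLeOne A) (hd : ∀ i, d i ≠ 0)
    {M : Submodule K F} {m : ℕ} (B : FixedBasis D d M m) :
    LinearIndependent K B.η ∧
      slotFibre (R := R) d (Submodule.span K (Set.range B.η))
        = Submodule.span k (Set.range B.r) := by
  set W := Submodule.span K (Set.range B.η) with hW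
  haveI : FiniteDimensional K W := FiniteDimensional.span_of_finite _ (Set.finite_range _)
  have hfr := finrank_slotFibre R hA d hd W
  have hle : Submodule.span k (Set.range B.r) ≤ slotFibre (R := R) d W := by
    rw [Submodule.span_le]
    rintro _ ⟨t, rfl⟩
    exact ⟨B.η t, Submodule.subset_span ⟨t, rfl⟩, B.slot t⟩
  have hr : Module.finrank k (Submodule.span k (Set.range B.r)) = m := by
    rw [finrank_span_eq_card B.indep, Fintype.card_fin]
  have hWle : Module.finrank K W ≤ m := by
    simpa [hW, Set.finrank] using finrank_range_le_card (R := K) B.η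
  have hfin : FiniteDimensional k (slotFibre (R := R) d W) := by
    rcases Nat.eq_zero_or_pos (Module.finrank K W) with h0 | h0
    · have : slotFibre (R := R) d W = ⊥ := by
        rw [eq_bot_iff]
        rintro r ⟨ψ, hψ, hr⟩
        have hψ0 : ψ = 0 := by simpa [Submodule.finrank_eq_zero.1 h0] using hψ
        subst hψ0
        refine (Submodule.mem_bot k).2 (funext fun i => ?_)
        obtain ⟨h, e⟩ := hr i
        rw [← e, Pi.zero_apply, ← map_zero (R.φ i)]
        exact congrArg _ (Subtype.ext (smul_zero _))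
      rw [this]; infer_instance
    · exact Module.finite_of_finrank_pos (by omega)
  have hmono := Submodule.finrank_mono hle
  refine ⟨linearIndependent_iff_card_eq_finrank_span.2 ?_,
    (Submodule.eq_of_le_of_finrank_le hle (by omega)).symm⟩
  rw [Fintype.card_fin, Set.finrank, ← hW]
  omega

theorem FixedBasis.extend [IsAlgClosed K] (hA : RankLeOne A) (hd : ∀ i, d i ≠ 0)
    (hdK : ∀ i, d i ∈ D.K0) {M : Submodule K F} [FiniteDimensional K M]
    (hspan : M ≤ Submodule.span K ((M : Set F) ∩ D.F0)) {m : ℕ} (B : FixedBasis D d M m)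
    (hm : m < Module.finrank K M) : Nonempty (FixedBasis D d M (m + 1)) := by
  classical
  haveI := R.isAlgClosed_residue
  obtain ⟨hli, hspanr⟩ := B.linearIndependent hA hd
  set W := Submodule.span K (Set.range B.η) with hW
  obtain ⟨z, ⟨hzM, hzF⟩, hzW⟩ : ∃ z, z ∈ (M : Set F) ∩ D.F0 ∧ z ∉ W := by
    by_contra h
    push Not at h
    haveI : FiniteDimensional K W := FiniteDimensional.span_of_finite _ (Set.finite_range _)
    have h1 := Submodule.finrank_mono (hspan.trans (Submodule.span_le.2 h))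
    rw [hW, finrank_span_eq_card hli, Fintype.card_fin] at h1
    omega
  -- scale `z` to be integral
  obtain ⟨M₀, hM₀⟩ : ∃ M₀ : ℕ, ∀ i, d i • D.ϖ ^ M₀ • z ∈ R.V i := by
    have : ∀ i, ∃ M₀ : ℕ, ∀ N, M₀ ≤ N → d i • D.ϖ ^ N • z ∈ R.V i := by
      intro i
      rcases eq_or_ne z 0 with h0 | h0
      · exact absurd (h0 ▸ zero_mem W) hzW
      obtain ⟨c, hc, hcV, hcφ⟩ := D.exists_scale i z hzF h0
      have hc0 : c ≠ 0 := by
        rintro rfl
        refine hcφ ?_
        rw [← map_zero (R.φ i)]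
        exact congrArg _ (Subtype.ext (zero_smul K z))
      obtain ⟨N₀, hN₀⟩ := D.exists_pow_mul_mem (d i / c) (div_mem (hdK i) hc)
      refine ⟨N₀, fun N hN => ?_⟩
      have he : d i • D.ϖ ^ N • z
          = algebraMap K F (D.ϖ ^ (N - N₀) * (D.ϖ ^ N₀ * (d i / c))) * (c • z) := by
        rw [← Algebra.smul_def, smul_smul, smul_smul]
        congr 1
        rw [← mul_assoc, ← pow_add, Nat.sub_add_cancel hN]
        field_simp
      rw [he]
      exact mul_mem ((R.mem_V_iff i _).2 (mul_mem (pow_mem D.ϖ_mem_A _) hN₀)) hcV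
    choose g hg using this
    exact ⟨∑ i, g i, fun i => hg i _ (Finset.single_le_sum (fun _ _ => Nat.zero_le _)
      (Finset.mem_univ i))⟩
  set y := D.ϖ ^ M₀ • z with hy
  have hyM : y ∈ M := M.smul_mem _ hzM
  have hyF : y ∈ D.F0 := D.smul_mem (pow_mem D.ϖ_mem _) hzF
  have hyW : y ∉ W := fun h => hzW (by
    have := W.smul_mem (D.ϖ ^ M₀)⁻¹ h
    rwa [hy, smul_smul, inv_mul_cancel₀ (pow_ne_zero _ D.ϖ_ne_zero), one_smul] at this)
  let Q : ℕ → Prop := fun i => ∃ w : F, w ∈ W ∧ w ∈ D.F0 ∧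
    ∀ b, (D.ϖ ^ i)⁻¹ • d b • (y - w) ∈ R.V b
  have hQ0 : Q 0 := ⟨0, zero_mem _, zero_mem _, fun b => by simpa using hM₀ b⟩
  -- the improvements are bounded
  obtain ⟨n, hn⟩ : ∃ n, ¬ Q n := by
    set W' := W ⊔ Submodule.span K {y} with hW'
    haveI : FiniteDimensional K W := FiniteDimensional.span_of_finite _ (Set.finite_range _)
    have hlt : W < W' := lt_of_le_of_ne le_sup_left fun h => hyW (by
      rw [h]; exact Submodule.mem_sup_right (Submodule.mem_span_singleton_self y))
    obtain ⟨rn, hrn, hrnW⟩ : ∃ rn ∈ slotFibre (R := R) d W', rn ∉ slotFibre (R := R) d W := by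
      by_contra h
      push Not at h
      haveI : FiniteDimensional K W' := Submodule.finiteDimensional_sup _ _
      have h1 := finrank_slotFibre R hA d hd W'
      have h2 := finrank_slotFibre R hA d hd W
      have h3 : Module.finrank K W < Module.finrank K W' := Submodule.finrank_lt_finrank_of_lt hlt
      have heq : slotFibre (R := R) d W' = slotFibre (R := R) d W :=
        le_antisymm (fun r hr => h r hr)
          (by rintro r ⟨ψ, hψ, hr⟩; exact ⟨ψ, Submodule.mem_sup_left hψ, hr⟩)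
      rw [heq] at h1
      omega
    obtain ⟨ψ, hψ, hψr⟩ := hrn
    obtain ⟨w₁, hw₁, _, ha, hψe⟩ := Submodule.mem_sup.1 hψ
    obtain ⟨a, rfl⟩ := Submodule.mem_span_singleton.1 ha
    -- a power of the uniformiser killing `a`
    obtain ⟨n, hn⟩ : ∃ n : ℕ, a * D.ϖ ^ n ∈ A.nonunits := by
      by_cases ha' : a ∈ A
      · refine ⟨1, ?_⟩
        rw [pow_one, A.mem_nonunits_iff, map_mul]
        exact lt_of_le_of_lt (mul_le_of_le_one_left' ((A.valuation_le_one_iff a).2 ha'))
          ((A.mem_nonunits_iff).1 D.ϖ_nonunit)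
      · have hd' := (A.mem_or_inv_mem a).resolve_left ha'
        have ha0 : a ≠ 0 := fun h => ha' (h ▸ A.zero_mem)
        obtain ⟨l, e, he⟩ := hA ⟨D.ϖ, D.ϖ_mem_A⟩ ⟨a⁻¹, hd'⟩
          (by rw [← ValuationSubring.coe_mem_nonunits_iff]; exact D.ϖ_nonunit)
          (fun h => inv_ne_zero ha0 (congrArg Subtype.val h))
        refine ⟨l + 1, ?_⟩
        have he' := congrArg Subtype.val he
        push_cast at he'
        rw [pow_succ, he', ← mul_assoc, mul_inv_cancel_left₀ ha0, A.mem_nonunits_iff, map_mul]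
        exact lt_of_le_of_lt (mul_le_of_le_one_left' ((A.valuation_le_one_iff _).2 e.2))
          ((A.mem_nonunits_iff).1 D.ϖ_nonunit)
    refine ⟨n, fun ⟨w, hwW, _, hw⟩ => hrnW ⟨w₁ + a • w, add_mem hw₁ (W.smul_mem _ hwW), ?_⟩⟩
    intro b
    obtain ⟨h1, e1⟩ := hψr b
    set c : A := ⟨a * D.ϖ ^ n, A.nonunits_subset hn⟩ with hc
    have hc0 : R.π c = 0 := by
      rw [R.π_eq_zero_iff_mem, ← ValuationSubring.coe_mem_nonunits_iff]; exact hn
    have he : d b • (w₁ + a • w)
        = d b • ψ - algebraMap K F (c : K) * ((D.ϖ ^ n)⁻¹ • d b • (y - w)) := by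
      rw [← Algebra.smul_def, ← hψe, hc]
      simp only [smul_smul, smul_add, smul_sub]
      rw [show a * D.ϖ ^ n * ((D.ϖ ^ n)⁻¹ * d b) = d b * a by
        field_simp [D.ϖ_ne_zero]]
      abel
    refine ⟨by rw [he]; exact sub_mem h1 (mul_mem ((R.mem_V_iff b _).2 c.2) (hw b)), ?_⟩
    rw [← e1, show (⟨_, _⟩ : R.V b) = ⟨d b • ψ, h1⟩
      - ⟨algebraMap K F (c : K), (R.mem_V_iff b _).2 c.2⟩ * ⟨_, hw b⟩ from Subtype.ext he,
      map_sub, map_mul, R.φ_algebraMap, hc0, map_zero, zero_mul, sub_zero]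
  obtain ⟨i, ⟨w, hwW, hwF, hw⟩, hnot⟩ : ∃ i, Q i ∧ ¬ Q (i + 1) := by
    by_contra h
    push Not at h
    exact hn (Nat.rec hQ0 h n)
  set ηn := (D.ϖ ^ i)⁻¹ • (y - w) with hηn
  have hηF : ηn ∈ D.F0 := D.smul_mem (inv_mem (pow_mem D.ϖ_mem _)) (sub_mem hyF hwF)
  have hWM : W ≤ M := by rw [hW, Submodule.span_le]; rintro _ ⟨t, rfl⟩; exact B.mem t
  have hηM : ηn ∈ M := M.smul_mem _ (sub_mem hyM (hWM hwW))
  have hV : ∀ b, d b • ηn ∈ R.V b := fun b => by rw [hηn, smul_comm]; exact hw b
  set rn : ∀ b, Fb b := fun b => R.φ b ⟨_, hV b⟩ with hrn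
  have hsl : IsSlot R d ηn rn := fun b => ⟨hV b, rfl⟩
  have hnew : rn ∉ Submodule.span k (Set.range B.r) := by
    intro hmem
    obtain ⟨c, hc⟩ := (Submodule.mem_span_range_iff_exists_fun k).1 hmem
    choose a haK ha using fun t => D.exists_lift (c t)
    set v := ∑ t, (a t : K) • B.η t with hv
    have hvs : IsSlot R d v rn := by
      rw [← hc]
      refine isSlot_sum _ fun t _ => ?_
      rw [← ha t]
      exact isSlot_smul (B.slot t) (a t)
    have hvF : v ∈ D.F0 := sum_mem fun t _ => D.smul_mem (haK t) (B.fixed t)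
    have hvW : v ∈ W := sum_mem fun t _ => W.smul_mem _ (Submodule.subset_span ⟨t, rfl⟩)
    refine hnot ⟨w + D.ϖ ^ i • v, add_mem hwW (W.smul_mem _ hvW),
      add_mem hwF (D.smul_mem (pow_mem D.ϖ_mem _) hvF), fun b => ?_⟩
    obtain ⟨h1, e1⟩ := hvs b
    have hmemV : d b • (ηn - v) ∈ R.V b := by rw [smul_sub]; exact sub_mem (hV b) h1
    have h0 : R.φ b ⟨_, hmemV⟩ = 0 := by
      rw [show (⟨_, hmemV⟩ : R.V b) = ⟨_, hV b⟩ - ⟨_, h1⟩ from Subtype.ext (smul_sub _ _ _),
        map_sub, e1, hrn, sub_self]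
    have h2 := D.ϖ_mul_div (D.smul_mem (hdK b) (sub_mem hηF hvF)) hmemV h0
    convert h2 using 1
    rw [hηn]
    simp only [smul_smul, smul_sub, smul_add]
    rw [show (D.ϖ ^ (i + 1))⁻¹ * d b = D.ϖ⁻¹ * (d b * (D.ϖ ^ i)⁻¹) by
      rw [pow_succ, mul_inv]; ring,
      show (D.ϖ ^ (i + 1))⁻¹ * (d b * D.ϖ ^ i) = D.ϖ⁻¹ * d b by
      rw [pow_succ]; field_simp [D.ϖ_ne_zero]]
    abel
  exact ⟨⟨Fin.cons ηn B.η, Fin.cons rn B.r,
    Fin.cases (by simpa using hηM) (by simpa using B.mem),
    Fin.cases (by simpa using hηF) (by simpa using B.fixed),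
    Fin.cases (by simpa using hsl) (by simpa using B.slot),
    linearIndependent_finCons.2 ⟨B.indep, hnew⟩⟩⟩

variable (D)

/-- A fixed basis with independent scaled reductions. -/
theorem exists_fixedBasis [IsAlgClosed K] (hA : RankLeOne A) (hd : ∀ i, d i ≠ 0)
    (hdK : ∀ i, d i ∈ D.K0) (M : Submodule K F) [FiniteDimensional K M]
    (hspan : M ≤ Submodule.span K ((M : Set F) ∩ D.F0)) :
    ∃ B : FixedBasis D d M (Module.finrank K M),
      slotFibre (R := R) d M = Submodule.span k (Set.range B.r) ∧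
      ∀ z ∈ M, z ∈ D.F0 → ∃ c : Fin (Module.finrank K M) → D.K0,
        z = ∑ t, (c t : K) • B.η t := by
  have h : ∀ m ≤ Module.finrank K M, Nonempty (FixedBasis D d M m) := by
    intro m
    induction m with
    | zero =>
      exact fun _ => ⟨⟨Fin.elim0, Fin.elim0, fun t => t.elim0, fun t => t.elim0,
        fun t => t.elim0, linearIndependent_empty_type⟩⟩
    | succ m ih =>
      intro hm
      obtain ⟨B⟩ := ih (by omega)
      exact B.extend hA hd hdK hspan (by omega)
  obtain ⟨B⟩ := h _ le_rfl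
  obtain ⟨hli, hspr⟩ := B.linearIndependent hA hd
  have htop : Submodule.span K (Set.range B.η) = M :=
    Submodule.eq_of_le_of_finrank_le (Submodule.span_le.2 (by rintro _ ⟨t, rfl⟩; exact B.mem t))
      (le_of_eq (by rw [finrank_span_eq_card hli, Fintype.card_fin]))
  rw [htop] at hspr
  refine ⟨B, hspr, fun z hzM hzF => linearIndependent_of_fixed_mem D hli hzF B.fixed ?_⟩
  rw [htop]
  exact hzM

/-- The fixed functions in a subspace, as a space over the fixed constants. -/
def fixedSub (M : Submodule K F) : Submodule D.redSystem.Kc D.F0 where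
  carrier := {z | (z : F) ∈ M}
  zero_mem' := M.zero_mem
  add_mem' := M.add_mem
  smul_mem' := by
    rintro ⟨_, a, rfl⟩ z hz
    show algebraMap K F (a : K) * (z : F) ∈ M
    rw [← Algebra.smul_def]
    exact M.smul_mem _ hz

theorem mem_fixedSub {M : Submodule K F} {z : D.F0} : z ∈ fixedSub D M ↔ (z : F) ∈ M := Iff.rfl

theorem coe_smul_fixed (a : D.K0) (z : D.F0) :
    (((⟨D.constHom a, ⟨a, rfl⟩⟩ : D.redSystem.Kc) • z : D.F0) : F) = (a : K) • (z : F) :=
  (Algebra.smul_def _ _).symm

/-- Every scaled reduction comes from a fixed function. -/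
theorem exists_fixed_slot [IsAlgClosed K] (hA : RankLeOne A) (hd : ∀ i, d i ≠ 0)
    (hdK : ∀ i, d i ∈ D.K0) (M : Submodule K F) [FiniteDimensional K M]
    (hspan : M ≤ Submodule.span K ((M : Set F) ∩ D.F0)) {r : ∀ i, Fb i}
    (hr : r ∈ slotFibre (R := R) d M) : ∃ η : D.F0, (η : F) ∈ M ∧ IsSlot R d η r := by
  obtain ⟨B, hB, -⟩ := exists_fixedBasis D hA hd hdK M hspan
  rw [hB] at hr
  obtain ⟨c, rfl⟩ := (Submodule.mem_span_range_iff_exists_fun k).1 hr
  choose a haK ha using fun t => D.exists_lift (c t)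
  refine ⟨⟨∑ t, (a t : K) • B.η t, sum_mem fun t _ => D.smul_mem (haK t) (B.fixed t)⟩,
    (sum_mem fun t _ => M.smul_mem _ (B.mem t) : ∑ t, (a t : K) • B.η t ∈ M), ?_⟩
  show IsSlot R d (∑ t, (a t : K) • B.η t) (∑ i, c i • B.r i)
  refine isSlot_sum (R := R) _ fun t _ => ?_
  rw [← ha t]
  exact isSlot_smul (B.slot t) (a t)

/-- Fixed functions of a finite dimensional space form a finite dimensional bounded space. -/
theorem isBounded_fixedSub [IsAlgClosed K] (hA : RankLeOne A) (hd : ∀ i, d i ≠ 0)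
    (hdK : ∀ i, d i ∈ D.K0) (M : Submodule K F) [FiniteDimensional K M]
    (hspan : M ≤ Submodule.span K ((M : Set F) ∩ D.F0))
    (L : ι → D.F0) (G : ∀ i, Fb i) (hL : ∀ i, (D.redSystem.R i).Lead 0 (L i) (G i))
    (hG : ∀ i, G i ≠ 0) :
    FiniteDimensional D.redSystem.Kc (fixedSub D M) ∧
      D.redSystem.IsBounded (fun i => D.constHom ⟨d i, hdK i⟩ * L i) (fixedSub D M) := by
  haveI : Nonempty ι := R.nonempty
  obtain ⟨B, hB, hcoord⟩ := exists_fixedBasis D hA hd hdK M hspan
  let η : Fin (Module.finrank K M) → fixedSub D M := fun t => ⟨⟨B.η t, B.fixed t⟩, B.mem t⟩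
  have hcoe : ∀ c : Fin (Module.finrank K M) → D.redSystem.Kc,
      (((∑ t, c t • η t : fixedSub D M) : D.F0) : F) = ∑ t, ((c t : D.F0) : F) * B.η t := by
    intro c
    rw [AddSubmonoidClass.coe_finsetSum, AddSubmonoidClass.coe_finsetSum]
    exact Finset.sum_congr rfl fun t _ => rfl
  have hli : LinearIndependent D.redSystem.Kc η := by
    rw [Fintype.linearIndependent_iff]
    intro c hc t
    choose a ha using fun t => (c t).2
    have h := congrArg (fun z : fixedSub D M => ((z : D.F0) : F)) hc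
    simp only [hcoe] at h
    have h0 := Fintype.linearIndependent_iff.1 (B.linearIndependent hA hd).1 (fun t => (a t : K))
      (Eq.trans (Finset.sum_congr rfl fun t _ => by
        rw [Algebra.smul_def, ← ha t]; rfl) h) t
    apply Subtype.ext
    rw [← ha t, show a t = 0 from Subtype.ext h0, map_zero]
    rfl
  have hspanη : ⊤ ≤ Submodule.span D.redSystem.Kc (Set.range η) := by
    rintro ⟨z, hz⟩ -
    obtain ⟨c, hc⟩ := hcoord (z : F) hz z.2
    refine (Submodule.mem_span_range_iff_exists_fun _).2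
      ⟨fun t => ⟨D.constHom (c t), ⟨c t, rfl⟩⟩, ?_⟩
    apply Subtype.ext; apply Subtype.ext
    rw [hcoe, hc]
    exact Finset.sum_congr rfl fun t _ => (Algebra.smul_def _ _).symm
  let b := Module.Basis.mk hli hspanη
  refine ⟨Module.Finite.of_basis b, ?_⟩
  refine RedSystem.isBounded_of_basis b (r := fun t i => G i * B.r t i) (fun t i => ?_) ?_
    D.exists_pow_mul_div
  · rw [Module.Basis.mk_apply]
    have h1 : (D.redSystem.R i).Lead 0 (D.constHom ⟨d i, hdK i⟩ * ⟨B.η t, B.fixed t⟩)
        (B.r t i) := by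
      refine D.lead_zero_iff.2 ?_
      have he : ((D.constHom ⟨d i, hdK i⟩ * ⟨B.η t, B.fixed t⟩ : D.F0) : F) = d i • B.η t :=
        (Algebra.smul_def _ _).symm
      obtain ⟨h, e⟩ := B.slot t i
      exact ⟨by rw [he]; exact h, by rw [← e]; exact congrArg _ (Subtype.ext he)⟩
    have := (hL i).mul h1
    rw [add_zero] at this
    convert this using 1
    show _ * (⟨B.η t, B.fixed t⟩ : D.F0) = _
    ring
  · rw [Fintype.linearIndependent_iff]
    intro c hc
    refine Fintype.linearIndependent_iff.1 B.indep c (funext fun i => ?_)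
    have h := congrFun hc i
    simp only [Finset.sum_apply, Pi.smul_apply, Pi.zero_apply] at h ⊢
    simp only [← mul_smul_comm, ← Finset.mul_sum, mul_eq_zero] at h
    exact h.resolve_left (hG i)

/-- Every finite dimensional space of fixed functions is bounded. -/
theorem isBounded_of_finiteDimensional [IsAlgClosed K] (hA : RankLeOne A)
    (V : Submodule D.redSystem.Kc D.F0) [FiniteDimensional D.redSystem.Kc V] :
    D.redSystem.IsBounded (fun _ => 1) V := by
  classical
  obtain ⟨n, v, hv⟩ : ∃ (n : ℕ) (v : Fin n → D.F0), Submodule.span D.redSystem.Kc (Set.range v) = V :=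
    Submodule.fg_iff_exists_fin_generating_family.1
      (Module.Finite.iff_fg.1 (inferInstance : Module.Finite D.redSystem.Kc V))
  set M := Submodule.span K (Set.range fun t => (v t : F)) with hM
  haveI : FiniteDimensional K M := FiniteDimensional.span_of_finite _ (Set.finite_range _)
  have hVM : V ≤ fixedSub D M := by
    rw [← hv, Submodule.span_le]
    rintro _ ⟨t, rfl⟩
    exact Submodule.subset_span ⟨t, rfl⟩
  obtain ⟨hfd, hb⟩ := isBounded_fixedSub D hA (d := fun _ => 1) (fun _ => one_ne_zero)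
    (fun _ => one_mem _) M (by
      rw [hM, Submodule.span_le]
      rintro _ ⟨t, rfl⟩
      exact Submodule.subset_span ⟨Submodule.subset_span ⟨t, rfl⟩, (v t).2⟩)
    (fun _ => 1) (fun _ => 1) (fun _ => UnifRed.lead_one) fun _ => one_ne_zero
  intro φ
  obtain ⟨φ'', hφ''⟩ := LinearMap.exists_extend φ
  set φ' : fixedSub D M →ₗ[D.redSystem.Kc] D.redSystem.Kc := φ''.comp (fixedSub D M).subtype
  have hφ' : φ'.comp (Submodule.inclusion hVM) = φ := LinearMap.ext fun z =>
    LinearMap.congr_fun hφ'' z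
  obtain ⟨N, hN⟩ := hb φ'
  refine ⟨N, fun i z hz b => ?_⟩
  have h1 := hN i ⟨z, hVM z.2⟩ (fun b' => by
    have := hz b'
    rw [one_mul] at this
    show (D.redSystem.R b').Div (i + N) (D.constHom ⟨1, _⟩ * 1 * (z : D.F0))
    rw [show (⟨1, one_mem D.K0⟩ : D.K0) = 1 from rfl, map_one, one_mul, one_mul]
    exact this) b
  rwa [show φ' ⟨(z : D.F0), hVM z.2⟩ = φ z from LinearMap.congr_fun hφ' z] at h1

end Fermat.Agent.MazurPrinciple.Move

end
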