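/-
A field endomorphism `σ` which acts trivially on the reductions: its effect on leading terms,
and the twist `σ x - ω x` of an approximation at the threshold.
-/
import Fermat.Agent.MP.SecondCompare

set_option autoImplicit false

noncomputable section

namespace Fermat.Agent.MazurPrinciple

universe u v w x

namespace UnifRed

variable {F : Type u} [Field F] {π : F} {Fb : Type v} [Field Fb] {R : UnifRed F π Fb}

theorem Lead.sub_one_zpow {i : ℕ} {a : F} {B : Fb} (hi : 0 < i) (h : R.Lead i (a - 1) B) (n : ℤ) :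
    R.Lead i (a ^ n - 1) (n * B) := by
  cases n with
  | ofNat m => simpa using h.sub_one_pow hi m
  | negSucc m =>
    rw [zpow_negSucc]
    have := (h.sub_one_pow hi (m + 1)).sub_one_inv hi
    convert this using 1
    push_cast; ring

/-- The reduction is unchanged by `σ`, and integral elements move by at least `π ^ (j + 1)`. -/
theorem lead_map_div_sub_one (σ : F →+* F) {j : ℕ} (hj : 0 < j) {c0 : Fb}
    (hπ : R.Lead j (σ π / π - 1) c0) (hexp : ∀ a, R.Div 0 a → R.Div (j + 1) (σ a - a))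
    {a : F} {n : ℤ} {B : Fb} (ha : R.Lead 0 (a * π ^ (-n)) B) (hB : B ≠ 0) :
    R.Lead j (σ a / a - 1) (n * c0) := by
  set a0 := a * π ^ (-n) with ha0
  have hane : a0 ≠ 0 := ha.ne_zero hB
  have h1 : R.Lead j (σ a0 / a0 - 1) 0 := by
    have h := ((lead_zero_iff (i := j)).2 (hexp a0 ha.div)).mul (ha.inv hB)
    rw [zero_mul, add_zero] at h
    convert h using 1
    field_simp
  have h := (hπ.sub_one_zpow hj n).sub_one_mul hj h1
  rw [add_zero] at h
  convert h using 1
  have hπ0 := R.π_ne_zero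
  have hσπ : σ π ≠ 0 := (map_ne_zero σ).2 hπ0
  have hae : a = a0 * π ^ n := by rw [ha0, mul_assoc, ← zpow_add₀ hπ0]; simp
  rw [hae, map_mul, map_zpow₀, div_zpow]
  have := zpow_ne_zero n hπ0
  field_simp

theorem lead_map_π_pow (σ : F →+* F) {w : Fb} (hπ : R.Lead 1 (σ π) w) (l : ℕ) :
    R.Lead l (σ (π ^ l)) (w ^ l) := by
  simpa [map_pow] using hπ.pow l

theorem Lead.map (σ : F →+* F) {w : Fb} (hπ : R.Lead 1 (σ π) w)
    (hφ : ∀ a B, R.Lead 0 a B → R.Lead 0 (σ a) B) {l : ℕ} {a : F} {B : Fb}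
    (h : R.Lead l a B) : R.Lead l (σ a) (w ^ l * B) := by
  obtain ⟨c, rfl, rfl⟩ := h
  simpa using (lead_map_π_pow σ hπ l).mul (hφ _ _ (lead_coe c))

end UnifRed

variable {F : Type u} [Field F] {π : F} {k : Type w} [Field k] {ι : Type x}
  {Fb : ι → Type v} [∀ b, Field (Fb b)] [∀ b, Algebra k (Fb b)]

namespace RedSystem

variable {S : RedSystem F π k Fb} {p : ℕ} {h : ι → F} {f : F}

/-- At level `i` the residue of `σ x + c x` is `(w ^ i + c)` times that of `x`; if this vanishes the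
twist is an approximation one level higher. -/
theorem Target.Approx.twist {T : S.Target p h f} {i : ℕ} {κ ψ : F} (ha : T.Approx i κ ψ)
    (hi : 0 < i) (σ : F →+* F) {w : k}
    (hπ : ∀ b, (S.R b).Lead 1 (σ π) (algebraMap k (Fb b) w))
    (hφ : ∀ b a B, (S.R b).Lead 0 a B → (S.R b).Lead 0 (σ a) B)
    (hK : ∀ a ∈ S.Kc, σ a ∈ S.Kc) {c : ℕ} (hc : w ^ i + (c : k) = 0)
    (T₂ : S.Target p (fun b => σ (h b) * h b ^ c) (σ f * f ^ c))
    (hM : ∀ η ∈ T.M, σ η * η ^ c ∈ T₂.M) :
    T₂.Approx (i + 1) (σ κ * κ ^ c) (σ ψ * ψ ^ c) := by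
  refine ⟨mul_mem (hK κ ha.κ_mem) (pow_mem ha.κ_mem c), hM ψ ha.ψ_mem, fun b => ?_, fun b => ?_⟩
  · have h1 := (hφ b _ _ (ha.norm b)).mul ((ha.norm b).pow c)
    rw [one_pow, mul_one, Nat.zero_mul, add_zero, map_mul, mul_pow] at h1
    convert h1 using 1
    ring
  · obtain ⟨B, hB⟩ := (ha.div b).exists_lead
    rw [← UnifRed.lead_zero_iff]
    have h1 : (S.R b).Lead i (σ (κ * ψ ^ p * f) - 1) (algebraMap k (Fb b) (w ^ i) * B) := by
      have := UnifRed.Lead.map σ (hπ b) (hφ b) hB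
      simpa [map_sub, map_pow] using this
    have h2 := h1.sub_one_mul hi (hB.sub_one_pow hi c)
    convert h2 using 1
    · simp only [map_mul, map_pow, mul_pow, ← pow_mul, mul_comm c p]
      ring
    · rw [← map_natCast (algebraMap k (Fb b)) c, ← add_mul, ← map_add, hc, map_zero, zero_mul]

end RedSystem

end Fermat.Agent.MazurPrinciple

end
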