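/-
Mazur's principle at `p`, abstract part, assembled: exactness of the residues below the threshold
forces the twist `σ x + c x` to vanish, i.e. `σ f * f ^ c` is an exact `p`-th power.
-/
import Fermat.Agent.MP.SecondSigma
import Fermat.Agent.MP.SecondExact

set_option autoImplicit false

noncomputable section

namespace Fermat.Agent.MazurPrinciple

universe u v w x z

variable {F : Type u} [Field F] {π : F} {k : Type w} [Field k] {ι : Type x}
  {Fb : ι → Type v} [∀ b, Field (Fb b)] [∀ b, Algebra k (Fb b)]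

namespace RedSystem

variable (S : RedSystem F π k Fb)

/-- Two targets over disjoint pole divisors, and the space bounding their differences. -/
structure TargetPair (p : ℕ) (h : ι → F) (f : F) where
  /-- the first target -/
  T : S.Target p h f
  /-- the second target -/
  T' : S.Target p h f
  /-- reductions of differences of roots -/
  U2 : Submodule k (∀ b, Fb b)
  cap : ∀ B ∈ T.W, B ∈ T'.W → ∃ c : k, ∀ b, B b = algebraMap k (Fb b) c
  red_sup : ∀ z ∈ T.M ⊔ T'.M, ∀ B : ∀ b, Fb b, (∀ b, (S.R b).Lead 0 (h b * z) (B b)) → B ∈ U2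
  const_U2 : ∀ c : ι → k, constTuple c ∈ U2 → ∀ b b', c b = c b'

variable {S} [Nonempty ι] [IsAlgClosed k] {p : ℕ} {h : ι → F} {f : F} {e : ℕ} {u0 : k}

/-- If the residues of `f` are `p`-th powers below the threshold `i₀ = p e / (p - 1)`, and `σ`
scales the residues at `i₀` by `-c`, then `σ f * f ^ c` is a `p`-th power over `FΩ`. -/
theorem exists_pow_eq_twist (hp : p.Prime) (hp2 : Odd p) (hu0 : u0 ≠ 0)
    (hpe : ∀ b, (S.R b).Lead e (p : F) (algebraMap k (Fb b) u0))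
    (hf : ∀ b, (S.R b).Lead 0 (f / h b ^ p) 1)
    (P : S.TargetPair p h f)
    (hexact : ExactResidues P.T P.T' e) (hexact' : ExactResidues P.T' P.T e)
    {i₀ : ℕ} (hi₀ : 0 < i₀) (hth : (p - 1) * i₀ = p * e)
    (σ : F →+* F) {w : k}
    (hπ : ∀ b, (S.R b).Lead 1 (σ π) (algebraMap k (Fb b) w))
    (hφ : ∀ b a B, (S.R b).Lead 0 a B → (S.R b).Lead 0 (σ a) B)
    (hK : ∀ a ∈ S.Kc, σ a ∈ S.Kc) {c : ℕ} (hc : w ^ i₀ + (c : k) = 0)
    (P₂ : S.TargetPair p (fun b => σ (h b) * h b ^ c) (σ f * f ^ c))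
    (hM : ∀ η ∈ P.T.M, σ η * η ^ c ∈ P₂.T.M) (hM' : ∀ η ∈ P.T'.M, σ η * η ^ c ∈ P₂.T'.M)
    (hlift : ∀ B ∈ P₂.T.W, ∀ X ∈ P₂.U2, B - u0 • X ∈ P₂.T'.W → B ∈ P₂.T.U)
    (hlift' : ∀ B ∈ P₂.T'.W, ∀ X ∈ P₂.U2, B - u0 • X ∈ P₂.T.W → B ∈ P₂.T'.U)
    [FiniteDimensional S.Kc P₂.T.M]
    (hbM : S.IsBounded (fun b => σ (h b) * h b ^ c) P₂.T.M)
    (hb1 : ∀ V : Submodule S.Kc F, FiniteDimensional S.Kc V → S.IsBounded (fun _ => 1) V)
    {Ω : Type z} [Field Ω] [Algebra S.Kc Ω] [IsAlgClosed Ω]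
    {FΩ : Type z} [Field FΩ] [Algebra Ω FΩ] (emb : F →+* FΩ)
    (hemb : ∀ a : S.Kc, emb (a : F) = algebraMap Ω FΩ (algebraMap S.Kc Ω a)) :
    ∃ G : FΩ, G ^ p = emb (σ f * f ^ c) := by
  obtain ⟨⟨κ, ψ, ha⟩, κ', ψ', ha'⟩ := exists_approx_threshold hp hp2 hu0 hpe hf P.cap P.U2
    P.red_sup P.const_U2 hexact hexact' i₀ hth.le
  have h2 := ha.twist hi₀ σ hπ hφ hK hc P₂.T hM
  have h2' := ha'.twist hi₀ σ hπ hφ hK hc P₂.T' hM'
  have hf2 : ∀ b, (S.R b).Lead 0 (σ f * f ^ c / (σ (h b) * h b ^ c) ^ p) 1 := by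
    intro b
    have h0 := (hφ b _ _ (hf b)).mul ((hf b).pow c)
    rw [one_pow, mul_one, Nat.zero_mul, add_zero] at h0
    convert h0 using 1
    rw [map_div₀, map_pow, div_pow, mul_pow, ← pow_mul, ← pow_mul, mul_comm c p, div_mul_div_comm]
  have hgt : p * e < (p - 1) * (i₀ + 1) := by
    have := hp.two_le
    rw [mul_add]
    omega
  exact S.exists_pow_eq P₂.T hp.pos hbM hb1
    (fun i => (exists_approx_all hp hu0 hpe hf2 P₂.U2 P₂.red_sup P₂.const_U2 hlift hlift'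
      hgt h2 h2' i).1) hf2 emb hemb

end RedSystem

end Fermat.Agent.MazurPrinciple

end
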