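/-
Mazur's principle at `p`: the count behind moving `p`-th roots away from the nodes.

If the places where `p` does not divide `div f` specialise injectively to smooth points, every
tuple `r` with `r ^ p φ` bounded and glued is the reduction of a root of `f`, and at every node
`p` divides the order of `φ` on one branch iff it does on the other one.
-/
import Fermat.Agent.MP.SecondMove

set_option autoImplicit false

noncomputable section

namespace Fermat.Agent.MazurPrinciple.Move

open AlgebraicCurve IntermediateField Fermat.Agent.Curve Fermat.Agent.Curve.RedAux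
open Fermat.Agent.Bad Fermat.Agent.Bad.MultiReduction Fermat.Agent.Ribet.Slot

universe uK uF uι uk uFb uS

variable {K : Type uK} [Field K] {A : ValuationSubring K}
  {F : Type uF} [Field F] [Algebra K F] {ι : Type uι} [Fintype ι]
  {k : Type uk} [Field k] {Fb : ι → Type uFb} [∀ i, Field (Fb i)] [∀ i, Algebra k (Fb i)]
  [IsAlgClosed K] [IsFunctionFieldOne K F] [∀ i, IsFunctionFieldOne k (Fb i)]
  {R : MultiReduction A F k Fb} {S : Type uS} [Fintype S] {P : NodePairs R S}
  {p : ℕ} [hp : Fact p.Prime] [CharP k p]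

omit [IsAlgClosed K] [IsFunctionFieldOne K F] [Fintype ι] in
theorem placeValue_sum_of_mem [IsAlgClosed k] {E : Type uFb} [Field E] [Algebra k E]
    [IsFunctionFieldOne k E] (v : Place k E) {α : Type*} (T : Finset α) {g : α → E}
    (hg : ∀ t ∈ T, g t ∈ v.toValuationSubring) :
    placeValue v (∑ t ∈ T, g t) = ∑ t ∈ T, placeValue v (g t) := by
  classical
  induction T using Finset.induction with
  | empty => simp [placeValue_zero]
  | insert t T htT ih =>
    rw [Finset.sum_insert htT, Finset.sum_insert htT,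
      placeValue_add v (hg t (Finset.mem_insert_self t T))
        (sum_mem fun u hu => hg u (Finset.mem_insert_of_mem hu)),
      ih fun u hu => hg u (Finset.mem_insert_of_mem hu)]

variable (R) in
theorem exists_finrank_rootPolar (φ : ∀ i, Fb i) : ∃ N₀ : ℕ, ∀ N, N₀ ≤ N →
    FiniteDimensional k (rootPolar R p φ N) ∧
    (Module.finrank k (rootPolar R p φ N) : ℤ)
      = (N : ℤ) * ∑ i, (Module.finrank k⟮R.xb i⟯ (Fb i) : ℤ)
        + ∑ i, Divisor.degree (floorDiv p (divisorOf k (φ i)))
        + ∑ i, (1 - (genusFF k (Fb i) : ℤ)) := by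
  haveI := R.isAlgClosed_residue
  choose c hc using fun i => exists_finrank_L_eq (K := k) (F := Fb i)
  refine ⟨∑ i, (c i - Divisor.degree (floorDiv p (divisorOf k (φ i)))).toNat, fun N hN => ?_⟩
  haveI : ∀ i, FiniteDimensional k (rootSp p (N • poleDivisor k (R.xb i)) (φ i)) :=
    fun i => finite_L _
  let e : rootPolar R p φ N ≃ₗ[k] ∀ i, rootSp p (N • poleDivisor k (R.xb i)) (φ i) :=
    { toFun := fun h i => ⟨h.1 i, mem_rootPolar.1 h.2 i⟩
      invFun := fun h => ⟨fun i => (h i).1, mem_rootPolar.2 fun i => (h i).2⟩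
      map_add' := fun _ _ => rfl
      map_smul' := fun _ _ => rfl
      left_inv := fun _ => rfl
      right_inv := fun _ => rfl }
  refine ⟨e.symm.finiteDimensional, ?_⟩
  rw [e.finrank_eq, Module.finrank_pi_fintype, Nat.cast_sum, Finset.mul_sum,
    ← Finset.sum_add_distrib, ← Finset.sum_add_distrib]
  refine Finset.sum_congr rfl fun i _ => ?_
  have hdeg : Divisor.degree (N • poleDivisor k (R.xb i) + floorDiv p (divisorOf k (φ i)))
      = (N : ℤ) * (Module.finrank k⟮R.xb i⟯ (Fb i) : ℤ)
        + Divisor.degree (floorDiv p (divisorOf k (φ i))) := by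
    rw [map_add, map_nsmul, degree_poleDivisor (t := R.xb i) (R.x_transcendental i),
      nsmul_eq_mul]
  have h2 : (c i - Divisor.degree (floorDiv p (divisorOf k (φ i)))).toNat ≤ N :=
    le_trans (Finset.single_le_sum
      (f := fun i => (c i - Divisor.degree (floorDiv p (divisorOf k (φ i)))).toNat)
      (fun _ _ => Nat.zero_le _) (Finset.mem_univ i)) hN
  have h3 : (N : ℤ) ≤ (N : ℤ) * (Module.finrank k⟮R.xb i⟯ (Fb i) : ℤ) :=
    le_mul_of_one_le_right (Int.natCast_nonneg N)
      (by exact_mod_cast (R.degree_pos i : 0 < Module.finrank k⟮R.xb i⟯ (Fb i)))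
  have := hc i (N • poleDivisor k (R.xb i) + floorDiv p (divisorOf k (φ i))) (by rw [hdeg]; omega)
  rw [hdeg] at this
  rw [rootSp, this]
  ring

variable (P p) in
open Classical in
/-- The nodes with a branch where `p` divides the order of `φ`. -/
def divNodes (φ : ∀ i, Fb i) : Finset S :=
  Finset.univ.filter fun s => ∃ j, (p : ℤ) ∣ (P.br s j).2.ord (φ (P.br s j).1)

theorem exists_finrank_rootFibre_le (P : NodePairs R S) (φ : ∀ i, Fb i) (hφ : ∀ i, φ i ≠ 0) :
    ∃ N₀ : ℕ, ∀ N, N₀ ≤ N → FiniteDimensional k (rootFibre P p φ N) ∧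
      (Module.finrank k (rootFibre P p φ N) : ℤ) + ((divNodes P p φ).card : ℤ)
        ≤ (Module.finrank k (rootPolar R p φ N) : ℤ) := by
  classical
  haveI := R.isAlgClosed_residue
  obtain ⟨N₁, hN₁⟩ := exists_finrank_rootPolar R (p := p) φ
  obtain ⟨N₂, hN₂⟩ := exists_single_value (p := p) P φ hφ
  refine ⟨max N₁ N₂, fun N hN => ?_⟩
  haveI := (hN₁ N (le_of_max_le_left hN)).1
  have hle : rootFibre P p φ N ≤ rootPolar R p φ N := fun r hr => hr.1
  haveI : FiniteDimensional k (rootFibre P p φ N) := Submodule.finiteDimensional_of_le hle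
  refine ⟨inferInstance, ?_⟩
  set C := divNodes P p φ with hC
  have hC' : ∀ s : C, ∃ j, (p : ℤ) ∣ (P.br s.1 j).2.ord (φ (P.br s.1 j).1) := fun s => by
    have := s.2
    simp only [hC, divNodes, Finset.mem_filter, Finset.mem_univ, true_and] at this
    exact this
  choose jj hjj using hC'
  choose r hr hr0 hr' using fun s : C =>
    hN₂ N (le_of_max_le_right hN) (P.br s.1 (jj s)) (P.regular _ _) (hjj s)
  -- independence modulo the glued tuples
  have hdiff : ∀ a : C → k, ∑ t, a t • r t ∈ rootFibre P p φ N → a = 0 := by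
    intro a ha
    funext s
    have hval : ∀ j, bval (P.br s.1 j) (fun i => (∑ t, a t • r t) i ^ p * φ i)
        = a s ^ p * bval (P.br s.1 j) (fun i => r s i ^ p * φ i) := by
      intro j
      have hm : ∀ t : C, r t (P.br s.1 j).1 ^ p * φ (P.br s.1 j).1
          ∈ (P.br s.1 j).2.toValuationSubring :=
        fun t => mem_branch (hr t) (P.regular _ _)
      have hsum : ∀ T : Finset C,
          ((∑ t ∈ T, a t • r t) (P.br s.1 j).1) ^ p * φ (P.br s.1 j).1
            = ∑ t ∈ T, a t ^ p • (r t (P.br s.1 j).1 ^ p * φ (P.br s.1 j).1) := by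
        intro T
        induction T using Finset.induction with
        | empty => simp [zero_pow hp.out.ne_zero]
        | insert t T htT ih =>
          rw [Finset.sum_insert htT, Finset.sum_insert htT, Pi.add_apply, add_pow_p k,
            add_mul, ih, Pi.smul_apply, smul_pow, smul_mul_assoc]
      simp only [bval]
      rw [hsum, placeValue_sum_of_mem, Finset.sum_eq_single s]
      · rw [placeValue_smul _ _ (hm s)]
      · intro t _ hts
        rw [placeValue_smul _ _ (hm t)]
        refine mul_eq_zero_of_right _ (hr' t s.1 j fun h => hts ?_)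
        have := P.br_injective (a₁ := (s.1, j)) (a₂ := (t.1, jj t)) h
        exact (Subtype.ext (Prod.ext_iff.1 this).1).symm
      · simp
      · intro t _
        rw [Algebra.smul_def]
        exact mul_mem ((P.br s.1 j).2.algebraMap_mem' _) (hm t)
    have h := ha.2 s.1
    rw [hval 0, hval 1] at h
    have hoth : ∀ j, j ≠ jj s → bval (P.br s.1 j) (fun i => r s i ^ p * φ i) = 0 := by
      intro j hj
      refine hr' s s.1 j fun h' => hj ?_
      exact (Prod.ext_iff.1 (P.br_injective (a₁ := (s.1, j)) (a₂ := (s.1, jj s)) h')).2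
    have h0 : a s ^ p * bval (P.br s.1 (jj s)) (fun i => r s i ^ p * φ i) = 0 := by
      rcases (show jj s = 0 ∨ jj s = 1 by omega) with hj | hj
      · rw [hj, h, hoth 1 (by rw [hj]; decide), mul_zero]
      · rw [hj, ← h, hoth 0 (by rw [hj]; decide), mul_zero]
    exact pow_eq_zero_iff hp.out.ne_zero |>.1 ((mul_eq_zero.1 h0).resolve_right (hr0 s))
  let Φ : (rootFibre P p φ N × (C → k)) →ₗ[k] rootPolar R p φ N :=
    { toFun := fun x => ⟨x.1.1 + ∑ t, x.2 t • r t,
        add_mem (hle x.1.2) (sum_mem fun t _ => Submodule.smul_mem _ _ (hr t))⟩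
      map_add' := fun x y => Subtype.ext (by
        simp only [Prod.fst_add, Prod.snd_add, Submodule.coe_add, Pi.add_apply, add_smul,
          Finset.sum_add_distrib]
        abel)
      map_smul' := fun c x => Subtype.ext (by
        simp only [Prod.smul_fst, Prod.smul_snd, SetLike.val_smul, Pi.smul_apply, smul_eq_mul,
          RingHom.id_apply, smul_add, Finset.smul_sum, mul_smul]) }
  have hinj : Function.Injective Φ := by
    rw [← LinearMap.ker_eq_bot, LinearMap.ker_eq_bot']
    rintro ⟨⟨y, hy⟩, a⟩ h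
    have h' : y + ∑ t, a t • r t = 0 := congrArg Subtype.val h
    have ha : a = 0 := hdiff a (by
      rw [← neg_eq_of_add_eq_zero_right h']
      exact neg_mem hy)
    subst ha
    simp only [Pi.zero_apply, zero_smul, Finset.sum_const_zero, add_zero] at h'
    subst h'
    rfl
  have := LinearMap.finrank_le_finrank_of_injective hinj
  rw [Module.finrank_prod, Module.finrank_fintype_fun_eq_card, Fintype.card_coe] at this
  exact_mod_cast this

omit [IsAlgClosed K] hp [CharP k p] in
theorem card_indivisible_le_of_sep (φ : ∀ i, Fb i)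
    (T : Finset (Σ i, Place k (Fb i)))
    (hT : ∀ b ∈ T, ¬ (p : ℤ) ∣ b.2.ord (φ b.1) ∧ ∀ s j, P.br s j ≠ b) :
    T.card + 2 * (Fintype.card S - (divNodes P p φ).card)
      + ((divNodes P p φ).filter fun s =>
          ∃ j, ¬ (p : ℤ) ∣ (P.br s j).2.ord (φ (P.br s j).1)).card
      ≤ ∑ i, (indivisible p (divisorOf k (φ i))).card := by
  classical
  rw [← Finset.card_sigma]
  set C := divNodes P p φ with hC
  set m := C.filter fun s => ∃ j, ¬ (p : ℤ) ∣ (P.br s j).2.ord (φ (P.br s j).1) with hm
  set T₁ : Finset (Σ i, Place k (Fb i)) :=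
    ((Finset.univ : Finset (S × Fin 2)).filter fun x =>
      ¬ (p : ℤ) ∣ (P.br x.1 x.2).2.ord (φ (P.br x.1 x.2).1)).image fun x => P.br x.1 x.2 with hT₁
  have hdisj : Disjoint T T₁ := by
    rw [Finset.disjoint_left]
    intro b hb hb'
    simp only [hT₁, Finset.mem_image] at hb'
    obtain ⟨x, -, hx⟩ := hb'
    exact (hT b hb).2 x.1 x.2 hx
  have hsub : T ∪ T₁ ⊆ Finset.univ.sigma fun i => indivisible p (divisorOf k (φ i)) := by
    intro b hb
    refine Finset.mem_sigma.2 ⟨Finset.mem_univ _, mem_indivisible.2 ?_⟩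
    rw [divisorOf_apply]
    rcases Finset.mem_union.1 hb with hb | hb
    · exact (hT b hb).1
    · simp only [hT₁, Finset.mem_image, Finset.mem_filter, Finset.mem_univ, true_and] at hb
      obtain ⟨x, hx, rfl⟩ := hb
      exact hx
  refine le_trans ?_ (Finset.card_le_card hsub)
  rw [Finset.card_union_of_disjoint hdisj, hT₁, Finset.card_image_of_injective _ P.br_injective]
  have h1 : ((Finset.univ.filter fun s => s ∉ C) ×ˢ (Finset.univ : Finset (Fin 2))).card
      + m.card ≤ ((Finset.univ : Finset (S × Fin 2)).filter fun x =>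
        ¬ (p : ℤ) ∣ (P.br x.1 x.2).2.ord (φ (P.br x.1 x.2).1)).card := by
    have hm' : ∀ s : m, ∃ j, ¬ (p : ℤ) ∣ (P.br s.1 j).2.ord (φ (P.br s.1 j).1) :=
      fun s => (Finset.mem_filter.1 s.2).2
    choose jj hjj using hm'
    rw [← Fintype.card_coe m, ← Finset.card_univ, ← Finset.card_image_of_injective
      (Finset.univ : Finset m) (f := fun s => ((s.1, jj s) : S × Fin 2))
      (fun a b h => Subtype.ext (Prod.ext_iff.1 h).1), ← Finset.card_union_of_disjoint]
    · refine Finset.card_le_card fun x hx => Finset.mem_filter.2 ⟨Finset.mem_univ _, ?_⟩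
      rcases Finset.mem_union.1 hx with hx | hx
      · simp only [Finset.mem_product, Finset.mem_filter, Finset.mem_univ, true_and, and_true,
          hC, divNodes, not_exists] at hx
        exact hx x.2
      · obtain ⟨s, -, rfl⟩ := Finset.mem_image.1 hx
        exact hjj s
    · rw [Finset.disjoint_left]
      intro x hx hx'
      obtain ⟨s, -, rfl⟩ := Finset.mem_image.1 hx'
      simp only [Finset.mem_product, Finset.mem_filter, Finset.mem_univ, true_and, and_true] at hx
      exact hx (Finset.mem_filter.1 s.2).1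
  rw [Finset.card_product, Finset.card_univ (α := Fin 2), Fintype.card_fin,
    Finset.filter_not, Finset.card_sdiff] at h1
  simp only [Finset.filter_univ_mem, Finset.inter_univ, Finset.card_univ] at h1
  omega

/-- Moving: with the indivisible places of `f` specialising injectively to smooth points, every
glued bounded root tuple is a reduction, and the two sides of every node agree modulo `p`. -/
theorem exists_slotFibre_eq (hA : RankLeOne A) (P : NodePairs R S) {c d : ι → K} {f : F}
    (hf : f ≠ 0) {φ : ∀ i, Fb i} (hc : IsSlot R c f φ) (hφ : ∀ i, φ i ≠ 0)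
    (hd : ∀ i, d i ^ p * c i = 1) (T : Finset (Σ i, Place k (Fb i)))
    (hT : ∀ b ∈ T, ¬ (p : ℤ) ∣ b.2.ord (φ b.1) ∧ ∀ s j, P.br s j ≠ b)
    (hsep : (indivisible p (divisorOf K f)).card ≤ T.card) :
    (∃ N₀ : ℕ, ∀ N, N₀ ≤ N →
      slotFibre (R := R) d (rootSp p (N • R.poleX) f) = rootFibre P p φ N) ∧
    (∀ s j j', (p : ℤ) ∣ (P.br s j).2.ord (φ (P.br s j).1) →
      (p : ℤ) ∣ (P.br s j').2.ord (φ (P.br s j').1)) ∧
    ∀ b : Σ i, Place k (Fb i), b ∉ T → (∀ s j, P.br s j ≠ b) →
      (p : ℤ) ∣ b.2.ord (φ b.1) := by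
  classical
  haveI := R.isAlgClosed_residue
  obtain ⟨N₁, hN₁⟩ := exists_finrank_rootPolar R (p := p) φ
  obtain ⟨N₂, hN₂⟩ := exists_finrank_rootPolar R (p := p) φ⁻¹
  obtain ⟨N₃, hN₃⟩ := exists_finrank_rootFibre_le (p := p) P φ hφ
  have hφ' : ∀ i, φ⁻¹ i ≠ 0 := fun i => inv_ne_zero (hφ i)
  obtain ⟨N₄, hN₄⟩ := exists_finrank_rootFibre_le (p := p) P φ⁻¹ hφ'
  have hd0 : ∀ i, d i ≠ 0 := fun i h => by
    have := hd i; rw [h, zero_pow hp.out.ne_zero, zero_mul] at this; exact zero_ne_one this
  have key : ∀ N, max (max N₁ N₂) (max N₃ N₄) ≤ N →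
      slotFibre (R := R) d (rootSp p (N • R.poleX) f) = rootFibre P p φ N ∧
      ((divNodes P p φ).filter fun s =>
        ∃ j, ¬ (p : ℤ) ∣ (P.br s j).2.ord (φ (P.br s j).1)) = ∅ ∧
      ∀ b : Σ i, Place k (Fb i), b ∉ T → (∀ s j, P.br s j ≠ b) →
        (p : ℤ) ∣ b.2.ord (φ b.1) := by
    intro N hN
    simp only [max_le_iff] at hN
    have lower : ∀ (g : F) (b : ι → K), (∀ i, b i ≠ 0) →
        (N : ℤ) * ∑ i, (Module.finrank k⟮R.xb i⟯ (Fb i) : ℤ)
          + Divisor.degree (floorDiv p (divisorOf K g)) + 1 - (genusFF K F : ℤ)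
        ≤ (Module.finrank k (slotFibre (R := R) b (rootSp p (N • R.poleX) g)) : ℤ) := by
      intro g b hb
      haveI : FiniteDimensional K (rootSp p (N • R.poleX) g) := finite_L _
      rw [finrank_slotFibre R hA b hb]
      have := le_finrank_L (N • R.poleX + floorDiv p (divisorOf K g))
      rw [map_add, R.degree_nsmul_poleX, Nat.cast_mul, Nat.cast_sum] at this
      exact this
    have hle := slotFibre_le (P := P) (N := N) hf hc hφ hd
    have hle' := slotFibre_le (P := P) (N := N) (inv_ne_zero hf) (hc.inv hφ) hφ'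
      (d := d⁻¹) (fun i => by rw [Pi.inv_apply, Pi.inv_apply, inv_pow, ← mul_inv, hd i, inv_one])
    haveI := (hN₃ N hN.2.1).1
    haveI := (hN₄ N hN.2.2).1
    have a1 := Submodule.finrank_mono hle
    have a2 := Submodule.finrank_mono hle'
    have b1 := lower f d hd0
    have b2 := lower f⁻¹ d⁻¹ fun i => inv_ne_zero (hd0 i)
    have c1 := (hN₃ N hN.2.1).2
    have c2 := (hN₄ N hN.2.2).2
    have d1 := (hN₁ N hN.1.1).2
    have d2 := (hN₂ N hN.1.2).2
    have e0 : ∀ i, divisorOf k (φ⁻¹ i) = -divisorOf k (φ i) := fun i =>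
      Finsupp.ext fun v => by simp [Place.ord_inv]
    have e0' : divisorOf K f⁻¹ = -divisorOf K f := Finsupp.ext fun v => by simp [Place.ord_inv]
    have eC : divNodes P p φ⁻¹ = divNodes P p φ := by
      ext s
      simp [divNodes, Place.ord_inv]
    have e1 := degree_floorDiv_add_neg hp.out.pos (divisorOf K f)
    have e2 : ∑ i, Divisor.degree (floorDiv p (divisorOf k (φ i)))
        + ∑ i, Divisor.degree (floorDiv p (divisorOf k (φ⁻¹ i)))
          = -((∑ i, (indivisible p (divisorOf k (φ i))).card : ℕ) : ℤ) := by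
      rw [← Finset.sum_add_distrib, Nat.cast_sum, ← Finset.sum_neg_distrib]
      exact Finset.sum_congr rfl fun i _ => by
        rw [e0]; exact degree_floorDiv_add_neg hp.out.pos _
    have e3 := card_indivisible_le_of_sep φ T hT (P := P)
    have e4 := P.count
    have e5 : (divNodes P p φ).card ≤ Fintype.card S := Finset.card_le_univ _
    rw [e0'] at b2
    rw [eC] at c2
    refine ⟨Submodule.eq_of_le_of_finrank_le hle ?_, Finset.card_eq_zero.1 ?_, fun b hbT hbs => ?_⟩
    · omega
    · omega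
    · by_contra hb
      have e6 := card_indivisible_le_of_sep φ (insert b T) (P := P) (fun b' hb' =>
        (Finset.mem_insert.1 hb').elim (fun h => h ▸ ⟨hb, hbs⟩) (hT b'))
      rw [Finset.card_insert_of_notMem hbT] at e6
      omega
  refine ⟨⟨_, fun N hN => (key N hN).1⟩, fun s j j' hj => ?_, (key _ le_rfl).2.2⟩
  by_contra hj'
  have := (key _ le_rfl).2.1
  rw [Finset.filter_eq_empty_iff] at this
  exact this (Finset.mem_filter.2 ⟨Finset.mem_univ _, j, hj⟩) ⟨j', hj'⟩

/-- A glued root tuple which is non-zero at a given node and vanishes at the other nodes. -/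
theorem exists_mem_rootFibre_node (P : NodePairs R S) (φ : ∀ i, Fb i) (hφ : ∀ i, φ i ≠ 0) :
    ∃ N₀ : ℕ, ∀ N, N₀ ≤ N → ∀ s,
      (∀ j, (p : ℤ) ∣ (P.br s j).2.ord (φ (P.br s j).1)) →
      ∃ r ∈ rootFibre P p φ N, ∀ t j,
        bval (P.br t j) (fun i => r i ^ p * φ i) ≠ 0 ↔ t = s := by
  classical
  haveI := R.isAlgClosed_residue
  obtain ⟨N₀, hN₀⟩ := exists_single_value (p := p) P φ hφ
  refine ⟨N₀, fun N hN s hs => ?_⟩
  choose r hr hr0 hr' using fun j => hN₀ N hN (P.br s j) (P.regular _ _) (hs j)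
  set v := fun j => bval (P.br s j) (fun i => r j i ^ p * φ i) with hv
  obtain ⟨β, hβ⟩ := IsAlgClosed.exists_pow_nat_eq (v 0 / v 1) hp.out.pos
  set a : Fin 2 → k := ![1, β] with ha
  have ha0 : ∀ j, a j ^ p * v j = v 0 := by
    refine Fin.forall_fin_two.2 ⟨by simp [ha], ?_⟩
    simp only [ha, Matrix.cons_val_one, Matrix.cons_val_zero, hβ]
    rw [div_mul_cancel₀ _ (hr0 1)]
  set R₂ := a 0 • r 0 + a 1 • r 1 with hR₂
  have hR₂p : R₂ ∈ rootPolar R p φ N :=
    add_mem (Submodule.smul_mem _ _ (hr 0)) (Submodule.smul_mem _ _ (hr 1))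
  have hval : ∀ t j, bval (P.br t j) (fun i => R₂ i ^ p * φ i)
      = if t = s then v 0 else 0 := by
    intro t j
    have hm : ∀ l, r l (P.br t j).1 ^ p * φ (P.br t j).1 ∈ (P.br t j).2.toValuationSubring :=
      fun l => mem_branch (hr l) (P.regular _ _)
    have hm' : ∀ l, a l ^ p • (r l (P.br t j).1 ^ p * φ (P.br t j).1)
        ∈ (P.br t j).2.toValuationSubring := fun l => by
      rw [Algebra.smul_def]; exact mul_mem ((P.br t j).2.algebraMap_mem' _) (hm l)
    have e : R₂ (P.br t j).1 ^ p * φ (P.br t j).1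
        = a 0 ^ p • (r 0 (P.br t j).1 ^ p * φ (P.br t j).1)
          + a 1 ^ p • (r 1 (P.br t j).1 ^ p * φ (P.br t j).1) := by
      rw [hR₂, Pi.add_apply, add_pow_p k, add_mul, Pi.smul_apply, Pi.smul_apply, smul_pow,
        smul_pow, smul_mul_assoc, smul_mul_assoc]
    have h2 : bval (P.br t j) (fun i => R₂ i ^ p * φ i)
        = a 0 ^ p * bval (P.br t j) (fun i => r 0 i ^ p * φ i)
          + a 1 ^ p * bval (P.br t j) (fun i => r 1 i ^ p * φ i) := by
      simp only [bval]
      rw [e, placeValue_add _ (hm' 0) (hm' 1), placeValue_smul _ _ (hm 0),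
        placeValue_smul _ _ (hm 1)]
    rw [h2]
    split_ifs with hts
    · subst hts
      have hz : ∀ l, l ≠ j → bval (P.br t j) (fun i => r l i ^ p * φ i) = 0 :=
        fun l hl => hr' l t j fun h => hl
          (Prod.ext_iff.1 (P.br_injective (a₁ := (t, j)) (a₂ := (t, l)) h)).2.symm
      rcases (show j = 0 ∨ j = 1 by omega) with rfl | rfl
      · rw [hz 1 (by decide), mul_zero, add_zero]; exact ha0 0
      · rw [hz 0 (by decide), mul_zero, zero_add]; exact ha0 1
    · have hz : ∀ l, bval (P.br t j) (fun i => r l i ^ p * φ i) = 0 :=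
        fun l => hr' l t j fun h => hts
          (Prod.ext_iff.1 (P.br_injective (a₁ := (t, j)) (a₂ := (s, l)) h)).1
      rw [hz 0, hz 1, mul_zero, mul_zero, add_zero]
  refine ⟨R₂, ⟨hR₂p, fun t => by rw [hval, hval]⟩, fun t j => ?_⟩
  rw [hval]
  split_ifs with hts
  · exact iff_of_true (hr0 0) hts
  · exact iff_of_false (fun h => h rfl) hts

/-- A glued root tuple which is non-zero at a given smooth branch. -/
theorem exists_mem_rootFibre_smooth (P : NodePairs R S) (φ : ∀ i, Fb i) (hφ : ∀ i, φ i ≠ 0) :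
    ∃ N₀ : ℕ, ∀ N, N₀ ≤ N → ∀ b : Σ i, Place k (Fb i), 0 ≤ b.2.ord (R.xb b.1) →
      (∀ s j, P.br s j ≠ b) → (p : ℤ) ∣ b.2.ord (φ b.1) →
      ∃ r ∈ rootFibre P p φ N, bval b (fun i => r i ^ p * φ i) ≠ 0 := by
  obtain ⟨N₀, hN₀⟩ := exists_single_value (p := p) P φ hφ
  refine ⟨N₀, fun N hN b hb hbs hdvd => ?_⟩
  obtain ⟨r, hr, hr0, hr'⟩ := hN₀ N hN b hb hdvd
  exact ⟨r, ⟨hr, fun s => by rw [hr' s 0 (hbs s 0), hr' s 1 (hbs s 1)]⟩, hr0⟩

end Fermat.Agent.MazurPrinciple.Move

end
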