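/-
Mazur's principle at `p`: glued tuples on the special fibre.
-/
import Fermat.Agent.MP.SecondMoveCount

set_option autoImplicit false

noncomputable section

namespace Fermat.Agent.MazurPrinciple.Move

open AlgebraicCurve IntermediateField Fermat.Agent.Curve Fermat.Agent.Curve.RedAux
open Fermat.Agent.Bad Fermat.Agent.Bad.MultiReduction Fermat.Agent.Ribet.Slot

universe uK uF uι uk uFb uS

variable {K : Type uK} [Field K] {A : ValuationSubring K}
  {F : Type uF} [Field F] [Algebra K F] {ι : Type uι} [Fintype ι]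
  {k : Type uk} [Field k] {Fb : ι → Type uFb} [∀ i, Field (Fb i)] [∀ i, Algebra k (Fb i)]
  [IsAlgClosed K] [IsFunctionFieldOne K F] [∀ i, IsFunctionFieldOne k (Fb i)]
  {R : MultiReduction A F k Fb} {S : Type uS} [Fintype S]

/-- A function without poles is constant. -/
theorem exists_const_of_ord_nonneg {k' : Type uk} [Field k'] [IsAlgClosed k'] {E : Type uFb}
    [Field E] [Algebra k' E] [IsFunctionFieldOne k' E] {f : E}
    (h : f ≠ 0 → ∀ v : Place k' E, 0 ≤ v.ord f) : ∃ c : k', algebraMap k' E c = f := by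
  by_cases ht : Transcendental k' f
  · exfalso
    have hf0 : f ≠ 0 := fun h0 => ht (h0 ▸ isAlgebraic_zero)
    have ht' : Transcendental k' f⁻¹ := fun h' => ht (by simpa using h'.inv)
    obtain ⟨v, hv⟩ := exists_place_ord_pos ht'
    rw [Place.ord_inv] at hv
    have := h hf0 v
    omega
  · have hi : IsIntegral k' f := isAlgebraic_iff_isIntegral.1 (not_not.1 ht)
    exact RingHom.mem_range.mp (minpoly.mem_range_of_degree_eq_one k' f
      (IsAlgClosed.degree_eq_one_of_irreducible k' (minpoly.irreducible hi)))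

/-- Equal values at the two branches of every node. -/
def Glued (P : NodePairs R S) (h : ∀ i, Fb i) : Prop :=
  ∀ s, bval (P.br s 0) h = bval (P.br s 1) h

variable {P : NodePairs R S}

theorem mem_node_of_polarFibre {N : ℕ} {h : ∀ i, Fb i} (hh : h ∈ R.polarFibre N) (s : S)
    (j : Fin 2) : h (P.br s j).1 ∈ (P.br s j).2.toValuationSubring :=
  R.mem_of_mem_polarFibre hh (P.regular s j)

theorem glued_of_mem_spFibre {N : ℕ} {h : ∀ i, Fb i} (hh : h ∈ R.spFibre (R.polarSp N)) :
    Glued P h := P.matched N h hh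

theorem Glued.mul {h h' : ∀ i, Fb i} (hh : Glued P h) (hh' : Glued P h') {M N : ℕ}
    (hm : h ∈ R.polarFibre M) (hn : h' ∈ R.polarFibre N) : Glued P (h * h') := by
  haveI := R.isAlgClosed_residue
  intro s
  simp only [bval, Pi.mul_apply]
  rw [placeValue_mul _ (mem_node_of_polarFibre hm s 0) (mem_node_of_polarFibre hn s 0),
    placeValue_mul _ (mem_node_of_polarFibre hm s 1) (mem_node_of_polarFibre hn s 1)]
  exact congrArg₂ (· * ·) (hh s) (hh' s)

theorem Glued.pow_iff (p : ℕ) [hp : Fact p.Prime] [CharP k p] {h : ∀ i, Fb i} {N : ℕ}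
    (hm : h ∈ R.polarFibre N) : Glued P (h ^ p) ↔ Glued P h := by
  haveI := R.isAlgClosed_residue
  refine forall_congr' fun s => ?_
  simp only [bval, Pi.pow_apply]
  rw [placeValue_pow _ (mem_node_of_polarFibre hm s 0),
    placeValue_pow _ (mem_node_of_polarFibre hm s 1)]
  exact (frobenius_inj k p).eq_iff

theorem pow_mem_polarFibre {N : ℕ} {h : ∀ i, Fb i} (hh : h ∈ R.polarFibre N) (n : ℕ) :
    h ^ n ∈ R.polarFibre (n * N) := by
  induction n with
  | zero =>
    rw [pow_zero]
    exact R.spFibre_polar_le _ (R.one_mem_spFibre_polar _)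
  | succ n ih => rw [pow_succ, Nat.succ_mul]; exact R.mul_mem_polarFibre ih hh

theorem mem_polarFibre_of_pow {p N : ℕ} (hp : 0 < p) {h : ∀ i, Fb i}
    (hh : h ^ p ∈ R.polarFibre (p * N)) : h ∈ R.polarFibre N := by
  rw [R.mem_polarFibre_iff_ord] at hh ⊢
  intro i v
  refine (hh i v).imp (fun h0 => pow_eq_zero_iff hp.ne' |>.1 h0) fun h1 => ?_
  rw [Pi.pow_apply, Curve.ord_pow v] at h1
  push_cast at h1
  have hp' : (0 : ℤ) < p := by exact_mod_cast hp
  refine le_of_mul_le_mul_left ?_ hp'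
  linarith

/-- In large degree the special fibre consists of all bounded glued tuples. -/
theorem exists_mem_spFibre_iff (p : ℕ) [hp : Fact p.Prime] [CharP k p] (hA : RankLeOne A)
    (P : NodePairs R S) :
    ∃ N₀ : ℕ, ∀ N, N₀ ≤ N → ∀ h : ∀ i, Fb i,
      h ∈ R.spFibre (R.polarSp N) ↔ h ∈ R.polarFibre N ∧ Glued P h := by
  classical
  haveI := R.isAlgClosed_residue
  have hslot1 : IsSlot R (1 : ι → K) (1 : F) 1 := fun i => ⟨by simp, by
    refine Eq.trans ?_ (map_one (R.φ i))
    exact congrArg _ (Subtype.ext (by simp))⟩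
  have hindiv : indivisible p (divisorOf K (1 : F)) = ∅ := by
    refine Finset.eq_empty_of_forall_notMem fun v hv => mem_indivisible.1 hv ?_
    simp
  obtain ⟨⟨N₀, hN₀⟩, -⟩ := exists_slotFibre_eq (p := p) hA P one_ne_zero hslot1
    (fun i => one_ne_zero) (d := 1) (fun i => by simp) ∅ (fun b hb => absurd hb (by simp))
    (by rw [hindiv]; exact Nat.zero_le _)
  refine ⟨N₀, fun N hN h => ⟨fun hh => ⟨R.spFibre_polar_le N hh, glued_of_mem_spFibre hh⟩,
    fun ⟨hh, hg⟩ => ?_⟩⟩
  have hr : h ∈ rootFibre P p (1 : ∀ i, Fb i) N := by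
    refine ⟨mem_rootPolar.2 fun i => ?_, fun s => ?_⟩
    · rw [rootSp, show floorDiv p (divisorOf k ((1 : ∀ i, Fb i) i)) = 0 from
        Finsupp.ext fun v => by simp, add_zero]
      exact R.mem_polarFibre.1 hh i
    · simpa [Pi.pow_def] using ((Glued.pow_iff p hh).2 hg) s
  rw [← hN₀ N hN] at hr
  obtain ⟨ψ, hψ, hs⟩ := hr
  refine ⟨⟨ψ, R.mem_integers.2 fun i => ?_⟩, ?_, funext fun i => ?_⟩
  · obtain ⟨hV, -⟩ := hs i
    simpa using hV
  · rw [rootSp, show floorDiv p (divisorOf K (1 : F)) = 0 from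
      Finsupp.ext fun v => by simp, add_zero] at hψ
    exact hψ
  · obtain ⟨hV, he⟩ := hs i
    rw [R.red_apply, ← he]
    exact congrArg _ (Subtype.ext (by simp))

end Fermat.Agent.MazurPrinciple.Move

end
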