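/-
Mazur's principle at `p`, abstract part: multiplying a target by a unit moves its pole divisor.
-/
import Fermat.Agent.MP.SecondCompare

set_option autoImplicit false

noncomputable section

namespace Fermat.Agent.MazurPrinciple

universe u v w x

variable {F : Type u} [Field F] {π : F} {k : Type w} [Field k] {ι : Type x}
  {Fb : ι → Type v} [∀ b, Field (Fb b)] [∀ b, Algebra k (Fb b)]

namespace RedSystem

variable {S : RedSystem F π k Fb} {p : ℕ} {h : ι → F} {f : F}

/-- The target with all roots multiplied by the unit `u`. -/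
def Target.mulUnit (T : S.Target p h f) (u : F) (ub : ∀ b, Fb b) (hu0 : u ≠ 0)
    (hub : ∀ b, ub b ≠ 0) (hlead : ∀ b, (S.R b).Lead 0 u (ub b)) (hone : u⁻¹ ^ p ∈ T.L) :
    S.Target p h f where
  L := T.L.map (LinearMap.mulLeft S.Kc (u ^ p))
  M := T.M.map (LinearMap.mulLeft S.Kc u)
  W := T.W.map (LinearMap.mulLeft k (fun b => ub b ^ p))
  U := T.U.map (LinearMap.mulLeft k ub)
  one_mem_L := ⟨u⁻¹ ^ p, hone, by
    rw [LinearMap.mulLeft_apply, inv_pow, mul_inv_cancel₀ (pow_ne_zero _ hu0)]⟩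
  mem_L := by
    rintro _ ⟨ψ, hψ, rfl⟩
    refine ⟨ψ ^ p * f, T.mem_L ψ hψ, ?_⟩
    simp only [LinearMap.mulLeft_apply, mul_pow, mul_assoc]
  red_L := by
    rintro _ ⟨z, hz, rfl⟩ B hB
    have hz' : ∀ b, (S.R b).Lead 0 z (B b / ub b ^ p) := fun b => by
      have h0 := (hlead b).pow p
      rw [Nat.zero_mul] at h0
      have h1 := (hB b).mul (h0.inv (pow_ne_zero _ (hub b)))
      simp only [LinearMap.mulLeft_apply, add_zero] at h1
      rw [← div_eq_mul_inv, ← div_eq_mul_inv] at h1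
      convert h1 using 1
      field_simp
    refine ⟨_, T.red_L z hz _ hz', funext fun b => ?_⟩
    simp only [LinearMap.mulLeft_apply, Pi.mul_apply]
    rw [mul_div_cancel₀ _ (pow_ne_zero _ (hub b))]
  root := by
    rintro r ⟨B, hB, hBr⟩
    refine ⟨fun b => r b / ub b, T.root _ ?_, funext fun b => ?_⟩
    · have he : (fun b => (r b / ub b) ^ p) = B := funext fun b => by
        have := congrFun hBr b
        simp only [LinearMap.mulLeft_apply, Pi.mul_apply] at this
        rw [div_pow, ← this, mul_div_cancel_left₀ _ (pow_ne_zero _ (hub b))]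
      rw [he]; exact hB
    · simp only [LinearMap.mulLeft_apply, Pi.mul_apply]
      rw [mul_div_cancel₀ _ (hub b)]
  move := by
    rintro _ ⟨r, hr, rfl⟩
    obtain ⟨η, hη, hηr⟩ := T.move r hr
    refine ⟨u * η, ⟨η, hη, rfl⟩, fun b => ?_⟩
    have h1 := (hlead b).mul (hηr b)
    rw [add_zero] at h1
    convert h1 using 1
    · ring
    · rfl

variable {T : S.Target p h f} {u : F} {ub : ∀ b, Fb b} {hu0 : u ≠ 0} {hub : ∀ b, ub b ≠ 0}
  {hlead : ∀ b, (S.R b).Lead 0 u (ub b)} {hone : u⁻¹ ^ p ∈ T.L}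

theorem Target.mem_mulUnit_M {ψ : F} :
    ψ ∈ (T.mulUnit u ub hu0 hub hlead hone).M ↔ ∃ η ∈ T.M, u * η = ψ := Iff.rfl

theorem Target.mem_mulUnit_W {B : ∀ b, Fb b} :
    B ∈ (T.mulUnit u ub hu0 hub hlead hone).W ↔
      ∃ B₀ ∈ T.W, (fun b => ub b ^ p) * B₀ = B := Iff.rfl

theorem Target.mem_mulUnit_U {B : ∀ b, Fb b} :
    B ∈ (T.mulUnit u ub hu0 hub hlead hone).U ↔ ∃ B₀ ∈ T.U, ub * B₀ = B := Iff.rfl

end RedSystem

end Fermat.Agent.MazurPrinciple

end
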