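/-
Mazur's principle at `p`: targets of fixed functions with poles bounded by `N poleX`, and by the
zeros of `x - a`.
-/
import Fermat.Agent.MP.SecondGlue
import Fermat.Agent.MP.SecondDescentBasis
import Fermat.Agent.MP.SecondUnit
import Fermat.Agent.MP.SecondDriver

set_option autoImplicit false

noncomputable section

namespace Fermat.Agent.MazurPrinciple.Move

open AlgebraicCurve IntermediateField Fermat.Agent.Curve Fermat.Agent.Curve.RedAux
open Fermat.Agent.Bad Fermat.Agent.Bad.MultiReduction Fermat.Agent.Ribet.Slot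

universe uK uF uι uk uFb uS

variable {K : Type uK} [Field K] {A : ValuationSubring K}
  {F : Type uF} [Field F] [Algebra K F] {ι : Type uι} [Fintype ι]
  {k : Type uk} [Field k] {Fb : ι → Type uFb} [∀ i, Field (Fb i)] [∀ i, Algebra k (Fb i)]
  [IsAlgClosed K] [IsFunctionFieldOne K F] [∀ i, IsFunctionFieldOne k (Fb i)]
  {R : MultiReduction A F k Fb} {D : Descent R} {S : Type uS} [Fintype S] {P : NodePairs R S}
  {p : ℕ} [hp : Fact p.Prime] [CharP k p]

variable (D p) in
/-- `f` with a presentation `f ≡ (d L) ^ p` on every component. -/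
structure RootData (h : ι → D.F0) (f : D.F0) where
  d : ι → K
  d_mem : ∀ i, d i ∈ D.K0
  d_ne_zero : ∀ i, d i ≠ 0
  L : ι → D.F0
  G : ∀ i, Fb i
  G_ne_zero : ∀ i, G i ≠ 0
  lead_L : ∀ i, (D.redSystem.R i).Lead 0 (L i) (G i)
  h_eq : ∀ i, h i = D.constHom ⟨d i, d_mem i⟩ * L i
  lead_f : ∀ i, (D.redSystem.R i).Lead 0 (f / h i ^ p) 1

variable {h : ι → D.F0} {f : D.F0}

namespace RootData

variable (E : RootData D p h f)

include E in
theorem f_ne_zero : (f : F) ≠ 0 := by
  obtain ⟨i⟩ := R.nonempty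
  exact fun h0 => left_ne_zero_of_mul ((div_eq_mul_inv f (h i ^ p)) ▸
    (E.lead_f i).ne_zero one_ne_zero) (Subtype.ext h0)

theorem isSlot : IsSlot R (fun i => (E.d i ^ p)⁻¹) (f : F) fun i => E.G i ^ p := by
  intro i
  have h1 := (E.lead_f i).mul ((E.lead_L i).pow p)
  rw [Nat.zero_mul, add_zero, one_mul] at h1
  obtain ⟨hV, he⟩ := D.lead_zero_iff.1 h1
  have hL : (E.L i : F) ≠ 0 := fun h0 =>
    ((E.lead_L i).ne_zero (E.G_ne_zero i)) (Subtype.ext h0)
  have e : ((f / h i ^ p * E.L i ^ p : D.F0) : F) = (E.d i ^ p)⁻¹ • (f : F) := by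
    simp only [Subfield.coe_mul, Subfield.coe_div, SubmonoidClass.coe_pow, E.h_eq]
    show (f : F) / (algebraMap K F (E.d i) * (E.L i : F)) ^ p * (E.L i : F) ^ p = _
    have hd : algebraMap K F (E.d i) ≠ 0 := by simpa using E.d_ne_zero i
    rw [Algebra.smul_def, map_inv₀, map_pow, mul_pow]
    field_simp
  exact ⟨by rw [← e]; exact hV, (congrArg _ (Subtype.ext e.symm)).trans he⟩

theorem pow_mul_inv (i : ι) : E.d i ^ p * (E.d i ^ p)⁻¹ = 1 :=
  mul_inv_cancel₀ (pow_ne_zero _ (E.d_ne_zero i))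

end RootData

theorem lead_zero_unique {i : ι} {z : D.F0} {B : Fb i} (h : (D.redSystem.R i).Lead 0 z B)
    {hV : (z : F) ∈ R.V i} : R.φ i ⟨_, hV⟩ = B := by
  obtain ⟨_, he⟩ := D.lead_zero_iff.1 h
  exact he

theorem red_mem_spFibre {N : ℕ} {z : D.F0} (hz : (z : F) ∈ R.polarSp N) {B : ∀ i, Fb i}
    (hB : ∀ i, (D.redSystem.R i).Lead 0 z (B i)) : B ∈ R.spFibre (R.polarSp N) := by
  refine ⟨⟨(z : F), R.mem_integers.2 fun i => (D.lead_zero_iff.1 (hB i)).choose⟩, hz,
    funext fun i => ?_⟩
  rw [R.red_apply]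
  exact lead_zero_unique (hB i)

variable (D) in
/-- The fixed functions of the root space span it. -/
def SpannedByFixed (p : ℕ) (f : D.F0) : Prop :=
  ∀ N : ℕ, rootSp p (N • R.poleX) (f : F)
    ≤ Submodule.span K ((rootSp p (N • R.poleX) (f : F) : Set F) ∩ D.F0)

variable (P) in
/-- The degree is large enough for moving roots of `f`. -/
def Large (E : RootData D p h f) (N : ℕ) : Prop :=
  slotFibre (R := R) E.d (rootSp p (N • R.poleX) (f : F))
      = rootFibre P p (fun i => E.G i ^ p) N ∧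
    ∀ M, N ≤ M → ∀ y : ∀ i, Fb i,
      y ∈ R.spFibre (R.polarSp M) ↔ y ∈ R.polarFibre M ∧ Glued P y

/-- All large degrees are large enough. -/
theorem exists_large (hA : RankLeOne A) (E : RootData D p h f)
    (hdvd : ∀ v : Place K F, (p : ℤ) ∣ v.ord (f : F)) :
    ∃ N₀, ∀ N, N₀ ≤ N → Large P E N := by
  obtain ⟨⟨N₁, hN₁⟩, -⟩ := exists_slotFibre_eq (p := p) hA P E.f_ne_zero E.isSlot
    (fun i => pow_ne_zero _ (E.G_ne_zero i)) (d := E.d) E.pow_mul_inv ∅
    (fun b hb => absurd hb (by simp))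
    (by
      rw [show indivisible p (divisorOf K (f : F)) = ∅ from
        Finset.eq_empty_of_forall_notMem fun v hv => mem_indivisible.1 hv (by simpa using hdvd v)]
      exact Nat.zero_le _)
  obtain ⟨N₂, hN₂⟩ := exists_mem_spFibre_iff p hA P
  exact ⟨max N₁ N₂, fun N hN => ⟨hN₁ N (le_of_max_le_left hN),
    fun M hM y => hN₂ M ((le_of_max_le_right hN).trans hM) y⟩⟩

/-- The target over the poles of `x`. -/
def target (hA : RankLeOne A) (E : RootData D p h f) (hspan : SpannedByFixed D p f) (N : ℕ)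
    (hN : Large P E N) : D.redSystem.Target p h f where
  L := fixedSub D (R.polarSp (p * N))
  M := fixedSub D (rootSp p (N • R.poleX) (f : F))
  W := R.spFibre (R.polarSp (p * N))
  U :=
    { carrier := {r | r ^ p ∈ R.spFibre (R.polarSp (p * N))}
      zero_mem' := by
        show (0 : ∀ i, Fb i) ^ p ∈ R.spFibre (R.polarSp (p * N))
        rw [zero_pow hp.out.ne_zero]; exact zero_mem _
      add_mem' := by
        intro r r' hr hr'
        show (r + r') ^ p ∈ R.spFibre (R.polarSp (p * N))
        have e : (r + r') ^ p = r ^ p + r' ^ p := funext fun i => by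
          simp only [Pi.pow_apply, Pi.add_apply, add_pow_p k]
        rw [e]; exact add_mem hr hr'
      smul_mem' := by
        intro c r hr
        show (c • r) ^ p ∈ R.spFibre (R.polarSp (p * N))
        rw [smul_pow]; exact Submodule.smul_mem _ _ hr }
  one_mem_L := R.one_mem_polarSp _
  mem_L := fun ψ hψ => by
    show ((ψ ^ p * f : D.F0) : F) ∈ R.polarSp (p * N)
    rw [Subfield.coe_mul, SubmonoidClass.coe_pow, polarSp, mul_comm p N, mul_nsmul]
    exact pow_mul_mem hp.out.pos hψ
  red_L := fun z hz B hB => red_mem_spFibre hz hB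
  root := fun r hr => hr
  move := by
    intro r hr
    haveI := R.isAlgClosed_residue
    haveI : FiniteDimensional K (rootSp p (N • R.poleX) (f : F)) := finite_L _
    have hW : r ^ p ∈ R.spFibre (R.polarSp (p * N)) := hr
    set r' : ∀ i, Fb i := fun i => r i / E.G i with hr'
    have he : (fun i => r' i ^ p * E.G i ^ p) = r ^ p := funext fun i => by
      rw [hr', Pi.pow_apply, ← mul_pow, div_mul_cancel₀ _ (E.G_ne_zero i)]
    have hmem : r' ∈ rootFibre P p (fun i => E.G i ^ p) N := by
      refine ⟨mem_rootPolar.2 fun i => ?_, fun s => ?_⟩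
      · rcases eq_or_ne (r' i) 0 with h0 | h0
        · rw [h0]; exact zero_mem _
        · rw [mem_rootSp_iff hp.out.pos h0 (pow_ne_zero _ (E.G_ne_zero i))]
          have h1 := R.mem_polarFibre.1 (R.spFibre_polar_le _ hW) i
          rw [← he, mul_comm p N, mul_nsmul] at h1
          exact h1
      · have hg := glued_of_mem_spFibre (P := P) hW s
        rw [← he] at hg
        exact hg
    rw [← hN.1] at hmem
    obtain ⟨η, hη, hs⟩ := exists_fixed_slot D hA E.d_ne_zero E.d_mem _ (hspan N) hmem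
    refine ⟨η, hη, fun i => ?_⟩
    obtain ⟨hV, he'⟩ := hs i
    have h1 : (D.redSystem.R i).Lead 0 (D.constHom ⟨E.d i, E.d_mem i⟩ * η) (r' i) := by
      refine D.lead_zero_iff.2 ?_
      have e : ((D.constHom ⟨E.d i, E.d_mem i⟩ * η : D.F0) : F) = E.d i • (η : F) :=
        (Algebra.smul_def _ _).symm
      exact ⟨by rw [e]; exact hV, (congrArg _ (Subtype.ext e)).trans he'⟩
    have h2 := (E.lead_L i).mul h1
    rw [add_zero, hr', mul_div_cancel₀ _ (E.G_ne_zero i)] at h2
    convert h2 using 1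
    rw [E.h_eq i]
    ring

variable (P) in
/-- A fixed constant whose residue avoids the values of `x` at the nodes. -/
structure Avoid where
  a : D.K0
  mem : (a : K) ∈ A
  sub_ne_zero : ∀ i, R.xb i - algebraMap k (Fb i) (R.π ⟨a, mem⟩) ≠ 0
  node : ∀ s j, bval (P.br s j) (fun i => R.xb i - algebraMap k (Fb i) (R.π ⟨a, mem⟩)) ≠ 0

theorem exists_avoid (P : NodePairs R S) (Q : D.K0 → Prop)
    (hQ : ∀ c : k, ∃ (a : A) (ha : (a : K) ∈ D.K0), R.π a = c ∧ Q ⟨a, ha⟩) :
    ∃ a : Avoid (D := D) P, Q a.a := by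
  classical
  haveI := R.isAlgClosed_residue
  haveI : Infinite k := IsAlgClosed.instInfinite
  obtain ⟨c, hc⟩ := Infinite.exists_notMem_finset
    ((Finset.univ : Finset (S × Fin 2)).image fun x => bval (P.br x.1 x.2) R.xb)
  obtain ⟨a, ha, rfl, hQa⟩ := hQ c
  refine ⟨⟨⟨a, ha⟩, a.2, fun i h0 => ?_, fun s j h0 => hc ?_⟩, hQa⟩
  · refine R.x_transcendental i (show IsAlgebraic k (R.xb i) from ?_)
    rw [sub_eq_zero.1 h0]
    exact isAlgebraic_algebraMap _
  · refine Finset.mem_image.2 ⟨(s, j), Finset.mem_univ _, ?_⟩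
    have hm : R.xb (P.br s j).1 ∈ (P.br s j).2.toValuationSubring :=
      mem_of_ord_nonneg _ (P.regular s j)
    simp only [bval] at h0 ⊢
    rw [placeValue_sub _ hm ((P.br s j).2.algebraMap_mem' _), placeValue_algebraMap,
      sub_eq_zero] at h0
    exact h0

namespace Avoid

variable (a : Avoid (D := D) P) (hx : R.x ∈ D.F0)

/-- `x - a` as a fixed function. -/
def fn : D.F0 := ⟨R.x, hx⟩ - D.constHom a.a

/-- The reduction of `x - a`. -/
def red : ∀ i, Fb i := fun i => R.xb i - algebraMap k (Fb i) (R.π ⟨a.a, a.mem⟩)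

theorem lead (i : ι) : (D.redSystem.R i).Lead 0 (a.fn hx) (a.red i) := by
  refine UnifRed.Lead.sub (D.lead_zero_iff.2 ⟨R.x_mem i, rfl⟩) ?_
  exact D.lead_const (a := ⟨a.a, a.mem⟩) a.a.2 i

theorem fn_mem : ((a.fn hx : D.F0) : F) ∈ R.polarSp 1 := by
  show R.x - algebraMap K F (a.a : K) ∈ R.polarSp 1
  refine sub_mem R.x_mem_polarSp ?_
  rw [Algebra.algebraMap_eq_smul_one]
  exact Submodule.smul_mem _ _ (R.one_mem_polarSp 1)

theorem fn_ne_zero : a.fn hx ≠ 0 := by
  obtain ⟨i⟩ := R.nonempty
  exact (a.lead hx i).ne_zero (a.sub_ne_zero i)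

theorem fn_pow_mem (n : ℕ) : ((a.fn hx ^ n : D.F0) : F) ∈ R.polarSp n := by
  rw [SubmonoidClass.coe_pow]
  simpa using R.pow_mem_polarSp (a.fn_mem hx) n

include hx in
theorem red_mem : a.red ∈ R.polarFibre 1 :=
  R.spFibre_polar_le _ (red_mem_spFibre (D := D) (a.fn_mem hx) fun i => a.lead hx i)

include hx in
theorem red_pow_mem (n : ℕ) : a.red ^ n ∈ R.polarFibre n := by
  refine R.spFibre_polar_le _ (red_mem_spFibre (D := D) (a.fn_pow_mem hx n) fun i => ?_)
  simpa using (a.lead hx i).pow n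

include hx in
theorem glued_red_pow (n : ℕ) : Glued P (a.red ^ n) :=
  glued_of_mem_spFibre (red_mem_spFibre (D := D) (a.fn_pow_mem hx n) fun i => by
    simpa using (a.lead hx i).pow n)

include hx in
/-- At the poles of `x`, `x - a` has the same pole. -/
theorem ord_red {i : ι} {v : Place k (Fb i)} (hv : v.ord (R.xb i) < 0) :
    v.ord (a.red i) = v.ord (R.xb i) := by
  have hxb : R.xb i ≠ 0 := R.xb_ne_zero i
  have hle : v.ord (R.xb i) ≤ v.ord (a.red i) := by
    have h := (R.mem_polarFibre_iff_ord.1 (a.red_mem hx) i v).resolve_left (a.sub_ne_zero i)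
    push_cast at h
    omega
  by_contra hne
  have hgt : v.ord (R.xb i) < v.ord (a.red i) := lt_of_le_of_ne hle (Ne.symm hne)
  rcases eq_or_ne (algebraMap k (Fb i) (R.π ⟨a.a, a.mem⟩)) 0 with h0 | h0
  · rw [red, h0, sub_zero] at hgt; exact lt_irrefl _ hgt
  · have e : R.xb i = a.red i + algebraMap k (Fb i) (R.π ⟨a.a, a.mem⟩) := by
      rw [red, sub_add_cancel]
    have h1 : v.ord (R.xb i) + 1 ≤ v.ord (R.xb i) := by
      conv_rhs => rw [e]
      exact le_ord_add v _ (e ▸ hxb) (fun _ => by omega)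
        (fun _ => by rw [ord_algebraMap]; omega)
    omega

end Avoid

/-- Branches at nodes connect all components. -/
def Connected (P : NodePairs R S) : Prop :=
  ∀ c : ι → k, (∀ s, c (P.br s 0).1 = c (P.br s 1).1) → ∀ b b', c b = c b'

theorem eq_of_glued_const (hc : Connected P) {c : ι → k}
    (h : Glued P fun b => algebraMap k (Fb b) (c b)) (b b' : ι) : c b = c b' := by
  haveI := R.isAlgClosed_residue
  refine hc c (fun s => ?_) b b'
  have h1 := h s
  simp only [bval, placeValue_algebraMap] at h1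
  exact h1

section Pair

variable (hA : RankLeOne A) (E : RootData D p h f) (hspan : SpannedByFixed D p f) (N : ℕ)
  (hN : Large P E N) (a : Avoid (D := D) P) (hx : R.x ∈ D.F0) (hconn : Connected P)

/-- The target over the zeros of `x - a`. -/
def target' : D.redSystem.Target p h f :=
  (target hA E hspan N hN).mulUnit (a.fn hx ^ N)⁻¹ (fun i => (a.red i ^ N)⁻¹)
    (inv_ne_zero (pow_ne_zero _ (a.fn_ne_zero hx)))
    (fun i => inv_ne_zero (pow_ne_zero _ (a.sub_ne_zero i)))
    (fun i => by
      have h1 := (a.lead hx i).pow N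
      rw [Nat.zero_mul] at h1
      exact h1.inv (pow_ne_zero _ (a.sub_ne_zero i)))
    (by
      show ((((a.fn hx ^ N)⁻¹)⁻¹ ^ p : D.F0) : F) ∈ R.polarSp (p * N)
      rw [inv_inv, ← pow_mul, mul_comm N p]
      exact a.fn_pow_mem hx _)

theorem mem_target'_W {B : ∀ i, Fb i} :
    B ∈ (target' hA E hspan N hN a hx).W ↔
      a.red ^ (p * N) * B ∈ R.spFibre (R.polarSp (p * N)) := by
  have h0 : ∀ i, a.red i ^ N ≠ 0 := fun i => pow_ne_zero _ (a.sub_ne_zero i)
  rw [target', RedSystem.Target.mem_mulUnit_W]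
  constructor
  · rintro ⟨B₀, hB₀, rfl⟩
    have he : a.red ^ (p * N) * ((fun i => ((a.red i ^ N)⁻¹) ^ p) * B₀) = B₀ := funext fun i => by
      simp only [Pi.mul_apply, Pi.pow_apply, inv_pow, ← pow_mul, mul_comm N p]
      rw [← mul_assoc, mul_inv_cancel₀
        (pow_ne_zero _ (show a.red i ≠ 0 from a.sub_ne_zero i)), one_mul]
    rw [he]
    exact hB₀
  · intro hB
    refine ⟨_, hB, funext fun i => ?_⟩
    simp only [Pi.mul_apply, Pi.pow_apply, inv_pow, ← pow_mul, mul_comm N p]
    rw [← mul_assoc, inv_mul_cancel₀ (pow_ne_zero _ (show a.red i ≠ 0 from a.sub_ne_zero i)),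
      one_mul]

/-- Reductions of differences of roots. -/
def diffSpace : Submodule k (∀ i, Fb i) where
  carrier := {X | a.red ^ N * X ∈ R.polarFibre (2 * N) ∧ Glued P (a.red ^ N * X)}
  zero_mem' := by
    haveI := R.isAlgClosed_residue
    refine ⟨by rw [mul_zero]; exact zero_mem _, fun s => ?_⟩
    simp [bval, placeValue_zero]
  add_mem' := by
    rintro X Y ⟨hX, hX'⟩ ⟨hY, hY'⟩
    haveI := R.isAlgClosed_residue
    refine ⟨by rw [mul_add]; exact add_mem hX hY, fun s => ?_⟩
    rw [mul_add]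
    simp only [bval, Pi.add_apply]
    rw [placeValue_add _ (mem_node_of_polarFibre hX s 0) (mem_node_of_polarFibre hY s 0),
      placeValue_add _ (mem_node_of_polarFibre hX s 1) (mem_node_of_polarFibre hY s 1)]
    exact congrArg₂ (· + ·) (hX' s) (hY' s)
  smul_mem' := by
    rintro c X ⟨hX, hX'⟩
    haveI := R.isAlgClosed_residue
    refine ⟨by rw [mul_smul_comm]; exact Submodule.smul_mem _ _ hX, fun s => ?_⟩
    rw [mul_smul_comm]
    simp only [bval, Pi.smul_apply]
    rw [placeValue_smul _ _ (mem_node_of_polarFibre hX s 0),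
      placeValue_smul _ _ (mem_node_of_polarFibre hX s 1)]
    exact congrArg _ (hX' s)

include hN hx in
theorem exists_const_of_mem_both (hconn : Connected P) {B : ∀ i, Fb i}
    (hB : B ∈ (target hA E hspan N hN).W) (hB' : B ∈ (target' hA E hspan N hN a hx).W) :
    ∃ c : k, ∀ i, B i = algebraMap k (Fb i) c := by
  haveI := R.isAlgClosed_residue
  haveI : Nonempty ι := R.nonempty
  have h1 := R.spFibre_polar_le _ hB
  have h2 := R.spFibre_polar_le _ ((mem_target'_W hA E hspan N hN a hx).1 hB')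
  have hord : ∀ i, B i ≠ 0 → ∀ v : Place k (Fb i), 0 ≤ v.ord (B i) := by
    intro i hi v
    have e1 := (R.mem_polarFibre_iff_ord.1 h1 i v).resolve_left hi
    by_cases hv : v.ord (R.xb i) < 0
    · have e2 := (R.mem_polarFibre_iff_ord.1 h2 i v).resolve_left
        (mul_ne_zero (pow_ne_zero _ (a.sub_ne_zero i)) hi)
      rw [Pi.mul_apply, Pi.pow_apply,
        v.ord_mul (pow_ne_zero _ (show a.red i ≠ 0 from a.sub_ne_zero i)) hi,
        Curve.ord_pow v, a.ord_red hx hv, max_eq_left (by omega)] at e2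
      linarith
    · rw [max_eq_right (by omega), mul_zero, neg_zero] at e1
      exact e1
  choose c hc using fun i => exists_const_of_ord_nonneg (hord i)
  have hcB : (fun i => algebraMap k (Fb i) (c i)) = B := funext hc
  have hcc := eq_of_glued_const hconn (c := c) (hcB ▸ glued_of_mem_spFibre hB)
  exact ⟨c (Classical.arbitrary ι), fun i => by rw [← hc i, hcc i]⟩

/-- The two targets. -/
def targetPair : D.redSystem.TargetPair p h f where
  T := target hA E hspan N hN
  T' := target' hA E hspan N hN a hx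
  U2 := diffSpace N a
  cap := fun B hB hB' => exists_const_of_mem_both hA E hspan N hN a hx hconn hB hB'
  red_sup := by
    intro z hz B hB
    haveI := R.isAlgClosed_residue
    -- `(x - a) ^ N z` is a root in degree `2 N`
    have hy : ((a.fn hx ^ N * z : D.F0) : F) ∈ rootSp p ((2 * N) • R.poleX) (f : F) := by
      have hmul : ∀ η : F, η ∈ rootSp p (N • R.poleX) (f : F) →
          ((a.fn hx ^ N : D.F0) : F) * η ∈ rootSp p ((2 * N) • R.poleX) (f : F) := by
        intro η hη
        have := mul_mem_L (a.fn_pow_mem hx N) (hη : η ∈ riemannRochSpace _)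
        rw [rootSp, two_mul, add_nsmul, add_assoc]
        exact this
      obtain ⟨z₁, hz₁, z₂, hz₂, rfl⟩ := Submodule.mem_sup.1 hz
      obtain ⟨η, hη, rfl⟩ := RedSystem.Target.mem_mulUnit_M.1 hz₂
      rw [mul_add, Subfield.coe_add]
      refine add_mem ?_ ?_
      · rw [Subfield.coe_mul]; exact hmul _ hz₁
      · rw [← mul_assoc, mul_inv_cancel₀ (pow_ne_zero _ (a.fn_ne_zero hx)), one_mul]
        refine L_mono (Finsupp.le_def.2 fun v => ?_) hη
        have h0 := Finsupp.le_def.1 R.poleX_nonneg v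
        simp only [Finsupp.add_apply, Finsupp.smul_apply, nsmul_eq_mul, Finsupp.zero_apply] at h0 ⊢
        push_cast
        nlinarith [Int.natCast_nonneg N]
    have hlead : ∀ i, (D.redSystem.R i).Lead 0 ((a.fn hx ^ N * z) ^ p * f)
        ((a.red ^ N * B) i ^ p) := by
      intro i
      have h1 := (a.lead hx i).pow N
      rw [Nat.zero_mul] at h1
      have h2 := ((h1.mul (hB i)).pow p).mul (E.lead_f i)
      rw [Nat.zero_mul, add_zero, mul_one] at h2
      have hne : h i ≠ 0 := fun h0 => by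
        have := (E.lead_f i).ne_zero one_ne_zero
        rw [h0, zero_pow hp.out.ne_zero, div_zero] at this
        exact this rfl
      have e : (a.fn hx ^ N * (h i * z)) ^ p * (f / h i ^ p) = (a.fn hx ^ N * z) ^ p * f := by
        rw [show a.fn hx ^ N * (h i * z) = a.fn hx ^ N * z * h i by ring, mul_pow, mul_assoc,
          mul_div_cancel₀ _ (pow_ne_zero _ hne)]
      rw [e] at h2
      exact h2
    have hmem : (((a.fn hx ^ N * z) ^ p * f : D.F0) : F) ∈ R.polarSp (p * (2 * N)) := by
      rw [Subfield.coe_mul, SubmonoidClass.coe_pow, polarSp, mul_comm p (2 * N), mul_nsmul]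
      exact pow_mul_mem hp.out.pos hy
    have hY := red_mem_spFibre hmem hlead
    have hpol : a.red ^ N * B ∈ R.polarFibre (2 * N) :=
      mem_polarFibre_of_pow hp.out.pos (R.spFibre_polar_le _ hY)
    exact ⟨hpol, (Glued.pow_iff p hpol).1 (glued_of_mem_spFibre hY)⟩
  const_U2 := by
    intro c hc b b'
    haveI := R.isAlgClosed_residue
    refine hconn c (fun s => ?_) b b'
    have hg := hc.2 s
    have hw := a.red_pow_mem hx N
    have hgl := a.glued_red_pow hx N s
    simp only [bval, Pi.mul_apply, RedSystem.constTuple] at hg hgl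
    rw [placeValue_mul _ (mem_node_of_polarFibre hw s 0) ((P.br s 0).2.algebraMap_mem' _),
      placeValue_mul _ (mem_node_of_polarFibre hw s 1) ((P.br s 1).2.algebraMap_mem' _),
      placeValue_algebraMap, placeValue_algebraMap, ← hgl] at hg
    refine mul_left_cancel₀ ?_ hg
    rw [Pi.pow_apply, placeValue_pow]
    · exact pow_ne_zero _ (a.node s 0)
    · exact mem_node_of_polarFibre (a.red_mem hx) s 0

theorem pow_mem_of_glued {B : ∀ i, Fb i} {M : ℕ} (hN : Large P E N) (hB : B ∈ R.polarFibre M)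
    (hM : M ≤ N) (hg : Glued P B) : B ^ p ∈ R.spFibre (R.polarSp (p * N)) := by
  have hBN := R.polarFibre_mono hM hB
  exact (hN.2 (p * N) (Nat.le_mul_of_pos_left N hp.out.pos) _).2
    ⟨pow_mem_polarFibre hBN p, (Glued.pow_iff p hBN).2 hg⟩

include hN hx in
theorem lift {u0 : k} {B X : ∀ i, Fb i}
    (hB : B ∈ (targetPair hA E hspan N hN a hx hconn).T.W)
    (hX : X ∈ (targetPair hA E hspan N hN a hx hconn).U2)
    (h : B - u0 • X ∈ (targetPair hA E hspan N hN a hx hconn).T'.W) :
    B ∈ (targetPair hA E hspan N hN a hx hconn).T.U := by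
  haveI := R.isAlgClosed_residue
  have hBp := R.spFibre_polar_le _ hB
  have hB' := R.spFibre_polar_le _ ((mem_target'_W hA E hspan N hN a hx).1 h)
  refine pow_mem_of_glued E N hN ?_ le_rfl (glued_of_mem_spFibre hB)
  rw [R.mem_polarFibre_iff_ord]
  intro i v
  rcases eq_or_ne (B i) 0 with h0 | h0
  · exact Or.inl h0
  refine Or.inr ?_
  have e1 := (R.mem_polarFibre_iff_ord.1 hBp i v).resolve_left h0
  by_cases hv : v.ord (R.xb i) < 0
  · have hred : a.red i ≠ 0 := a.sub_ne_zero i
    rw [max_eq_left (by omega)]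
    have e2 : ((u0 • X) i ≠ 0 → -((N : ℤ) * -(v.ord (R.xb i))) ≤ v.ord ((u0 • X) i)) := by
      intro hX0
      have hu : u0 ≠ 0 := fun hu => hX0 (by simp [hu])
      have hXi : X i ≠ 0 := fun hx0 => hX0 (by simp [hx0])
      rw [Pi.smul_apply, ord_const_smul v hu]
      have := (R.mem_polarFibre_iff_ord.1 hX.1 i v).resolve_left
        (mul_ne_zero (pow_ne_zero _ hred) hXi)
      rw [Pi.mul_apply, Pi.pow_apply, v.ord_mul (pow_ne_zero _ hred) hXi, Curve.ord_pow v,
        a.ord_red hx hv, max_eq_left (by omega)] at this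
      push_cast at this
      linarith
    have e3 : ((B - u0 • X) i ≠ 0 → -((N : ℤ) * -(v.ord (R.xb i))) ≤ v.ord ((B - u0 • X) i)) := by
      intro hd
      have := (R.mem_polarFibre_iff_ord.1 hB' i v).resolve_left
        (mul_ne_zero (pow_ne_zero _ hred) hd)
      rw [Pi.mul_apply, Pi.pow_apply, v.ord_mul (pow_ne_zero _ hred) hd, Curve.ord_pow v,
        a.ord_red hx hv, max_eq_left (by omega)] at this
      push_cast at this
      nlinarith
    have e : B i = (B - u0 • X) i + (u0 • X) i := by simp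
    rw [e]
    exact le_ord_add v _ (e ▸ h0) e3 e2
  · rw [max_eq_right (by omega), mul_zero, neg_zero] at e1 ⊢
    exact e1

include hN hx in
theorem lift' {u0 : k} {B X : ∀ i, Fb i}
    (hB : B ∈ (targetPair hA E hspan N hN a hx hconn).T'.W)
    (hX : X ∈ (targetPair hA E hspan N hN a hx hconn).U2)
    (h : B - u0 • X ∈ (targetPair hA E hspan N hN a hx hconn).T.W) :
    B ∈ (targetPair hA E hspan N hN a hx hconn).T'.U := by
  haveI := R.isAlgClosed_residue
  have hred : ∀ i, a.red i ≠ 0 := a.sub_ne_zero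
  have hB1 := (mem_target'_W hA E hspan N hN a hx).1 hB
  have hB1p := R.spFibre_polar_le _ hB1
  have hd := R.spFibre_polar_le _ h
  show B ∈ (target' hA E hspan N hN a hx).U
  rw [target', RedSystem.Target.mem_mulUnit_U]
  refine ⟨a.red ^ N * B, ?_, funext fun i => ?_⟩
  swap
  · simp only [Pi.mul_apply, Pi.pow_apply]
    rw [← mul_assoc, inv_mul_cancel₀ (pow_ne_zero _ (hred i)), one_mul]
  -- regularity off the poles of `x`, and the bound at the poles
  have hY : a.red ^ N * B ∈ R.polarFibre N := by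
    rw [R.mem_polarFibre_iff_ord]
    intro i v
    rcases eq_or_ne (B i) 0 with h0 | h0
    · exact Or.inl (by simp [h0])
    refine Or.inr ?_
    have e1 := (R.mem_polarFibre_iff_ord.1 hB1p i v).resolve_left
      (mul_ne_zero (pow_ne_zero _ (hred i)) h0)
    rw [Pi.mul_apply, Pi.pow_apply, v.ord_mul (pow_ne_zero _ (hred i)) h0, Curve.ord_pow v]
      at e1
    rw [Pi.mul_apply, Pi.pow_apply, v.ord_mul (pow_ne_zero _ (hred i)) h0, Curve.ord_pow v]
    by_cases hv : v.ord (R.xb i) < 0
    · rw [a.ord_red hx hv, max_eq_left (by omega)] at e1 ⊢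
      push_cast at e1
      linarith
    · rw [max_eq_right (by omega), mul_zero, neg_zero]
      have hmax : max (-(v.ord (R.xb i))) 0 = 0 := max_eq_right (by omega)
      have hw : 0 ≤ v.ord (a.red i) := by
        have := (R.mem_polarFibre_iff_ord.1 (a.red_mem hx) i v).resolve_left (hred i)
        rwa [hmax, mul_zero, neg_zero] at this
      have e2 : ((a.red ^ N * (u0 • X)) i ≠ 0 → 0 ≤ v.ord ((a.red ^ N * (u0 • X)) i)) := by
        intro hne
        rw [mul_smul_comm, Pi.smul_apply] at hne ⊢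
        have hu : u0 ≠ 0 := fun hu => hne (by simp [hu])
        rw [ord_const_smul v hu]
        have := (R.mem_polarFibre_iff_ord.1 hX.1 i v).resolve_left
          (fun h' => hne (by rw [h', smul_zero]))
        rwa [hmax, mul_zero, neg_zero] at this
      have e3 : ((a.red ^ N * (B - u0 • X)) i ≠ 0 →
          0 ≤ v.ord ((a.red ^ N * (B - u0 • X)) i)) := by
        intro hne
        rw [Pi.mul_apply, Pi.pow_apply] at hne ⊢
        have hdi := right_ne_zero_of_mul hne
        have := (R.mem_polarFibre_iff_ord.1 hd i v).resolve_left hdi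
        rw [hmax, mul_zero, neg_zero] at this
        rw [v.ord_mul (pow_ne_zero _ (hred i)) hdi, Curve.ord_pow v]
        have := mul_nonneg (Int.natCast_nonneg N) hw
        omega
      have e : (a.red ^ N * B) i = (a.red ^ N * (B - u0 • X)) i + (a.red ^ N * (u0 • X)) i := by
        rw [← Pi.add_apply (a.red ^ N * (B - u0 • X)), ← mul_add, sub_add_cancel]
      have hne : (a.red ^ N * B) i ≠ 0 := mul_ne_zero (pow_ne_zero _ (hred i)) h0
      have := le_ord_add v _ (e ▸ hne) e3 e2
      rw [← e, Pi.mul_apply, Pi.pow_apply, v.ord_mul (pow_ne_zero _ (hred i)) h0,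
        Curve.ord_pow v] at this
      exact this
  refine pow_mem_of_glued E N hN hY le_rfl fun s => ?_
  -- the values at a node
  have hg := glued_of_mem_spFibre (P := P) hB1 s
  have hgw := a.glued_red_pow hx (p * N) s
  have hgn := a.glued_red_pow hx N s
  simp only [bval, Pi.mul_apply, Pi.pow_apply] at hg hgw hgn ⊢
  have hwm : ∀ j, a.red (P.br s j).1 ∈ (P.br s j).2.toValuationSubring :=
    mem_node_of_polarFibre (a.red_mem hx) s
  have hBm : ∀ j, B (P.br s j).1 ∈ (P.br s j).2.toValuationSubring := fun j => by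
    rcases eq_or_ne (B (P.br s j).1) 0 with h0 | h0
    · rw [h0]; exact zero_mem _
    refine mem_of_ord_nonneg _ ?_
    have h1 := ord_nonneg_of_mem (P.br s j).2 (mem_node_of_polarFibre (P := P) hB1p s j)
    have hn0 := (placeValue_ne_zero_iff _ (hwm j)).1 (a.node s j)
    rw [Pi.mul_apply, Pi.pow_apply, (P.br s j).2.ord_mul (pow_ne_zero _ hn0.1) h0,
      Curve.ord_pow (P.br s j).2, hn0.2, mul_zero, zero_add] at h1
    exact h1
  rw [placeValue_mul _ (pow_mem (hwm 0) _) (hBm 0), placeValue_mul _ (pow_mem (hwm 1) _) (hBm 1),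
    ← hgw] at hg
  have hne : placeValue (P.br s 0).2 (a.red (P.br s 0).1 ^ (p * N)) ≠ 0 := by
    rw [placeValue_pow _ (hwm 0)]
    exact pow_ne_zero _ (a.node s 0)
  rw [placeValue_mul _ (pow_mem (hwm 0) _) (hBm 0), placeValue_mul _ (pow_mem (hwm 1) _) (hBm 1),
    hgn, mul_left_cancel₀ hne hg]

end Pair

end Fermat.Agent.MazurPrinciple.Move

end
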