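/-
Mazur's principle at `p`: if the residues of `f` are `p`-th powers below the threshold, the twist
`σ f * f ^ c` is an exact `p`-th power in the function field.
-/
import Fermat.Agent.MP.SecondBridge

set_option autoImplicit false

noncomputable section

namespace Fermat.Agent.MazurPrinciple.Move

open AlgebraicCurve IntermediateField Fermat.Agent.Curve Fermat.Agent.Curve.RedAux
open Fermat.Agent.Bad Fermat.Agent.Bad.MultiReduction Fermat.Agent.Ribet.Slot

universe uK uι uk uFb uS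

variable {K : Type uK} [Field K] {A : ValuationSubring K}
  {F : Type uK} [Field F] [Algebra K F] {ι : Type uι} [Fintype ι]
  {k : Type uk} [Field k] {Fb : ι → Type uFb} [∀ i, Field (Fb i)] [∀ i, Algebra k (Fb i)]
  [IsAlgClosed K] [IsFunctionFieldOne K F] [∀ i, IsFunctionFieldOne k (Fb i)]
  {R : MultiReduction A F k Fb} {D : Descent R} {S : Type uS} [Fintype S] {P : NodePairs R S}
  {p : ℕ} [hp : Fact p.Prime] [CharP k p]

/-- An inertial automorphism of the fixed functions. -/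
structure InertialMap (D : Descent R) where
  σ : D.F0 →+* D.F0
  σK : D.K0 →+* D.K0
  map_const : ∀ a, σ (D.constHom a) = D.constHom (σK a)
  lead : ∀ (b : ι) (a : D.F0) (B : Fb b),
    (D.redSystem.R b).Lead 0 a B → (D.redSystem.R b).Lead 0 (σ a) B
  map_polar : ∀ (n : ℕ) (z : D.F0), (z : F) ∈ R.polarSp n → ((σ z : D.F0) : F) ∈ R.polarSp n
  map_x : ∀ hx : R.x ∈ D.F0, σ ⟨R.x, hx⟩ = ⟨R.x, hx⟩
  exists_lift_fixed : ∀ c : k, ∃ (a : A) (ha : (a : K) ∈ D.K0),
    R.π a = c ∧ σK ⟨a, ha⟩ = ⟨a, ha⟩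

variable (D) in
/-- The residues `B` of `κ ψ ^ p f - 1` at levels `p ∣ i` below the threshold which have no poles
modulo `p`-th powers are `p`-th powers. -/
def RootExact (p e : ℕ) (f : D.F0) : Prop :=
  ∀ i : ℕ, 0 < i → (p - 1) * i < p * e → p ∣ i → ∀ κ ∈ D.redSystem.Kc, ∀ ψ : D.F0, ψ ≠ 0 →
    ∀ B : ∀ b, Fb b, (∀ b, (D.redSystem.R b).Lead i (κ * ψ ^ p * f - 1) (B b)) →
      (∀ b (v : Place k (Fb b)), ∃ G : Fb b, B b - G ^ p = 0 ∨ 0 ≤ v.ord (B b - G ^ p)) →
        ∀ b, ∃ G : Fb b, B b = G ^ p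

section Exact

variable {h : ι → D.F0} {f : D.F0} {e : ℕ} (hA : RankLeOne A) (E : RootData D p h f)
  (hspan : SpannedByFixed D p f) (N : ℕ) (hN : Large P E N) (a : Avoid (D := D) P)
  (hx : R.x ∈ D.F0) (hconn : Connected P) (hex : RootExact D p e f)

include hN in
/-- The residues of the first target are regular off the poles of `x`. -/
theorem regular_W {B : ∀ i, Fb i} (hB : B ∈ (target hA E hspan N hN).W) {i : ι}
    {v : Place k (Fb i)} (hv : 0 ≤ v.ord (R.xb i)) : B i = 0 ∨ 0 ≤ v.ord (B i) := by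
  refine (R.mem_polarFibre_iff_ord.1 (R.spFibre_polar_le _ hB) i v).imp id fun h1 => ?_
  rwa [max_eq_right (by omega), mul_zero, neg_zero] at h1

include hN hx in
/-- The residues of the second target are regular at the poles of `x`. -/
theorem regular_W' {B : ∀ i, Fb i} (hB : B ∈ (target' hA E hspan N hN a hx).W) {i : ι}
    {v : Place k (Fb i)} (hv : v.ord (R.xb i) < 0) : B i = 0 ∨ 0 ≤ v.ord (B i) := by
  rcases eq_or_ne (B i) 0 with h0 | h0
  · exact Or.inl h0
  refine Or.inr ?_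
  have hred : a.red i ≠ 0 := a.sub_ne_zero i
  have e2 := (R.mem_polarFibre_iff_ord.1
    (R.spFibre_polar_le _ ((mem_target'_W hA E hspan N hN a hx).1 hB)) i v).resolve_left
    (mul_ne_zero (pow_ne_zero _ hred) h0)
  rw [Pi.mul_apply, Pi.pow_apply, v.ord_mul (pow_ne_zero _ hred) h0, Curve.ord_pow v,
    a.ord_red hx hv, max_eq_left (by omega)] at e2
  linarith

include hN hx hconn hex in
theorem exactResidues_of_rootExact : haveI := R.nonempty
    RedSystem.ExactResidues (targetPair hA E hspan N hN a hx hconn).T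
        (targetPair hA E hspan N hN a hx hconn).T' e ∧
      RedSystem.ExactResidues (targetPair hA E hspan N hN a hx hconn).T'
        (targetPair hA E hspan N hN a hx hconn).T e := by
  haveI := R.nonempty
  obtain ⟨b₀⟩ := R.nonempty
  constructor <;> intro i hi hth hdvd κ ψ ha B hB ⟨B', hB', hG⟩
  all_goals
    refine hex i hi hth hdvd κ ha.κ_mem ψ
      (right_ne_zero_of_mul ((ha.norm b₀).ne_zero one_ne_zero)) B hB fun b v => ?_
    obtain ⟨G, hG⟩ := hG b
    have hBW := ha.lead_mem_W hB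
  · by_cases hv : 0 ≤ v.ord (R.xb b)
    · exact ⟨0, by simpa [zero_pow hp.out.ne_zero] using regular_W hA E hspan N hN hBW hv⟩
    · exact ⟨G, by
        simpa [hG] using regular_W' hA E hspan N hN a hx hB' (lt_of_not_ge hv)⟩
  · by_cases hv : 0 ≤ v.ord (R.xb b)
    · exact ⟨G, by simpa [hG] using regular_W hA E hspan N hN hB' hv⟩
    · exact ⟨0, by
        simpa [zero_pow hp.out.ne_zero] using
          regular_W' hA E hspan N hN a hx hBW (lt_of_not_ge hv)⟩

end Exact

/-- The presentation of the twist. -/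
def RootData.twist {h : ι → D.F0} {f : D.F0} (E : RootData D p h f) (s : InertialMap D) (c : ℕ) :
    RootData D p (fun b => s.σ (h b) * h b ^ c) (s.σ f * f ^ c) where
  d i := (s.σK ⟨E.d i, E.d_mem i⟩ * ⟨E.d i, E.d_mem i⟩ ^ c : D.K0)
  d_mem i := SetLike.coe_mem _
  d_ne_zero i := by
    have h0 : (⟨E.d i, E.d_mem i⟩ : D.K0) ≠ 0 := fun h => E.d_ne_zero i (congrArg Subtype.val h)
    have h1 : (s.σK ⟨E.d i, E.d_mem i⟩ * ⟨E.d i, E.d_mem i⟩ ^ c : D.K0) ≠ 0 :=
      mul_ne_zero ((map_ne_zero s.σK).2 h0) (pow_ne_zero _ h0)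
    exact fun h => h1 (Subtype.ext h)
  L i := s.σ (E.L i) * E.L i ^ c
  G i := E.G i * E.G i ^ c
  G_ne_zero i := mul_ne_zero (E.G_ne_zero i) (pow_ne_zero _ (E.G_ne_zero i))
  lead_L i := by
    have h1 := (E.lead_L i).pow c
    rw [Nat.zero_mul] at h1
    simpa using (s.lead i _ _ (E.lead_L i)).mul h1
  h_eq i := by
    rw [E.h_eq i, map_mul, s.map_const, mul_pow, Subtype.coe_eta, map_mul, map_pow]
    ring
  lead_f i := by
    have h0 := (s.lead i _ _ (E.lead_f i)).mul ((E.lead_f i).pow c)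
    rw [one_pow, mul_one, Nat.zero_mul, add_zero] at h0
    convert h0 using 1
    rw [map_div₀, map_pow, div_pow, mul_pow, ← pow_mul, ← pow_mul, mul_comm c p, div_mul_div_comm]

variable (D) in
/-- The fixed constants inside all constants. -/
def kcHom : D.redSystem.Kc →+* K where
  toFun a := (a.2.choose : D.K0)
  map_one' := by
    refine congrArg Subtype.val (D.constHom.injective (a₂ := 1) ?_)
    exact (1 : D.redSystem.Kc).2.choose_spec.trans (map_one _).symm
  map_mul' a b := by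
    refine congrArg Subtype.val (D.constHom.injective (a₂ := a.2.choose * b.2.choose) ?_)
    rw [map_mul]
    exact (a * b).2.choose_spec.trans
      (congrArg₂ (· * ·) a.2.choose_spec b.2.choose_spec).symm
  map_zero' := by
    refine congrArg Subtype.val (D.constHom.injective (a₂ := 0) ?_)
    exact (0 : D.redSystem.Kc).2.choose_spec.trans (map_zero _).symm
  map_add' a b := by
    refine congrArg Subtype.val (D.constHom.injective (a₂ := a.2.choose + b.2.choose) ?_)
    rw [map_add]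
    exact (a + b).2.choose_spec.trans
      (congrArg₂ (· + ·) a.2.choose_spec b.2.choose_spec).symm

theorem algebraMap_kcHom (a : D.redSystem.Kc) :
    algebraMap K F (kcHom D a) = ((a : D.F0) : F) :=
  congrArg Subtype.val a.2.choose_spec

/-- The twist `σ f * f ^ c` is a `p`-th power. -/
theorem exists_pow_eq_twist_of_descent (hp2 : Odd p) (hA : RankLeOne A) (hx : R.x ∈ D.F0)
    (P : NodePairs R S) (hconn : Connected P) {e : ℕ} {u0 : k} (hu0 : u0 ≠ 0)
    (hpe : ∀ b, (D.redSystem.R b).Lead e (p : D.F0) (algebraMap k (Fb b) u0))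
    {i₀ : ℕ} (hi₀ : 0 < i₀) (hth : (p - 1) * i₀ = p * e)
    {h : ι → D.F0} {f : D.F0} (E : RootData D p h f)
    (hdvd : ∀ v : Place K F, (p : ℤ) ∣ v.ord (f : F))
    (s : InertialMap D) {w : k}
    (hπ : ∀ b, (D.redSystem.R b).Lead 1 (s.σ D.πF) (algebraMap k (Fb b) w))
    {c : ℕ} (hc : w ^ i₀ + (c : k) = 0)
    (hdvd₂ : ∀ v : Place K F, (p : ℤ) ∣ v.ord ((s.σ f : D.F0) : F))
    (hspan : SpannedByFixed D p f) (hspan₂ : SpannedByFixed D p (s.σ f * f ^ c))
    (hexact : RootExact D p e f) :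
    ∃ G : F, G ^ p = ((s.σ f * f ^ c : D.F0) : F) := by
  haveI : Nonempty ι := R.nonempty
  haveI := R.isAlgClosed_residue
  obtain ⟨a, ha⟩ := exists_avoid (D := D) P (fun a => s.σK a = a) s.exists_lift_fixed
  set E₂ := E.twist s c with hE₂
  have hdvd₂' : ∀ v : Place K F, (p : ℤ) ∣ v.ord ((s.σ f * f ^ c : D.F0) : F) := fun v => by
    have hf := E.f_ne_zero
    have hσ : ((s.σ f : D.F0) : F) ≠ 0 := fun h0 =>
      hf (congrArg Subtype.val ((map_eq_zero s.σ).1 (Subtype.ext h0 : s.σ f = 0)))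
    rw [Subfield.coe_mul, SubmonoidClass.coe_pow, v.ord_mul hσ (pow_ne_zero _ hf),
      Curve.ord_pow v]
    exact dvd_add (hdvd₂ v) (dvd_mul_of_dvd_right (hdvd v) _)
  obtain ⟨N₁, hN₁⟩ := exists_large (P := P) hA E hdvd
  obtain ⟨N₂, hN₂⟩ := exists_large (P := P) hA E₂ hdvd₂'
  set N := max N₁ N₂ with hN
  have hL := hN₁ N (le_max_left _ _)
  set N' := (1 + c) * N with hN'
  have hL₂ := hN₂ N' ((le_max_right N₁ N₂).trans (Nat.le_mul_of_pos_left _ (by omega)))
  let T := targetPair hA E hspan N hL a hx hconn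
  let T₂ := targetPair hA E₂ hspan₂ N' hL₂ a hx hconn
  have hfn : s.σ (a.fn hx) = a.fn hx := by
    rw [Avoid.fn, map_sub, s.map_x hx, s.map_const, ha]
  have hmem : ∀ η : D.F0, (η : F) ∈ rootSp p (N • R.poleX) (f : F) →
      ((s.σ η * η ^ c : D.F0) : F)
        ∈ rootSp p (N' • R.poleX) ((s.σ f * f ^ c : D.F0) : F) := by
    intro η hη
    rcases eq_or_ne (s.σ η * η ^ c) 0 with h0 | h0
    · rw [h0]; exact zero_mem _
    have hne : ((s.σ η * η ^ c : D.F0) : F) ≠ 0 := fun h => h0 (Subtype.ext h)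
    rw [mem_rootSp_iff hp.out.pos hne E₂.f_ne_zero]
    have h1 : (((η ^ p * f) : D.F0) : F) ∈ R.polarSp (p * N) := by
      rw [Subfield.coe_mul, SubmonoidClass.coe_pow, polarSp, mul_comm p N, mul_nsmul]
      exact pow_mul_mem hp.out.pos hη
    have h2 := R.mul_mem_polarSp (s.map_polar _ _ h1) (R.pow_mem_polarSp h1 c)
    rw [show p * N + c * (p * N) = N' * p by rw [hN']; ring, polarSp, mul_nsmul] at h2
    convert h2 using 1
    simp only [map_mul, map_pow, Subfield.coe_mul, SubmonoidClass.coe_pow]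
    ring
  have hM : ∀ η ∈ T.T.M, s.σ η * η ^ c ∈ T₂.T.M := fun η hη => hmem η hη
  have hM' : ∀ η ∈ T.T'.M, s.σ η * η ^ c ∈ T₂.T'.M := by
    intro η hη
    obtain ⟨η₀, hη₀, he⟩ : ∃ η₀ ∈ T.T.M, (a.fn hx ^ N)⁻¹ * η₀ = η := hη
    subst he
    refine ⟨s.σ η₀ * η₀ ^ c, hmem η₀ hη₀, ?_⟩
    show (a.fn hx ^ N')⁻¹ * (s.σ η₀ * η₀ ^ c) = _
    rw [map_mul, map_inv₀, map_pow, hfn, hN', mul_pow, inv_pow, ← pow_mul,
      show (1 + c) * N = N + N * c by ring, pow_add, mul_inv]
    ring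
  haveI : FiniteDimensional K (rootSp p (N' • R.poleX) ((s.σ f * f ^ c : D.F0) : F)) := finite_L _
  obtain ⟨hfd, hbM⟩ := isBounded_fixedSub D hA E₂.d_ne_zero E₂.d_mem
    (rootSp p (N' • R.poleX) ((s.σ f * f ^ c : D.F0) : F)) (hspan₂ N') E₂.L E₂.G E₂.lead_L
    E₂.G_ne_zero
  haveI : FiniteDimensional D.redSystem.Kc T₂.T.M := hfd
  rw [← funext E₂.h_eq] at hbM
  letI : Algebra D.redSystem.Kc K := (kcHom D).toAlgebra
  obtain ⟨G, hG⟩ := RedSystem.exists_pow_eq_twist (S := D.redSystem) hp.out hp2 hu0 hpe E.lead_f T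
    (exactResidues_of_rootExact hA E hspan N hL a hx hconn hexact).1
    (exactResidues_of_rootExact hA E hspan N hL a hx hconn hexact).2
    hi₀ hth s.σ hπ s.lead
    (by rintro _ ⟨b, rfl⟩; exact ⟨_, (s.map_const b).symm⟩) hc T₂ hM hM'
    (fun B hB X hX hd => lift hA E₂ hspan₂ N' hL₂ a hx hconn hB hX hd)
    (fun B hB X hX hd => lift' hA E₂ hspan₂ N' hL₂ a hx hconn hB hX hd)
    hbM (fun V hV => isBounded_of_finiteDimensional D hA V)
    (Ω := K) (FΩ := F) D.F0.subtype (fun b => (algebraMap_kcHom b).symm)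
  exact ⟨G, hG⟩

end Fermat.Agent.MazurPrinciple.Move

end
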