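/-
Mazur's principle at `p`, abstract part: the component step.

If `σ` moves integral elements by at least `π ^ (j + 1)` with `p j < e + j`, the residue of
`σ f / f` at level `p j` is constant on each component and records, at every point `s` with a
local `p`-th root `ψ s`, the jumps of the valuations of `ψ s`.
-/
import Fermat.Agent.MP.SecondSigma

set_option autoImplicit false

noncomputable section

namespace Fermat.Agent.MazurPrinciple

universe u v w x y

variable {F : Type u} [Field F] {π : F} {k : Type w} [Field k] {ι : Type x}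
  {Fb : ι → Type v} [∀ b, Field (Fb b)] [∀ b, Algebra k (Fb b)]

namespace RedSystem

variable (S : RedSystem F π k Fb)

/-- A local `p`-th root datum of `f` at a point of the special fibre. -/
structure LocalRoot (σ : F →+* F) (p : ℕ) (f : F) where
  /-- a space of functions stable under `σ` near the point -/
  L : Submodule S.Kc F
  /-- reductions of integral elements of `L` -/
  W : Submodule k (∀ b, Fb b)
  red_L : ∀ z ∈ L, ∀ B : ∀ b, Fb b, (∀ b, (S.R b).Lead 0 z (B b)) → B ∈ W
  /-- the local root -/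
  ψ : F
  /-- a function fixed by `σ` -/
  G : F
  map_G : σ G = G
  /-- the valuations of `ψ` -/
  n : ι → ℤ
  ψ_val : ∀ b, ∃ B : Fb b, B ≠ 0 ∧ (S.R b).Lead 0 (ψ * π ^ (-(n b))) B
  /-- the reduction of the local unit `ψ ^ p f G` -/
  ub : ∀ b, Fb b
  ub_ne_zero : ∀ b, ub b ≠ 0
  lead_u : ∀ b, (S.R b).Lead 0 (ψ ^ p * f * G) (ub b)
  mem_L : ψ ^ p * f * G ∈ L
  map_mem_L : σ (ψ ^ p * f * G) ∈ L

variable {S} {σ : F →+* F} {p : ℕ} {f : F}

/-- `B` is regular at the point of the datum `D`. -/
def LocalRoot.Reg (D : S.LocalRoot σ p f) (B : ∀ b, Fb b) : Prop :=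
  (fun b => B b * D.ub b) ∈ D.W

variable [Nonempty ι] {Pts : Type y} [Nonempty Pts] (D : Pts → S.LocalRoot σ p f)

/-- The component step. -/
theorem exists_component_const {e j : ℕ} {u0 c0 : k} (hp : p.Prime)
    (hpe : ∀ b, (S.R b).Lead e (p : F) (algebraMap k (Fb b) u0))
    (hj : 0 < j) (hje : p * j < e + j)
    (hπ : ∀ b, (S.R b).Lead j (σ π / π - 1) (algebraMap k (Fb b) c0))
    (hexp : ∀ b a, (S.R b).Div 0 a → (S.R b).Div (j + 1) (σ a - a))
    (hfval : ∀ b, ∃ (n : ℤ) (B : Fb b), B ≠ 0 ∧ (S.R b).Lead 0 (f * π ^ (-n)) B)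
    (hconst : ∀ B : ∀ b, Fb b, (∀ s, (D s).Reg B) → ∃ c : k, ∀ b, B b = algebraMap k (Fb b) c)
    (hconst' : ∀ B : ∀ b, Fb b, (∀ s, ∃ d : ι → k, (D s).Reg (B + constTuple d)) →
      ∃ C : ι → k, ∀ b, B b = algebraMap k (Fb b) (C b)) :
    ∃ κ ∈ S.Kc, ∃ C : ι → k, (∀ b, (S.R b).Lead 0 κ 1) ∧
      (∀ b, (S.R b).Lead (p * j) (σ f / f / κ - 1) (algebraMap k (Fb b) (C b))) ∧
      ∀ s, (D s).Reg (constTuple fun b => C b + (((D s).n b : k) * c0) ^ p) := by
  set m := p * j with hm
  have hjm : j ≤ m := Nat.le_mul_of_pos_left j hp.pos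
  -- the effect of a local root
  have hroot : ∀ (s : Pts) (i : ℕ) (κ : F) (B : ∀ b, Fb b), 0 < i → i ≤ m → κ ∈ S.Kc →
      (∀ b, (S.R b).Lead i (σ f / f / κ - 1) (B b)) →
      (D s).Reg fun b => B b + if i = m then
        algebraMap k (Fb b) ((((D s).n b : k) * c0) ^ p) else 0 := by
    intro s i κ B hi him hκ hB
    set u := (D s).ψ ^ p * f * (D s).G with hu
    have hune : ∀ b : ι, u ≠ 0 := fun b => ((D s).lead_u b).ne_zero ((D s).ub_ne_zero b)
    have hmix : ∀ b, (S.R b).Lead i ((σ u / κ - u)) ((B b + if i = m then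
        algebraMap k (Fb b) ((((D s).n b : k) * c0) ^ p) else 0) * (D s).ub b) := by
      intro b
      obtain ⟨Bψ, hBψ, hψ⟩ := (D s).ψ_val b
      have hz := UnifRed.lead_map_div_sub_one σ hj (hπ b) (hexp b) hψ hBψ
      have h1 : (S.R b).Lead i ((σ (D s).ψ / (D s).ψ) ^ p - 1) (if i = m then
          algebraMap k (Fb b) ((((D s).n b : k) * c0) ^ p) else 0) := by
        have := UnifRed.lead_pow_sub_one hp (hpe b) hj hz i him (by omega)
        rw [if_neg (show i ≠ e + j by omega), add_zero, ← hm, add_sub_cancel] at this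
        convert this using 2
        simp [map_pow, map_mul, map_intCast]
      have h2 := (h1.sub_one_mul hi (hB b)).mul ((D s).lead_u b)
      rw [add_zero, add_comm _ (B b)] at h2
      convert h2 using 1
      have h0 := hune b
      rw [hu] at h0
      simp only [mul_ne_zero_iff] at h0
      obtain ⟨⟨hψ0, hf0⟩, hG0⟩ := h0
      have hκσ : σ u = σ (D s).ψ ^ p * σ f * (D s).G := by
        rw [hu, map_mul, map_mul, map_pow, (D s).map_G]
      rw [hκσ, hu, div_pow]
      field_simp
    refine (D s).red_L ((σ u / κ - u) / π ^ i) ?_ _ fun b => ?_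
    · rw [div_eq_inv_mul _ (π ^ i), div_eq_inv_mul _ κ]
      exact (D s).L.smul_mem (⟨_, inv_mem (pow_mem S.π_mem_Kc i)⟩ : S.Kc)
        (sub_mem ((D s).L.smul_mem (⟨_, inv_mem hκ⟩ : S.Kc) (D s).map_mem_L) (D s).mem_L)
    · obtain ⟨c, hc, hcB⟩ := hmix b
      refine ⟨c, ?_, hcB⟩
      rw [hc, pow_zero, one_mul, mul_div_cancel_left₀ _ (pow_ne_zero i S.π_ne_zero)]
  -- the induction
  have hind : ∀ i, i ≤ m → ∃ κ ∈ S.Kc, (∀ b, (S.R b).Lead 0 κ 1) ∧
      ∀ b, (S.R b).Div i (σ f / f / κ - 1) := by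
    intro i
    induction i with
    | zero =>
      intro _
      refine ⟨1, one_mem _, fun b => UnifRed.lead_one, fun b => ?_⟩
      obtain ⟨n, B, hB, hn⟩ := hfval b
      simpa using (UnifRed.lead_map_div_sub_one σ hj (hπ b) (hexp b) hn hB).div.mono
        (Nat.zero_le _)
    | succ i ih =>
      intro hi
      obtain ⟨κ, hκ, hκ1, hd⟩ := ih (by omega)
      rcases Nat.eq_zero_or_pos i with rfl | hi0
      · refine ⟨1, one_mem _, fun b => UnifRed.lead_one, fun b => ?_⟩
        obtain ⟨n, B, hB, hn⟩ := hfval b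
        simpa using (UnifRed.lead_map_div_sub_one σ hj (hπ b) (hexp b) hn hB).div.mono hj
      · choose B hB using fun b => (hd b).exists_lead
        have hreg : ∀ s, (D s).Reg B := by
          intro s
          simpa [if_neg (show i ≠ m by omega)] using hroot s i κ B hi0 (by omega) hκ hB
        obtain ⟨c, hc⟩ := hconst B hreg
        obtain ⟨a, ha, haL⟩ := S.exists_const_lead i c
        have h1a : ∀ b, (S.R b).Lead i ((1 + a) - 1) (algebraMap k (Fb b) c) := by
          intro b; simpa using haL b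
        refine ⟨κ * (1 + a), mul_mem hκ (add_mem (one_mem _) ha), fun b => ?_, fun b => ?_⟩
        · simpa using (hκ1 b).mul (UnifRed.lead_one.add ((haL b).div.lead_zero hi0))
        · rw [← UnifRed.lead_zero_iff]
          have h3 := (hB b).sub_one_mul hi0 ((h1a b).sub_one_inv hi0)
          rw [hc b, add_neg_cancel] at h3
          rwa [← div_div, div_eq_mul_inv (σ f / f / κ)]
  obtain ⟨κ, hκ, hκ1, hd⟩ := hind m le_rfl
  choose B hB using fun b => (hd b).exists_lead
  have hmpos : 0 < m := lt_of_lt_of_le hj hjm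
  have hreg : ∀ s, (D s).Reg fun b =>
      B b + algebraMap k (Fb b) ((((D s).n b : k) * c0) ^ p) := by
    intro s
    simpa using hroot s m κ B hmpos le_rfl hκ hB
  obtain ⟨C, hC⟩ := hconst' B fun s => ⟨_, hreg s⟩
  refine ⟨κ, hκ, C, hκ1, fun b => hC b ▸ hB b, fun s => ?_⟩
  have := hreg s
  unfold constTuple
  simpa [map_add, ← hC] using this

/-- If at the points in `node` a constant tuple is regular only when it is diagonal, the jumps
`n b - n b'` of the local roots at these points agree modulo `p`. -/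
theorem jump_eq_of_node [CharP k p] {c0 : k} (hp : p.Prime) (hc0 : c0 ≠ 0) {C : ι → k}
    (hC : ∀ s, (D s).Reg (constTuple fun b => C b + (((D s).n b : k) * c0) ^ p))
    (node : Pts → Prop)
    (hdiag : ∀ s, node s → ∀ d : ι → k, (D s).Reg (constTuple d) → ∀ b b', d b = d b')
    {s t : Pts} (hs : node s) (ht : node t) (b b' : ι) :
    (((D s).n b - (D s).n b' : ℤ) : k) = (((D t).n b - (D t).n b' : ℤ) : k) := by
  haveI := Fact.mk hp
  have h1 := hdiag s hs _ (hC s) b b'
  have h2 := hdiag t ht _ (hC t) b b'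
  have h3 : ((((D s).n b - (D s).n b' : ℤ) : k) * c0) ^ p
      = ((((D t).n b - (D t).n b' : ℤ) : k) * c0) ^ p := by
    push_cast
    rw [sub_mul, sub_mul, sub_pow_char, sub_pow_char]
    linear_combination h1 - h2
  exact mul_right_cancel₀ hc0 (frobenius_inj k p h3)

end RedSystem

end Fermat.Agent.MazurPrinciple

end
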