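/-
Mazur's principle at `p`: integrality of scalings.

Scaled reductions for two scalings differing by a fractional power of the uniformiser split
componentwise.  Hence the valuations `n` of a fixed function on the two sides of a node where `p`
divides both orders agree modulo `p`, and `p ∣ n b` when a leading coefficient at a smooth branch
of the component `b` is a `p`-th power.
-/
import Fermat.Agent.MP.SecondGlue
import Fermat.Agent.MP.SecondDescentBasis

set_option autoImplicit false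

noncomputable section

namespace Fermat.Agent.MazurPrinciple.Move

open AlgebraicCurve IntermediateField Fermat.Agent.Curve Fermat.Agent.Curve.RedAux
open Fermat.Agent.Bad Fermat.Agent.Bad.MultiReduction Fermat.Agent.Ribet.Slot

universe uK uF uι uk uFb uS

variable {K : Type uK} [Field K] {A : ValuationSubring K}
  {F : Type uF} [Field F] [Algebra K F] {ι : Type uι} [Fintype ι]
  {k : Type uk} [Field k] {Fb : ι → Type uFb} [∀ i, Field (Fb i)] [∀ i, Algebra k (Fb i)]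
  {R : MultiReduction A F k Fb}

namespace Descent

variable (D : Descent R)

theorem valuation_ϖ_lt_one : A.valuation D.ϖ < 1 := (A.mem_nonunits_iff).1 D.ϖ_nonunit

theorem valuation_ϖ_pos : 0 < A.valuation D.ϖ :=
  zero_lt_iff.2 (by simpa using D.ϖ_ne_zero)

theorem zpow_eq_of_valuation_eq {i j : ℤ}
    (h : A.valuation (D.ϖ ^ i) = A.valuation (D.ϖ ^ j)) : i = j := by
  rw [map_zpow₀, map_zpow₀] at h
  exact zpow_right_injective₀ D.valuation_ϖ_pos D.valuation_ϖ_lt_one.ne h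

/-- Fixed constants are powers of the uniformiser up to units. -/
theorem exists_zpow (hA : RankLeOne A) {a : K} (ha : a ∈ D.K0) (ha0 : a ≠ 0) :
    ∃ l : ℤ, A.valuation a = A.valuation (D.ϖ ^ l) := by
  obtain ⟨M, hM⟩ := D.exists_pow_mul_mem a ha
  set b := D.ϖ ^ M * a with hb
  have hb0 : b ≠ 0 := mul_ne_zero (pow_ne_zero _ D.ϖ_ne_zero) ha0
  -- the powers of the uniformiser dividing `b` are bounded
  obtain ⟨n, e, he⟩ := hA ⟨D.ϖ, D.ϖ_mem_A⟩ ⟨b, hM⟩
    (by rw [← ValuationSubring.coe_mem_nonunits_iff]; exact D.ϖ_nonunit)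
    (fun h => hb0 (congrArg Subtype.val h))
  have he' := congrArg Subtype.val he
  push_cast at he'
  let Q : ℕ → Prop := fun i => b / D.ϖ ^ i ∈ A
  have hQn : ¬ Q (n + 1) := by
    intro h
    have h1 : D.ϖ⁻¹ ∈ A := by
      have h2 := A.mul_mem _ _ h e.2
      rwa [div_mul_eq_mul_div, ← he', pow_succ, ← div_div, div_self (pow_ne_zero _ D.ϖ_ne_zero),
        one_div] at h2
    have h2 := (A.valuation_le_one_iff _).2 h1
    rw [map_inv₀] at h2
    exact (one_lt_inv₀ D.valuation_ϖ_pos |>.2 D.valuation_ϖ_lt_one).not_ge h2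
  obtain ⟨i, hi, hi'⟩ : ∃ i, Q i ∧ ¬ Q (i + 1) := by
    by_contra h
    push Not at h
    exact hQn (Nat.rec (motive := Q) (by simpa [Q] using hM) h (n + 1))
  have hunit : A.valuation (b / D.ϖ ^ i) = 1 := by
    refine le_antisymm ((A.valuation_le_one_iff _).2 hi) (le_of_not_gt fun hlt => hi' ?_)
    have := D.div_ϖ _ (div_mem (mul_mem (pow_mem D.ϖ_mem _) ha) (pow_mem D.ϖ_mem _))
      ((A.mem_nonunits_iff).2 hlt)
    rwa [div_div, ← pow_succ] at this
  refine ⟨(i : ℤ) - M, ?_⟩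
  have e1 : a = b / D.ϖ ^ i * D.ϖ ^ ((i : ℤ) - M) := by
    rw [zpow_sub₀ D.ϖ_ne_zero, zpow_natCast, zpow_natCast, hb]
    field_simp [D.ϖ_ne_zero]
  conv_lhs => rw [e1]
  rw [map_mul, hunit, one_mul]

end Descent

variable (D : Descent R)

/-- `n` are the valuations of `f` on the components, `φ` its scaled reductions. -/
structure HasVal (f : F) (n : ι → ℤ) (φ : ∀ i, Fb i) : Prop where
  slot : IsSlot R (fun i => (D.ϖ ^ n i)⁻¹) f φ
  ne_zero : ∀ i, φ i ≠ 0

theorem exists_hasVal (hA : RankLeOne A) {f : F} (hf : f ∈ D.F0) (hf0 : f ≠ 0) :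
    ∃ n φ, HasVal D f n φ := by
  have key : ∀ i, ∃ (n : ℤ) (φ : Fb i), φ ≠ 0 ∧
      ∃ h : (D.ϖ ^ n)⁻¹ • f ∈ R.V i, R.φ i ⟨_, h⟩ = φ := by
    intro i
    obtain ⟨c, hc, hcV, hcφ⟩ := D.exists_scale i f hf hf0
    have hc0 : c ≠ 0 := by
      rintro rfl
      refine hcφ ?_
      rw [← map_zero (R.φ i)]
      exact congrArg _ (Subtype.ext (zero_smul K f))
    obtain ⟨l, hl⟩ := D.exists_zpow hA hc hc0
    have hu : A.valuation ((D.ϖ ^ l) / c) = 1 := by
      rw [map_div₀, hl, div_self ((map_ne_zero A.valuation).2 (zpow_ne_zero _ D.ϖ_ne_zero))]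
    have huA : (D.ϖ ^ l) / c ∈ A := (A.valuation_le_one_iff _).1 hu.le
    have he : (D.ϖ ^ (-l))⁻¹ • f = algebraMap K F ((D.ϖ ^ l) / c) * (c • f) := by
      rw [← Algebra.smul_def, smul_smul, div_mul_cancel₀ _ hc0, zpow_neg, inv_inv]
    have hV : (D.ϖ ^ (-l))⁻¹ • f ∈ R.V i := by
      rw [he]; exact mul_mem ((R.mem_V_iff i _).2 huA) hcV
    refine ⟨-l, R.φ i ⟨_, hV⟩, ?_, hV, rfl⟩
    rw [show (⟨_, hV⟩ : R.V i) = ⟨algebraMap K F ((D.ϖ ^ l) / c), (R.mem_V_iff i _).2 huA⟩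
      * ⟨c • f, hcV⟩ from Subtype.ext he, map_mul]
    refine mul_ne_zero ?_ hcφ
    rw [R.φ_algebraMap i ⟨_, huA⟩]
    refine (map_ne_zero _).2 fun h0 => ?_
    rw [R.π_eq_zero_iff_mem, ← ValuationSubring.coe_mem_nonunits_iff, A.mem_nonunits_iff] at h0
    exact h0.ne hu
  choose n φ hφ hs using key
  exact ⟨n, φ, hs, hφ⟩

variable {D} in
theorem HasVal.mul {f g : F} {n m : ι → ℤ} {φ ψ : ∀ i, Fb i} (h : HasVal D f n φ)
    (h' : HasVal D g m ψ) : HasVal D (f * g) (n + m) (φ * ψ) := by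
  refine ⟨?_, fun i => mul_ne_zero (h.ne_zero i) (h'.ne_zero i)⟩
  convert h.slot.mul h'.slot using 1
  funext i
  simp [zpow_add₀ D.ϖ_ne_zero, mul_comm]

variable {D} in
theorem HasVal.pow {f : F} {n : ι → ℤ} {φ : ∀ i, Fb i} (h : HasVal D f n φ) (a : ℕ) :
    HasVal D (f ^ a) (fun i => a * n i) (φ ^ a) := by
  refine ⟨?_, fun i => pow_ne_zero _ (h.ne_zero i)⟩
  convert h.slot.pow a using 1
  funext i
  simp only [Pi.pow_apply, inv_pow, ← zpow_natCast (D.ϖ ^ n i), ← zpow_mul]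
  rw [mul_comm]

theorem slotFibre_const_mul {d : ι → K} {c : K} (hc : c ≠ 0) (M : Submodule K F) :
    slotFibre (R := R) (fun i => c * d i) M = slotFibre (R := R) d M := by
  have key : ∀ {d' : ι → K} {c' : K}, c' ≠ 0 →
      slotFibre (R := R) (fun i => c' * d' i) M ≤ slotFibre (R := R) d' M := by
    rintro d' c' - r ⟨ψ, hψ, hr⟩
    refine ⟨c' • ψ, M.smul_mem _ hψ, fun i => ?_⟩
    obtain ⟨h, e⟩ := hr i
    have he : d' i • c' • ψ = (c' * d' i) • ψ := by rw [smul_smul, mul_comm]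
    exact ⟨by rw [he]; exact h, (congrArg _ (Subtype.ext he)).trans e⟩
  refine le_antisymm (key hc) ?_
  have h := key (d' := fun i => c * d i) (inv_ne_zero hc)
  simp only [inv_mul_cancel_left₀ hc] at h
  exact h

section Split

variable [IsAlgClosed K]

open Classical in
/-- Scaled reductions for a scaling with two classes of values modulo `ϖ` split. -/
theorem exists_split (hA : RankLeOne A) {d : ι → K} (hd : ∀ i, d i ≠ 0)
    (hdK : ∀ i, d i ∈ D.K0) {δ : K} (hδ : δ ∈ A.nonunits) (hδ0 : δ ≠ 0)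
    (hδ' : D.ϖ / δ ∈ A.nonunits) (Z : ι → Prop) (M : Submodule K F) [FiniteDimensional K M]
    (hspan : M ≤ Submodule.span K ((M : Set F) ∩ D.F0)) {r : ∀ i, Fb i}
    (hr : r ∈ slotFibre (R := R) (fun i => (if Z i then δ else 1) * d i) M) :
    (fun i => if Z i then 0 else r i)
        ∈ slotFibre (R := R) (fun i => (if Z i then δ else 1) * d i) M ∧
      (∃ η : D.F0, (η : F) ∈ M ∧ ∃ r', IsSlot R d η r' ∧ ∀ i, ¬ Z i → r' i = r i) ∧
      ∃ η : D.F0, (η : F) ∈ M ∧ ∃ r', IsSlot R d η r' ∧ ∀ i, Z i → r' i = r i := by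
  set d' : ι → K := fun i => (if Z i then δ else 1) * d i with hd'
  have hd'0 : ∀ i, d' i ≠ 0 := fun i => by
    simp only [hd']; split_ifs <;> simp [hδ0, hd i]
  obtain ⟨B, hB, -⟩ := exists_fixedBasis D hA hd hdK M hspan
  set S₀ := slotFibre (R := R) d M with hS₀
  haveI : FiniteDimensional k S₀ := by
    rw [hB]; exact FiniteDimensional.span_of_finite _ (Set.finite_range _)
  let T : (∀ i, Fb i) →ₗ[k] (∀ i, Fb i) :=
    { toFun := fun r i => if Z i then 0 else r i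
      map_add' := fun a b => funext fun i => by
        simp only [Pi.add_apply]; split_ifs <;> simp
      map_smul' := fun c a => funext fun i => by
        simp only [Pi.smul_apply, RingHom.id_apply]; split_ifs <;> simp }
  have hTT : ∀ a, T (T a) = T a := fun a => funext fun i => by
    show (if Z i then 0 else (if Z i then 0 else a i)) = if Z i then 0 else a i
    split_ifs <;> rfl
  have himg : S₀.map T ≤ slotFibre (R := R) d' M := by
    rintro _ ⟨a, ⟨ψ, hψ, ha⟩, rfl⟩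
    refine ⟨ψ, hψ, fun i => ?_⟩
    obtain ⟨h, e⟩ := ha i
    show ∃ h : d' i • ψ ∈ R.V i, R.φ i ⟨_, h⟩ = if Z i then 0 else a i
    by_cases hZ : Z i
    · have he : d' i • ψ = algebraMap K F δ * (d i • ψ) := by
        simp only [hd', if_pos hZ]
        rw [← Algebra.smul_def, smul_smul]
      have hδA : δ ∈ A := A.nonunits_subset hδ
      refine ⟨by rw [he]; exact mul_mem ((R.mem_V_iff i _).2 hδA) h, ?_⟩
      rw [if_pos hZ, show (⟨_, _⟩ : R.V i)
        = ⟨algebraMap K F δ, (R.mem_V_iff i _).2 hδA⟩ * ⟨_, h⟩ from Subtype.ext he, map_mul,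
        R.φ_algebraMap i ⟨δ, hδA⟩, show R.π ⟨δ, hδA⟩ = 0 by
          rw [R.π_eq_zero_iff_mem, ← ValuationSubring.coe_mem_nonunits_iff]; exact hδ,
        map_zero, zero_mul]
    · have he : d' i • ψ = d i • ψ := by simp [hd', if_neg hZ]
      refine ⟨by rw [he]; exact h, ?_⟩
      rw [if_neg hZ, ← e]
      exact congrArg _ (Subtype.ext he)
  have hker : S₀ ⊓ LinearMap.ker T ≤ slotFibre (R := R) d' M := by
    rintro a ⟨ha, hT⟩
    obtain ⟨η, hη, hs⟩ := exists_fixed_slot D hA hd hdK M hspan ha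
    refine ⟨δ⁻¹ • (η : F), M.smul_mem _ hη, fun i => ?_⟩
    obtain ⟨h, e⟩ := hs i
    by_cases hZ : Z i
    · have he : d' i • δ⁻¹ • (η : F) = d i • (η : F) := by
        simp only [hd', if_pos hZ]
        rw [smul_smul]
        congr 1
        field_simp
      exact ⟨by rw [he]; exact h, (congrArg _ (Subtype.ext he)).trans e⟩
    · have ha0 : a i = 0 := by
        have := congrFun hT i
        simpa [T, hZ] using this
      have hdiv := D.ϖ_mul_div (D.smul_mem (hdK i) η.2) h (e.trans ha0)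
      have hεA : D.ϖ / δ ∈ A := A.nonunits_subset hδ'
      have he : d' i • δ⁻¹ • (η : F)
          = algebraMap K F (D.ϖ / δ) * (D.ϖ⁻¹ • d i • (η : F)) := by
        simp only [hd', if_neg hZ, one_mul]
        rw [← Algebra.smul_def, smul_smul, smul_smul, smul_smul]
        congr 1
        field_simp [D.ϖ_ne_zero]
      refine ⟨by rw [he]; exact mul_mem ((R.mem_V_iff i _).2 hεA) hdiv, ?_⟩
      rw [ha0, show (⟨_, _⟩ : R.V i)
        = ⟨algebraMap K F (D.ϖ / δ), (R.mem_V_iff i _).2 hεA⟩ * ⟨_, hdiv⟩ from Subtype.ext he,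
        map_mul, R.φ_algebraMap i ⟨_, hεA⟩, show R.π ⟨_, hεA⟩ = 0 by
          rw [R.π_eq_zero_iff_mem, ← ValuationSubring.coe_mem_nonunits_iff]; exact hδ',
        map_zero, zero_mul]
  have hdisj : S₀.map T ⊓ (S₀ ⊓ LinearMap.ker T) = ⊥ := by
    rw [eq_bot_iff]
    rintro a ⟨⟨c, -, rfl⟩, -, hT⟩
    have h0 : T c = 0 := (hTT c).symm.trans hT
    simpa using h0
  have heq : S₀.map T ⊔ (S₀ ⊓ LinearMap.ker T) = slotFibre (R := R) d' M := by
    haveI : FiniteDimensional k (slotFibre (R := R) d' M) := by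
      rcases Nat.eq_zero_or_pos (Module.finrank K M) with h0 | h0
      · have : slotFibre (R := R) d' M = ⊥ := by
          rw [eq_bot_iff]
          rintro a ⟨ψ, hψ, ha⟩
          have hψ0 : ψ = 0 := by simpa [Submodule.finrank_eq_zero.1 h0] using hψ
          subst hψ0
          refine (Submodule.mem_bot k).2 (funext fun i => ?_)
          obtain ⟨h, e⟩ := ha i
          rw [← e, Pi.zero_apply, ← map_zero (R.φ i)]
          exact congrArg _ (Subtype.ext (smul_zero _))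
        rw [this]; infer_instance
      · exact Module.finite_of_finrank_pos (by rw [finrank_slotFibre R hA d' hd'0 M]; exact h0)
    refine Submodule.eq_of_le_of_finrank_le (sup_le himg hker) ?_
    rw [finrank_slotFibre R hA d' hd'0 M, ← finrank_slotFibre R hA d hd M, ← hS₀]
    have h1 := Submodule.finrank_sup_add_finrank_inf_eq (S₀.map T) (S₀ ⊓ LinearMap.ker T)
    rw [hdisj, finrank_bot, add_zero] at h1
    rw [h1]
    have h2 := LinearMap.finrank_range_add_finrank_ker (T.domRestrict S₀)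
    have e1 : (T.domRestrict S₀).range = S₀.map T := by
      ext y; simp [LinearMap.mem_range]
    have e2 : Module.finrank k (T.domRestrict S₀).ker
        = Module.finrank k (S₀ ⊓ LinearMap.ker T : Submodule k (∀ i, Fb i)) := by
      refine LinearEquiv.finrank_eq ?_
      exact
        { toFun := fun a => ⟨(a.1 : ∀ i, Fb i), a.1.2, a.2⟩
          invFun := fun a => ⟨⟨a.1, a.2.1⟩, a.2.2⟩
          map_add' := fun _ _ => rfl
          map_smul' := fun _ _ => rfl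
          left_inv := fun _ => rfl
          right_inv := fun _ => rfl }
    rw [e1, e2] at h2
    omega
  rw [← heq] at hr
  obtain ⟨a, ha, b, hb, hab⟩ := Submodule.mem_sup.1 hr
  obtain ⟨c, hc, rfl⟩ := ha
  have hbz : ∀ i, ¬ Z i → b i = 0 := fun i hi => by
    have := congrFun hb.2 i
    simpa [T, hi] using this
  have htr : (fun i => if Z i then 0 else r i) = T c := funext fun i => by
    show (if Z i then 0 else r i) = if Z i then 0 else c i
    split_ifs with h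
    · rfl
    · rw [← hab, Pi.add_apply, hbz i h, add_zero]
      simp [T, h]
  refine ⟨by rw [htr]; exact himg ⟨c, hc, rfl⟩, ?_, ?_⟩
  · obtain ⟨η, hη, hs⟩ := exists_fixed_slot D hA hd hdK M hspan hc
    refine ⟨η, hη, c, hs, fun i hi => ?_⟩
    have := congrFun htr i
    simp only [if_neg hi] at this
    rw [this]
    simp [T, hi]
  · obtain ⟨η, hη, hs⟩ := exists_fixed_slot D hA hd hdK M hspan hb.1
    refine ⟨η, hη, b, hs, fun i hi => ?_⟩
    rw [← hab, Pi.add_apply]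
    simp [T, hi]

omit [Fintype ι] [IsAlgClosed K] in
theorem zpow_mem_nonunits {ρ : K} (hρ : ρ ^ 1 ∈ A.nonunits) {j : ℕ} (hj : 0 < j) :
    ρ ^ j ∈ A.nonunits := by
  rw [pow_one] at hρ
  rw [A.mem_nonunits_iff, map_pow]
  exact pow_lt_one₀ zero_le ((A.mem_nonunits_iff).1 hρ) hj.ne'

theorem nonunits_of_pow {ρ : K} {p : ℕ} (hp : 0 < p) (hρ : ρ ^ p = D.ϖ) : ρ ∈ A.nonunits := by
  rw [A.mem_nonunits_iff]
  by_contra h
  push Not at h
  have h1 : 1 ≤ A.valuation (ρ ^ p) := by rw [map_pow]; exact one_le_pow₀ h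
  rw [hρ] at h1
  exact h1.not_gt D.valuation_ϖ_lt_one

/-- On two components, a reduction for the scaling `ϖ ^ (n / p)` comes, component by component,
from a fixed function scaled by a power of `ϖ`; if the `n` differ modulo `p` it splits. -/
theorem exists_fixed_component (hA : RankLeOne A) {p : ℕ} (hp : 0 < p) {ρ : K}
    (hρ : ρ ^ p = D.ϖ) (n : ι → ℤ) {b b' : ι} (htwo : ∀ i, i = b ∨ i = b')
    (M : Submodule K F) [FiniteDimensional K M]
    (hspan : M ≤ Submodule.span K ((M : Set F) ∩ D.F0)) {r : ∀ i, Fb i}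
    (hr : r ∈ slotFibre (R := R) (fun i => ρ ^ n i) M) :
    (∀ i, ∃ η : D.F0, (η : F) ∈ M ∧ ∃ m : ℤ, ∃ h : D.ϖ ^ m • (η : F) ∈ R.V i,
      R.φ i ⟨_, h⟩ = r i) ∧
    (¬ (p : ℤ) ∣ n b - n b' → ∃ r' ∈ slotFibre (R := R) (fun i => ρ ^ n i) M,
      r' b = 0 ∧ r' b' = r b') := by
  classical
  have hρ0 : ρ ≠ 0 := fun h => D.ϖ_ne_zero (by rw [← hρ, h, zero_pow hp.ne'])
  set j := ((n b - n b') % (p : ℤ)).toNat with hj
  have hp' : (0 : ℤ) < p := by exact_mod_cast hp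
  have hjeq : (j : ℤ) = (n b - n b') % (p : ℤ) :=
    Int.toNat_of_nonneg (Int.emod_nonneg _ hp'.ne')
  set q := (n b - n b') / (p : ℤ) with hq
  have hdecomp : n b = n b' + (p : ℤ) * q + j := by
    rw [hjeq, hq]
    linarith [Int.mul_ediv_add_emod (n b - n b') (p : ℤ)]
  have hjp : j < p := by
    have := Int.emod_lt_of_pos (n b - n b') hp'
    omega
  have hρp : ∀ l : ℤ, ρ ^ ((p : ℤ) * l) = D.ϖ ^ l := fun l => by
    rw [zpow_mul, zpow_natCast, hρ]
  set d : ι → K := fun i => D.ϖ ^ (if i = b then q else 0) with hd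
  have hd0 : ∀ i, d i ≠ 0 := fun i => zpow_ne_zero _ D.ϖ_ne_zero
  have hdK : ∀ i, d i ∈ D.K0 := fun i => zpow_mem D.ϖ_mem _
  by_cases hj0 : j = 0
  · -- all scalings are fixed up to a common constant
    have hdiv : (p : ℤ) ∣ n b - n b' := Int.dvd_of_emod_eq_zero (by rw [← hjeq, hj0]; rfl)
    refine ⟨fun i => ?_, fun h => absurd hdiv h⟩
    have heq : (fun i => ρ ^ n i) = fun i => ρ ^ n b' * d i := funext fun i => by
      simp only [hd]
      rw [← hρp, ← zpow_add₀ hρ0]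
      congr 1
      rcases htwo i with rfl | rfl <;> split_ifs with h
      · rw [hdecomp, hj0]; push_cast; ring
      · exact absurd rfl h
      · rw [show q = 0 by rw [hq, h]; simp]; ring
      · simp
    rw [heq, slotFibre_const_mul (zpow_ne_zero _ hρ0)] at hr
    obtain ⟨η, hη, hs⟩ := exists_fixed_slot D hA hd0 hdK M hspan hr
    obtain ⟨h, e⟩ := hs i
    exact ⟨η, hη, _, h, e⟩
  · have hne : b ≠ b' := by
      rintro rfl
      simp at hjeq
      omega
    set δ := ρ ^ j with hδ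
    have hρn := nonunits_of_pow D hp hρ
    have hδn : δ ∈ A.nonunits := zpow_mem_nonunits (by rwa [pow_one]) (Nat.pos_of_ne_zero hj0)
    have hδ' : D.ϖ / δ ∈ A.nonunits := by
      rw [← hρ, hδ, div_eq_mul_inv, ← pow_sub₀ ρ hρ0 hjp.le]
      exact zpow_mem_nonunits (by rwa [pow_one]) (by omega)
    have heq : (fun i => ρ ^ n i)
        = fun i => ρ ^ n b' * ((if i = b then δ else 1) * d i) := funext fun i => by
      simp only [hd]
      rw [← hρp]
      rcases htwo i with rfl | rfl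
      · rw [if_pos rfl, if_pos rfl, hδ, ← zpow_natCast ρ j, ← zpow_add₀ hρ0, ← zpow_add₀ hρ0]
        congr 1
        rw [hdecomp]; ring
      · rw [if_neg hne.symm, if_neg hne.symm, one_mul, mul_zero, zpow_zero, mul_one]
    rw [heq, slotFibre_const_mul (zpow_ne_zero _ hρ0)] at hr
    obtain ⟨htr, ⟨η₁, hη₁, r₁, hs₁, hr₁⟩, ⟨η₂, hη₂, r₂, hs₂, hr₂⟩⟩ :=
      exists_split D hA hd0 hdK hδn (pow_ne_zero _ hρ0) hδ' (fun i => i = b) M hspan hr
    refine ⟨fun i => ?_, fun _ => ⟨fun i => if i = b then 0 else r i, ?_, if_pos rfl, if_neg hne.symm⟩⟩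
    · by_cases hi : i = b
      · obtain ⟨h, e⟩ := hs₂ i
        exact ⟨η₂, hη₂, _, h, e.trans (hr₂ i hi)⟩
      · obtain ⟨h, e⟩ := hs₁ i
        exact ⟨η₁, hη₁, _, h, e.trans (hr₁ i hi)⟩
    · rw [heq, slotFibre_const_mul (zpow_ne_zero _ hρ0)]
      exact htr

end Split

variable [IsAlgClosed K] [IsFunctionFieldOne K F] [∀ i, IsFunctionFieldOne k (Fb i)]
  {S : Type uS} [Fintype S] {p : ℕ} [hp : Fact p.Prime] [CharP k p]

/-- At a node where `p` divides both orders the valuations agree modulo `p`. -/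
theorem dvd_sub_of_node (hA : RankLeOne A) (P : NodePairs R S) {f : F} (hf0 : f ≠ 0)
    {n : ι → ℤ} {φ : ∀ i, Fb i} (hf : HasVal D f n φ)
    (hspan : ∀ N : ℕ, rootSp p (N • R.poleX) f
      ≤ Submodule.span K ((rootSp p (N • R.poleX) f : Set F) ∩ D.F0))
    (T : Finset (Σ i, Place k (Fb i)))
    (hT : ∀ b ∈ T, ¬ (p : ℤ) ∣ b.2.ord (φ b.1) ∧ ∀ s j, P.br s j ≠ b)
    (hsep : (indivisible p (divisorOf K f)).card ≤ T.card) (s : S)
    (htwo : ∀ i, i = (P.br s 0).1 ∨ i = (P.br s 1).1)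
    (hs : (p : ℤ) ∣ (P.br s 0).2.ord (φ (P.br s 0).1)) :
    (p : ℤ) ∣ n (P.br s 0).1 - n (P.br s 1).1 := by
  haveI := R.isAlgClosed_residue
  by_contra hcon
  obtain ⟨ρ, hρ⟩ := IsAlgClosed.exists_pow_nat_eq D.ϖ hp.out.pos
  have hd : ∀ i, (ρ ^ n i) ^ p * (D.ϖ ^ n i)⁻¹ = 1 := fun i => by
    rw [← zpow_natCast (ρ ^ n i) p, ← zpow_mul, mul_comm (n i) (p : ℤ), zpow_mul, zpow_natCast, hρ,
      mul_inv_cancel₀ (zpow_ne_zero _ D.ϖ_ne_zero)]
  obtain ⟨⟨N₁, hN₁⟩, hsides, -⟩ :=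
    exists_slotFibre_eq (p := p) hA P hf0 hf.slot hf.ne_zero hd T hT hsep
  obtain ⟨N₂, hN₂⟩ := exists_mem_rootFibre_node (p := p) P φ hf.ne_zero
  obtain ⟨r, hr, hr0⟩ := hN₂ (max N₁ N₂) (le_max_right _ _) s fun j => hsides s 0 j hs
  rw [← hN₁ _ (le_max_left _ _)] at hr
  haveI : FiniteDimensional K (rootSp p (max N₁ N₂ • R.poleX) f) := finite_L _
  obtain ⟨r', hr', hz, hsame⟩ :=
    (exists_fixed_component D hA hp.out.pos hρ n htwo _ (hspan _) hr).2 hcon
  rw [hN₁ _ (le_max_left _ _)] at hr'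
  have h := hr'.2 s
  simp only [bval] at h
  rw [hz, hsame, zero_pow hp.out.ne_zero, zero_mul, placeValue_zero] at h
  exact (hr0 s 1).2 rfl h.symm

/-- Expansions at a smooth branch of a component: the leading coefficient `ℓ` and the value
`ev` of a function with no poles near the branch. -/
structure CuspLead (P : NodePairs R S) where
  b : ι
  v : Place k (Fb b)
  smooth : ∀ s j, P.br s j ≠ ⟨b, v⟩
  regular : 0 ≤ v.ord (R.xb b)
  ℓ : F → K
  ev : F → K
  ℓ_mul : ∀ {g g' : F}, g ≠ 0 → g' ≠ 0 → ℓ (g * g') = ℓ g * ℓ g'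
  ℓ_algebraMap : ∀ {a : K}, a ≠ 0 → ℓ (algebraMap K F a) = a
  ℓ_fixed : ∀ {g : F}, g ∈ D.F0 → ℓ g ∈ D.K0
  ev_sub : ∀ (n : ℕ) {g g' : F}, g ∈ R.polarSp n → g' ∈ R.polarSp n → ev (g - g') = ev g - ev g'
  ev_smul : ∀ (n : ℕ) (a : K) {g : F}, g ∈ R.polarSp n → ev (a • g) = a * ev g
  ev_red : ∀ (n : ℕ) {g : F}, g ∈ R.polarSp n → ∀ h : g ∈ R.V b,
    ∃ h' : ev g ∈ A, R.π ⟨ev g, h'⟩ = placeValue v (R.φ b ⟨g, h⟩)
  ℓ_eq_ev : ∀ (n : ℕ) {g : F}, g ∈ R.polarSp n → ev g ≠ 0 → ℓ g = ev g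

variable {D} in
theorem CuspLead.ℓ_pow {P : NodePairs R S} (C : CuspLead D P) {g : F} (hg : g ≠ 0) :
    ∀ m : ℕ, C.ℓ (g ^ m) = C.ℓ g ^ m
  | 0 => by simpa using C.ℓ_algebraMap (one_ne_zero (α := K))
  | m + 1 => by rw [pow_succ, pow_succ, C.ℓ_mul (pow_ne_zero _ hg) hg, C.ℓ_pow hg m]

variable {D} in
/-- A function without poles near the branch with non-zero value has a unit leading coefficient. -/
theorem CuspLead.ℓ_unit {P : NodePairs R S} (C : CuspLead D P) {n : ℕ} {g : F}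
    (hg : g ∈ R.polarSp n) {h : g ∈ R.V C.b} (hv : placeValue C.v (R.φ C.b ⟨g, h⟩) ≠ 0) :
    ∃ h' : C.ℓ g ∈ A, R.π ⟨C.ℓ g, h'⟩ = placeValue C.v (R.φ C.b ⟨g, h⟩) ∧
      A.valuation (C.ℓ g) = 1 := by
  obtain ⟨h', e⟩ := C.ev_red n hg h
  have hne : C.ev g ≠ 0 := fun h0 => hv (by
    rw [← e, show (⟨C.ev g, h'⟩ : A) = 0 from Subtype.ext h0, map_zero])
  have hℓ := C.ℓ_eq_ev n hg hne
  refine ⟨by rw [hℓ]; exact h', ?_, ?_⟩
  · rw [← e]; exact congrArg _ (Subtype.ext hℓ)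
  · rw [hℓ]
    refine le_antisymm ((A.valuation_le_one_iff _).2 h') (le_of_not_gt fun hlt => hv ?_)
    rw [← e, R.π_eq_zero_iff_mem, ← ValuationSubring.coe_mem_nonunits_iff, A.mem_nonunits_iff]
    exact hlt

/-- `p ∣ n b` when the leading coefficient at a smooth branch of `b` is a `p`-th power. -/
theorem dvd_of_cusp (hA : RankLeOne A) (P : NodePairs R S) (C : CuspLead D P) {f : F}
    (hfF : f ∈ D.F0) (hf0 : f ≠ 0) {n : ι → ℤ} {φ : ∀ i, Fb i} (hf : HasVal D f n φ)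
    (hspan : ∀ N : ℕ, rootSp p (N • R.poleX) f
      ≤ Submodule.span K ((rootSp p (N • R.poleX) f : Set F) ∩ D.F0))
    (hdvd : ∀ v : Place K F, (p : ℤ) ∣ v.ord f) {z : K} (hz : z ∈ D.K0)
    (hℓ : C.ℓ f = z ^ p) (htwo : ∃ b', ∀ i, i = C.b ∨ i = b') :
    (p : ℤ) ∣ n C.b := by
  haveI := R.isAlgClosed_residue
  obtain ⟨b', htwo⟩ := htwo
  obtain ⟨ρ, hρ⟩ := IsAlgClosed.exists_pow_nat_eq D.ϖ hp.out.pos
  have hd : ∀ i, (ρ ^ n i) ^ p * (D.ϖ ^ n i)⁻¹ = 1 := fun i => by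
    rw [← zpow_natCast (ρ ^ n i) p, ← zpow_mul, mul_comm (n i) (p : ℤ), zpow_mul, zpow_natCast, hρ,
      mul_inv_cancel₀ (zpow_ne_zero _ D.ϖ_ne_zero)]
  obtain ⟨⟨N₁, hN₁⟩, -, hsmooth⟩ :=
    exists_slotFibre_eq (p := p) hA P hf0 hf.slot hf.ne_zero hd ∅
      (fun b hb => absurd hb (by simp)) (by
      rw [show indivisible p (divisorOf K f) = ∅ from
        Finset.eq_empty_of_forall_notMem fun v hv => mem_indivisible.1 hv (by simpa using hdvd v)]
      exact Nat.zero_le _)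
  obtain ⟨N₂, hN₂⟩ := exists_mem_rootFibre_smooth (p := p) P φ hf.ne_zero
  set N := max N₁ N₂ with hN
  obtain ⟨r, hr, hr0⟩ := hN₂ N (le_max_right _ _) ⟨C.b, C.v⟩ C.regular C.smooth
    (hsmooth _ (by simp) C.smooth)
  rw [← hN₁ N (le_max_left _ _)] at hr
  haveI : FiniteDimensional K (rootSp p (N • R.poleX) f) := finite_L _
  obtain ⟨η, hη, m, hV, he⟩ :=
    (exists_fixed_component D hA hp.out.pos hρ n htwo _ (hspan _) hr).1 C.b
  -- a fixed function of unit leading coefficient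
  obtain ⟨hcV, hce⟩ := hf.slot C.b
  set u := D.ϖ ^ m • (η : F) with hu
  set g := (D.ϖ ^ n C.b)⁻¹ • (u ^ p * f) with hg
  have hgmem : g ∈ R.polarSp (p * N) := by
    refine Submodule.smul_mem _ _ ?_
    rw [polarSp, mul_comm p N, mul_nsmul]
    exact pow_mul_mem hp.out.pos (Submodule.smul_mem _ _ hη)
  have he' : g = u ^ p * ((D.ϖ ^ n C.b)⁻¹ • f) := by rw [hg, mul_smul_comm]
  have hgV : g ∈ R.V C.b := by rw [he']; exact mul_mem (pow_mem hV p) hcV
  have hgφ : R.φ C.b ⟨g, hgV⟩ = r C.b ^ p * φ C.b := by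
    rw [show (⟨g, hgV⟩ : R.V C.b) = ⟨u, hV⟩ ^ p * ⟨_, hcV⟩ from Subtype.ext he', map_mul,
      map_pow, he, hce]
  obtain ⟨-, -, hunit⟩ := C.ℓ_unit hgmem (h := hgV) (by rw [hgφ]; exact hr0)
  have hη0 : (η : F) ≠ 0 := fun h0 => hr0 (by
    simp only [bval]
    rw [← he, show (⟨u, hV⟩ : R.V C.b) = 0 from Subtype.ext (by simp [hu, h0]), map_zero,
      zero_pow hp.out.ne_zero, zero_mul, placeValue_zero])
  have hϖm : D.ϖ ^ m ≠ 0 := zpow_ne_zero _ D.ϖ_ne_zero
  have hu0 : u ≠ 0 := smul_ne_zero hϖm hη0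
  have hℓu : C.ℓ u = D.ϖ ^ m * C.ℓ η := by
    rw [hu, Algebra.smul_def, C.ℓ_mul ((map_ne_zero _).2 hϖm) hη0, C.ℓ_algebraMap hϖm]
  have hℓg : C.ℓ g = (D.ϖ ^ n C.b)⁻¹ * (C.ℓ u * z) ^ p := by
    have hc0 : (D.ϖ ^ n C.b)⁻¹ ≠ 0 := inv_ne_zero (zpow_ne_zero _ D.ϖ_ne_zero)
    rw [hg, Algebra.smul_def, C.ℓ_mul ((map_ne_zero _).2 hc0) (mul_ne_zero (pow_ne_zero _ hu0) hf0),
      C.ℓ_algebraMap hc0, C.ℓ_mul (pow_ne_zero _ hu0) hf0, C.ℓ_pow hu0, hℓ, mul_pow]
  set y := C.ℓ u * z with hy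
  have hymem : y ∈ D.K0 := mul_mem (C.ℓ_fixed (D.smul_mem (zpow_mem D.ϖ_mem m) η.2)) hz
  have hy0 : y ≠ 0 := fun h0 => by
    rw [hℓg, h0, zero_pow hp.out.ne_zero, mul_zero, map_zero] at hunit
    exact zero_ne_one hunit
  obtain ⟨l, hl⟩ := D.exists_zpow hA hymem hy0
  refine ⟨l, ?_⟩
  refine D.zpow_eq_of_valuation_eq ?_
  rw [hℓg, map_mul, map_inv₀, map_pow, hl, inv_mul_eq_one₀ ((map_ne_zero A.valuation).2 (zpow_ne_zero _ D.ϖ_ne_zero))] at hunit
  rw [hunit, ← map_pow, mul_comm (p : ℤ) l, zpow_mul, zpow_natCast]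

end Fermat.Agent.MazurPrinciple.Move

end
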