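/-
Mazur's principle at `p`: the component step.

For a fixed function `f` with `p ∣ div f` whose leading coefficients at a smooth branch of each
component are `p`-th powers, `p` divides the valuations of `f` on both components and the orders
of its reductions at every place.
-/
import Fermat.Agent.MP.SecondSplit
import Fermat.Agent.MP.SecondBridgeMain
import Fermat.Agent.MP.SecondComponent

set_option autoImplicit false

noncomputable section

namespace Fermat.Agent.MazurPrinciple.Move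

open AlgebraicCurve IntermediateField Fermat.Agent.Curve Fermat.Agent.Curve.RedAux
open Fermat.Agent.Bad Fermat.Agent.Bad.MultiReduction Fermat.Agent.Ribet.Slot

universe uK uι uk uFb uS

variable {K : Type uK} [Field K] {A : ValuationSubring K}
  {F : Type uK} [Field F] [Algebra K F] {ι : Type uι} [Fintype ι]
  {k : Type uk} [Field k] {Fb : ι → Type uFb} [∀ i, Field (Fb i)] [∀ i, Algebra k (Fb i)]
  [IsAlgClosed K] [IsFunctionFieldOne K F] [∀ i, IsFunctionFieldOne k (Fb i)]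
  {R : MultiReduction A F k Fb} {D : Descent R} {S : Type uS} [Fintype S]
  {p : ℕ} [hp : Fact p.Prime] [CharP k p]

omit [IsAlgClosed K] [IsFunctionFieldOne K F] [∀ i, IsFunctionFieldOne k (Fb i)] hp
  [CharP k p] in
theorem coe_mul_zpow (z : D.F0) (l : ℤ) :
    ((z * D.πF ^ l : D.F0) : F) = D.ϖ ^ l • (z : F) := by
  rw [Algebra.smul_def, map_zpow₀, mul_comm, Subfield.coe_mul,
    show ((D.πF ^ l : D.F0) : F) = (D.πF : F) ^ l from map_zpow₀ D.F0.subtype D.πF l,
    Descent.coe_πF]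

omit [IsAlgClosed K] [IsFunctionFieldOne K F] [∀ i, IsFunctionFieldOne k (Fb i)] hp
  [CharP k p] in
theorem lead_of_slot {q : ι → ℤ} {z : D.F0} {r : ∀ i, Fb i}
    (h : IsSlot R (fun i => D.ϖ ^ q i) (z : F) r) (i : ι) :
    (D.redSystem.R i).Lead 0 (z * D.πF ^ q i) (r i) := by
  obtain ⟨hV, he⟩ := h i
  exact D.lead_zero_iff.2 ⟨by rw [coe_mul_zpow]; exact hV,
    (congrArg _ (Subtype.ext (coe_mul_zpow z (q i)))).trans he⟩

omit [IsAlgClosed K] [IsFunctionFieldOne K F] [∀ i, IsFunctionFieldOne k (Fb i)] hp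
  [CharP k p] in
theorem HasVal.lead {f : D.F0} {n : ι → ℤ} {φ : ∀ i, Fb i} (h : HasVal D (f : F) n φ) (i : ι) :
    (D.redSystem.R i).Lead 0 (f * D.πF ^ (-n i)) (φ i) :=
  lead_of_slot (q := fun i => -n i) (by simpa only [zpow_neg] using h.slot) i

/-- A fixed `p`-th root of `g` with prescribed reductions. -/
theorem exists_root (hA : RankLeOne A) (g : D.F0) {n : ι → ℤ} {φ : ∀ i, Fb i}
    (hg : HasVal D (g : F) n φ) {q : ι → ℤ} (hq : ∀ i, n i = (p : ℤ) * q i)
    (hspan : SpannedByFixed D p g) {N : ℕ} {r : ∀ i, Fb i}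
    (hr : r ∈ slotFibre (R := R) (fun i => D.ϖ ^ q i) (rootSp p (N • R.poleX) (g : F))) :
    ∃ ψ : D.F0, (∀ i, (D.redSystem.R i).Lead 0 (ψ * D.πF ^ q i) (r i)) ∧
      (∀ i, (D.redSystem.R i).Lead 0 (ψ ^ p * g) (r i ^ p * φ i)) ∧
      ((ψ ^ p * g : D.F0) : F) ∈ R.polarSp (p * N) := by
  haveI : FiniteDimensional K (rootSp p (N • R.poleX) (g : F)) := finite_L _
  obtain ⟨ψ, hψ, hs⟩ := exists_fixed_slot D hA (fun i => zpow_ne_zero _ D.ϖ_ne_zero)
    (fun i => zpow_mem D.ϖ_mem _) _ (hspan N) hr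
  refine ⟨ψ, lead_of_slot hs, fun i => ?_, ?_⟩
  · have h1 := ((lead_of_slot hs i).pow p).mul (hg.lead i)
    rw [Nat.zero_mul, add_zero] at h1
    convert h1 using 1
    have hπ : D.πF ≠ 0 := (D.redSystem.R i).π_ne_zero
    rw [mul_pow, hq i, ← zpow_natCast (D.πF ^ q i) p, ← zpow_mul, mul_mul_mul_comm,
      ← zpow_add₀ hπ, mul_comm (q i) (p : ℤ), add_neg_cancel, zpow_zero, mul_one]
  · rw [Subfield.coe_mul, SubmonoidClass.coe_pow, polarSp, mul_comm p N, mul_nsmul]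
    exact pow_mul_mem hp.out.pos hψ

/-- Glued roots with the exact allowed pole at a given smooth place. -/
theorem exists_mem_rootFibre_exact (P : NodePairs R S) (φ : ∀ i, Fb i) (hφ : ∀ i, φ i ≠ 0) :
    ∃ N₀ : ℕ, ∀ N, N₀ ≤ N → ∀ (i : ι) (v : Place k (Fb i)), (∀ s j, P.br s j ≠ ⟨i, v⟩) →
      (p : ℤ) ∣ v.ord (φ i) → ∃ r ∈ rootFibre P p φ N, (∀ i', r i' ≠ 0) ∧
        v.ord (r i ^ p * φ i) = -((p : ℤ) * ((N : ℤ) * max (-(v.ord (R.xb i))) 0)) := by
  classical
  haveI := R.isAlgClosed_residue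
  choose c hc using fun i => exists_exact_pole (k := k) (E := Fb i)
  refine ⟨∑ i, (c i + 2 * (Fintype.card S : ℤ)
    - Divisor.degree (floorDiv p (divisorOf k (φ i)))).toNat, fun N hN i v hv hdvd => ?_⟩
  let O : ∀ i', Finset (Place k (Fb i')) := fun i' =>
    (Finset.univ : Finset (S × Fin 2)).biUnion
      fun x => if h : (P.br x.1 x.2).1 = i' then {h ▸ (P.br x.1 x.2).2} else ∅
  let E : ∀ i', Divisor k (Fb i') := fun i' =>
    N • poleDivisor k (R.xb i') + floorDiv p (divisorOf k (φ i'))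
      - ∑ w ∈ O i', Finsupp.single w 1
  have hO : ∀ i', (O i').card ≤ 2 * Fintype.card S := fun i' => by
    refine Finset.card_biUnion_le.trans ?_
    refine (Finset.sum_le_card_nsmul _ _ 1 fun x _ => ?_).trans ?_
    · split_ifs <;> simp
    · simp [mul_comm]
  have hdeg : ∀ i', c i' ≤ Divisor.degree (E i') := fun i' => by
    simp only [E]
    rw [map_sub, map_add, map_nsmul, map_sum,
      degree_poleDivisor (t := R.xb i') (R.x_transcendental i')]
    simp only [Divisor.degree_single, deg_one, Nat.cast_one, mul_one, Finset.sum_const,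
      nsmul_eq_mul]
    have h1 : (c i' + 2 * (Fintype.card S : ℤ)
        - Divisor.degree (floorDiv p (divisorOf k (φ i')))).toNat ≤ N :=
      le_trans (Finset.single_le_sum (f := fun i => (c i + 2 * (Fintype.card S : ℤ)
        - Divisor.degree (floorDiv p (divisorOf k (φ i)))).toNat) (fun _ _ => Nat.zero_le _)
        (Finset.mem_univ i')) hN
    have h2 : (N : ℤ) * 1 ≤ (N : ℤ) * (Module.finrank k⟮R.xb i'⟯ (Fb i') : ℤ) :=
      mul_le_mul_of_nonneg_left (by exact_mod_cast R.degree_pos i') (by positivity)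
    have h3 := hO i'
    omega
  have hvO : v ∉ O i := by
    intro h
    simp only [O, Finset.mem_biUnion, Finset.mem_univ, true_and] at h
    obtain ⟨x, h⟩ := h
    have hx := hv x.1 x.2
    generalize P.br x.1 x.2 = bx at h hx
    obtain ⟨i', v'⟩ := bx
    split_ifs at h with h'
    · subst h'
      simp only [Finset.mem_singleton] at h
      exact hx (by rw [h])
    · simp at h
  choose w hw hw0 hword using fun i' => hc i' (E i')
    (if h : i = i' then h ▸ v else (nonempty_place (K := k) (F := Fb i')).some) (hdeg i')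
  have hEle : ∀ i', E i' ≤ N • poleDivisor k (R.xb i') + floorDiv p (divisorOf k (φ i')) :=
    fun i' => sub_le_self _ (Finset.sum_nonneg fun _ _ => Finsupp.single_nonneg.2 zero_le_one)
  have hwmem : w ∈ rootPolar R p φ N := mem_rootPolar.2 fun i' => L_mono (hEle i') (hw i')
  -- the values at the nodes vanish
  have hzero : ∀ s j, bval (P.br s j) (fun i => w i ^ p * φ i) = 0 := by
    intro s j
    have hreg := P.regular s j
    have hmem := mem_branch (b := P.br s j) hwmem hreg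
    refine (placeValue_eq_zero_iff _ hmem).2 (Or.inr ?_)
    have hO' : (P.br s j).2 ∈ O (P.br s j).1 := by
      simp only [O, Finset.mem_biUnion, Finset.mem_univ, true_and]
      exact ⟨(s, j), by simp⟩
    revert hreg hmem hO'
    generalize P.br s j = bx
    obtain ⟨i', v'⟩ := bx
    intro hreg hmem hO'
    have h1 := (mem_L_iff (hw0 i')).1 (hw i') v'
    simp only [E] at h1
    rw [Finsupp.sub_apply, Finsupp.add_apply, poleBound_eq_zero (b := ⟨i', v'⟩) hreg,
      Finsupp.finsetSum_apply] at h1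
    simp only [Finsupp.single_apply, Finset.sum_ite_eq', hO', if_true, zero_add,
      floorDiv_apply, divisorOf_apply] at h1
    simp only
    rw [v'.ord_mul (pow_ne_zero _ (hw0 i')) (hφ i'), Curve.ord_pow v']
    have hp' : (0 : ℤ) < p := by exact_mod_cast hp.out.pos
    have h3 : (p : ℤ) * (1 - v'.ord (φ i') / (p : ℤ)) ≤ (p : ℤ) * v'.ord (w i') :=
      mul_le_mul_of_nonneg_left (by omega) hp'.le
    have h4 := Int.mul_ediv_add_emod (v'.ord (φ i')) p
    have h5 := Int.emod_nonneg (v'.ord (φ i')) hp'.ne'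
    rw [mul_sub, mul_one] at h3
    omega
  refine ⟨w, ⟨hwmem, fun s => by rw [hzero, hzero]⟩, hw0, ?_⟩
  have h1 := hword i
  simp only [dif_pos, E] at h1
  rw [v.ord_mul (pow_ne_zero _ (hw0 i)) (hφ i), Curve.ord_pow v, h1, Finsupp.sub_apply,
    Finsupp.add_apply, Finsupp.finsetSum_apply]
  simp only [Finsupp.single_apply, Finset.sum_ite_eq', hvO, if_false, sub_zero, floorDiv_apply,
    divisorOf_apply, Finsupp.smul_apply, poleDivisor_apply, nsmul_eq_mul]
  obtain ⟨t, ht⟩ := hdvd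
  rw [ht, Int.mul_ediv_cancel_left _ (by exact_mod_cast hp.out.ne_zero)]
  ring

variable (D p) in
/-- A fixed function `U` whose indivisible zeros and poles specialise injectively to smooth
branches and whose reductions have indivisible order on the first branch of every node. -/
structure UnitData (P : NodePairs R S) where
  U : D.F0
  ne_zero : (U : F) ≠ 0
  m : ι → ℤ
  ub : ∀ i, Fb i
  hasVal : HasVal D (U : F) m ub
  T : Finset (Σ i, Place k (Fb i))
  mem_T : ∀ b ∈ T, ¬ (p : ℤ) ∣ b.2.ord (ub b.1) ∧ ∀ s j, P.br s j ≠ b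
  sep : (indivisible p (divisorOf K (U : F))).card ≤ T.card
  node : ∀ s, ¬ (p : ℤ) ∣ (P.br s 0).2.ord (ub (P.br s 0).1)

variable (hA : RankLeOne A) (P : NodePairs R S) (Ud : UnitData D p P) (f : D.F0)
  {n : ι → ℤ} {φ : ∀ i, Fb i}

section

variable (hf : HasVal D (f : F) n φ) (hf0 : (f : F) ≠ 0)
  (hdvd : ∀ v : Place K F, (p : ℤ) ∣ v.ord (f : F))

include hA hf hf0 hdvd in
theorem dvd_ord_of_smooth {i : ι} {v : Place k (Fb i)} (hv : ∀ s j, P.br s j ≠ ⟨i, v⟩) :
    (p : ℤ) ∣ v.ord (φ i) := by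
  obtain ⟨ρ, hρ⟩ := IsAlgClosed.exists_pow_nat_eq D.ϖ hp.out.pos
  obtain ⟨-, -, h⟩ := exists_slotFibre_eq (p := p) hA P hf0 hf.slot hf.ne_zero
    (d := fun i => ρ ^ n i) (fun i => by
      rw [← zpow_natCast (ρ ^ n i) p, ← zpow_mul, mul_comm (n i) (p : ℤ), zpow_mul, zpow_natCast,
        hρ, mul_inv_cancel₀ (zpow_ne_zero _ D.ϖ_ne_zero)])
    ∅ (fun b hb => absurd hb (by simp))
    (by
      rw [show indivisible p (divisorOf K (f : F)) = ∅ from
        Finset.eq_empty_of_forall_notMem fun v hv => mem_indivisible.1 hv (by simpa using hdvd v)]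
      exact Nat.zero_le _)
  exact h ⟨i, v⟩ (by simp) hv

include hf0 hdvd in
theorem card_indivisible_mul_pow (a : ℕ) :
    (indivisible p (divisorOf K ((f * Ud.U ^ a : D.F0) : F))).card ≤ Ud.T.card := by
  refine le_trans (Finset.card_le_card fun v hv => ?_) Ud.sep
  rw [mem_indivisible, divisorOf_apply, Subfield.coe_mul, SubmonoidClass.coe_pow,
    v.ord_mul hf0 (pow_ne_zero _ Ud.ne_zero), Curve.ord_pow v] at hv
  rw [mem_indivisible, divisorOf_apply]
  exact fun h => hv (dvd_add (hdvd v) (dvd_mul_of_dvd_right h _))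

include hA hf hf0 hdvd in
theorem mem_T_mul_pow {a : ℕ} (ha : ¬ p ∣ a) :
    ∀ b ∈ Ud.T, ¬ (p : ℤ) ∣ b.2.ord ((φ * Ud.ub ^ a) b.1) ∧ ∀ s j, P.br s j ≠ b := by
  rintro ⟨i, v⟩ hb
  obtain ⟨h1, h2⟩ := Ud.mem_T _ hb
  refine ⟨fun h => h1 ?_, h2⟩
  simp only [Pi.mul_apply, Pi.pow_apply] at h
  rw [v.ord_mul (hf.ne_zero i) (pow_ne_zero _ (Ud.hasVal.ne_zero i)), Curve.ord_pow v] at h
  have h3 := (dvd_add_right (dvd_ord_of_smooth hA P f hf hf0 hdvd h2)).1 h
  exact (((Nat.prime_iff_prime_int.1 hp.out).dvd_or_dvd h3).resolve_left (fun h => ha (by exact_mod_cast h)))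

include hA hf hf0 hdvd in
/-- At a node where `p` does not divide the order of the reduction of `f` some `f U ^ a` works. -/
theorem exists_exponent {s : S} (hs : ¬ (p : ℤ) ∣ (P.br s 0).2.ord (φ (P.br s 0).1)) :
    ∃ a : ℕ, ¬ p ∣ a ∧
      (p : ℤ) ∣ (P.br s 0).2.ord ((φ * Ud.ub ^ a) (P.br s 0).1) := by
  set o := (P.br s 0).2.ord (Ud.ub (P.br s 0).1)
  set o' := (P.br s 0).2.ord (φ (P.br s 0).1)
  have ho : (o : ZMod p) ≠ 0 := fun h => Ud.node s ((ZMod.intCast_zmod_eq_zero_iff_dvd o p).1 h)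
  have ho' : (o' : ZMod p) ≠ 0 := fun h => hs ((ZMod.intCast_zmod_eq_zero_iff_dvd o' p).1 h)
  haveI : NeZero p := ⟨hp.out.ne_zero⟩
  refine ⟨(-(o' : ZMod p) / o).val, ?_, ?_⟩
  · rw [← ZMod.natCast_eq_zero_iff, ZMod.natCast_val, ZMod.cast_id]
    exact div_ne_zero (neg_ne_zero.2 ho') ho
  · simp only [Pi.mul_apply, Pi.pow_apply]
    rw [(P.br s 0).2.ord_mul (hf.ne_zero _) (pow_ne_zero _ (Ud.hasVal.ne_zero _)),
      Curve.ord_pow (P.br s 0).2, ← ZMod.intCast_zmod_eq_zero_iff_dvd]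
    push_cast
    rw [ZMod.natCast_val, ZMod.cast_id, div_mul_cancel₀ _ ho, add_neg_cancel]

variable (hspan : ∀ a : ℕ, SpannedByFixed D p (f * Ud.U ^ a))
  (C : ι → CuspLead D P) (hC : ∀ b, (C b).b = b) (z : ι → K) (hz : ∀ b, z b ∈ D.K0)
  (hℓ : ∀ b, (C b).ℓ (f : F) = z b ^ p)
  (htwo : ∀ s i, i = (P.br s 0).1 ∨ i = (P.br s 1).1)

include hA hf hf0 hdvd hspan hC hz hℓ htwo in
/-- `p` divides the valuations of `f` on all components. -/
theorem dvd_val [Nonempty S] (b : ι) : (p : ℤ) ∣ n b := by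
  have hsp : SpannedByFixed D p f := by simpa using hspan 0
  rw [← hC b]
  refine dvd_of_cusp D hA P (C b) f.2 hf0 hf hsp hdvd (hz b) (hℓ b) ?_
  obtain ⟨s⟩ := ‹Nonempty S›
  rcases htwo s (C b).b with h | h
  · exact ⟨(P.br s 1).1, fun i => (htwo s i).imp (fun e => e.trans h.symm) id⟩
  · exact ⟨(P.br s 0).1, fun i => (htwo s i).symm.imp (fun e => e.trans h.symm) id⟩

include hA hf hf0 hdvd hspan htwo in
/-- A node where the valuations of `U` differ modulo `p` is harmless. -/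
theorem dvd_ord_node_of_not_dvd (hn : ∀ b, (p : ℤ) ∣ n b) {s : S}
    (hm : ¬ (p : ℤ) ∣ Ud.m (P.br s 0).1 - Ud.m (P.br s 1).1) :
    (p : ℤ) ∣ (P.br s 0).2.ord (φ (P.br s 0).1) := by
  by_contra hs
  obtain ⟨a, ha, hg⟩ := exists_exponent hA P Ud f hf hf0 hdvd hs
  have h := dvd_sub_of_node D hA P (f := ((f * Ud.U ^ a : D.F0) : F))
    (mul_ne_zero hf0 (by simpa using pow_ne_zero a Ud.ne_zero))
    (by rw [Subfield.coe_mul, SubmonoidClass.coe_pow]; exact hf.mul (Ud.hasVal.pow a))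
    (hspan a) Ud.T (mem_T_mul_pow hA P Ud f hf hf0 hdvd ha)
    (card_indivisible_mul_pow P Ud f hf0 hdvd a) s (htwo s) hg
  simp only [Pi.add_apply] at h
  have h2 : (p : ℤ) ∣ (a : ℤ) * (Ud.m (P.br s 0).1 - Ud.m (P.br s 1).1) := by
    have := dvd_sub h (dvd_sub (hn (P.br s 0).1) (hn (P.br s 1).1))
    rw [show (a : ℤ) * (Ud.m (P.br s 0).1 - Ud.m (P.br s 1).1)
      = n (P.br s 0).1 + (a : ℤ) * Ud.m (P.br s 0).1
        - (n (P.br s 1).1 + (a : ℤ) * Ud.m (P.br s 1).1)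
        - (n (P.br s 0).1 - n (P.br s 1).1) by ring]
    exact this
  exact (((Nat.prime_iff_prime_int.1 hp.out).dvd_or_dvd h2).resolve_left (fun h => ha (by exact_mod_cast h))) |> hm

end

/-- Wild inertia: `σ` fixes `U` and moves the uniformiser by exactly `π ^ j`. -/
structure WildData (P : NodePairs R S) (Ud : UnitData D p P) (C : ι → CuspLead D P) where
  s : InertialMap D
  map_U : s.σ Ud.U = Ud.U
  j : ℕ
  c0 : k
  j_pos : 0 < j
  c0_ne_zero : c0 ≠ 0
  e : ℕ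
  u0 : k
  lead_p : ∀ b, (D.redSystem.R b).Lead e (p : D.F0) (algebraMap k (Fb b) u0)
  lt : p * j < e + j
  lead_π : ∀ b, (D.redSystem.R b).Lead j (s.σ D.πF / D.πF - 1) (algebraMap k (Fb b) c0)
  expand : ∀ b a, (D.redSystem.R b).Div 0 a → (D.redSystem.R b).Div (j + 1) (s.σ a - a)
  ℓ_map : ∀ (b : ι) (g : D.F0),
    (C b).ℓ ((s.σ g : D.F0) : F) = (s.σK ⟨(C b).ℓ (g : F), (C b).ℓ_fixed g.2⟩ : K)
  m_dvd : ∀ b, (p : ℤ) ∣ Ud.m b
  m_not_dvd : ∀ t, ¬ ((p : ℤ) * p) ∣ Ud.m (P.br t 0).1 - Ud.m (P.br t 1).1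

variable (hf : HasVal D (f : F) n φ) (hf0 : (f : F) ≠ 0)
  (hdvd : ∀ v : Place K F, (p : ℤ) ∣ v.ord (f : F))
  (hspan : ∀ a : ℕ, SpannedByFixed D p (f * Ud.U ^ a))
  (C : ι → CuspLead D P) (hC : ∀ b, (C b).b = b) (z : ι → K) (hz : ∀ b, z b ∈ D.K0)
  (hℓ : ∀ b, (C b).ℓ (f : F) = z b ^ p)
  (htwo : ∀ s i, i = (P.br s 0).1 ∨ i = (P.br s 1).1) (hconn : Connected P)

include hA hf hf0 hdvd hspan htwo in
/-- The local root data of `f`: one point per smooth place, one per node. -/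
theorem exists_localRoots {C : ι → CuspLead D P} (W : WildData P Ud C) {q : ι → ℤ} (hq : ∀ i, n i = (p : ℤ) * q i) :
    (∀ (b : Σ i, Place k (Fb i)), (∀ s j, P.br s j ≠ b) →
      ∃ L : D.redSystem.LocalRoot W.s.σ p f, L.G = 1 ∧ (∀ i, L.n i = -q i) ∧
        ∀ B, L.Reg B → B b.1 = 0 ∨ 0 ≤ b.2.ord (B b.1)) ∧
    ∀ s : S, ∃ (a : ℕ) (L : D.redSystem.LocalRoot W.s.σ p f),
      (∀ i, L.n i = -(q i + (a : ℤ) * (Ud.m i / (p : ℤ)))) ∧
      (p ∣ a → (p : ℤ) ∣ (P.br s 0).2.ord (φ (P.br s 0).1)) ∧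
      ∀ B, L.Reg B → ((∀ j, B (P.br s j).1 = 0 ∨ 0 ≤ (P.br s j).2.ord (B (P.br s j).1)) ∧
        bval (P.br s 0) B = bval (P.br s 1) B) := by
  haveI := R.isAlgClosed_residue
  have hsp : SpannedByFixed D p f := by simpa using hspan 0
  have hindiv : indivisible p (divisorOf K (f : F)) = ∅ :=
    Finset.eq_empty_of_forall_notMem fun v hv => mem_indivisible.1 hv (by simpa using hdvd v)
  -- a local root from a fibre element
  have mk : ∀ (g G : D.F0) (ng : ι → ℤ) (φg : ∀ i, Fb i) (qg : ι → ℤ), g = f * G →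
      W.s.σ G = G → HasVal D (g : F) ng φg → (∀ i, ng i = (p : ℤ) * qg i) →
      SpannedByFixed D p g → ∀ (N : ℕ) (r : ∀ i, Fb i),
      r ∈ slotFibre (R := R) (fun i => D.ϖ ^ qg i) (rootSp p (N • R.poleX) (g : F)) →
      (∀ i, r i ≠ 0) →
      ∃ L : D.redSystem.LocalRoot W.s.σ p f, L.G = G ∧ (∀ i, L.n i = -qg i) ∧
        L.ub = (fun i => r i ^ p * φg i) ∧
        ∀ B, L.Reg B → (fun i => B i * (r i ^ p * φg i)) ∈ R.spFibre (R.polarSp (p * N)) := by
    intro g G ng φg qg hgG hσG hg hqg hspg N r hr hr0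
    obtain ⟨ψ, hψ1, hψ2, hψ3⟩ := exists_root hA g hg hqg hspg hr
    have e : ψ ^ p * f * G = ψ ^ p * g := by rw [hgG, mul_assoc]
    exact ⟨{
      L := fixedSub D (R.polarSp (p * N))
      W := R.spFibre (R.polarSp (p * N))
      red_L := fun x hx B hB => red_mem_spFibre hx hB
      ψ := ψ
      G := G
      map_G := hσG
      n := fun i => -qg i
      ψ_val := fun i => ⟨r i, hr0 i, by simpa using hψ1 i⟩
      ub := fun i => r i ^ p * φg i
      ub_ne_zero := fun i => mul_ne_zero (pow_ne_zero _ (hr0 i)) (hg.ne_zero i)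
      lead_u := fun i => by rw [e]; exact hψ2 i
      mem_L := by rw [e]; exact hψ3
      map_mem_L := by rw [e]; exact W.s.map_polar _ _ hψ3 }, rfl, fun i => rfl, rfl,
      fun B hB => hB⟩
  refine ⟨?_, ?_⟩
  · rintro ⟨i, v⟩ hv
    have hd : ∀ l, (D.ϖ ^ q l) ^ p * (D.ϖ ^ n l)⁻¹ = 1 := fun l => by
      rw [← zpow_natCast (D.ϖ ^ q l) p, ← zpow_mul, mul_comm (q l) (p : ℤ), ← hq l,
        mul_inv_cancel₀ (zpow_ne_zero _ D.ϖ_ne_zero)]
    obtain ⟨⟨N₁, hN₁⟩, -, hsm⟩ := exists_slotFibre_eq (p := p) hA P hf0 hf.slot hf.ne_zero hd ∅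
      (fun b hb => absurd hb (by simp)) (by rw [hindiv]; exact Nat.zero_le _)
    obtain ⟨N₂, hN₂⟩ := exists_mem_rootFibre_exact (p := p) P φ hf.ne_zero
    obtain ⟨r, hr, hr0, hord⟩ := hN₂ (max N₁ N₂) (le_max_right _ _) i v hv
      (hsm ⟨i, v⟩ (by simp) hv)
    rw [← hN₁ _ (le_max_left _ _)] at hr
    obtain ⟨L, hG, hn, -, hreg⟩ := mk f 1 n φ q (mul_one f).symm (map_one _) hf hq hsp _ r hr hr0
    refine ⟨L, hG, hn, fun B hB => ?_⟩
    have h1 := R.spFibre_polar_le _ (hreg B hB)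
    rcases eq_or_ne (B i) 0 with h0 | h0
    · exact Or.inl h0
    refine Or.inr ?_
    have h2 := (R.mem_polarFibre_iff_ord.1 h1 i v).resolve_left
      (mul_ne_zero h0 (mul_ne_zero (pow_ne_zero _ (hr0 i)) (hf.ne_zero i)))
    rw [v.ord_mul h0 (mul_ne_zero (pow_ne_zero _ (hr0 i)) (hf.ne_zero i)), hord] at h2
    push_cast at h2
    show 0 ≤ v.ord (B i)
    linarith
  · intro s
    -- the exponent
    obtain ⟨a, ha, hga⟩ : ∃ a : ℕ, (p ∣ a → (p : ℤ) ∣ (P.br s 0).2.ord (φ (P.br s 0).1)) ∧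
        ((a = 0 ∧ (p : ℤ) ∣ (P.br s 0).2.ord (φ (P.br s 0).1)) ∨
          (¬ p ∣ a ∧ (p : ℤ) ∣ (P.br s 0).2.ord ((φ * Ud.ub ^ a) (P.br s 0).1))) := by
      by_cases hs : (p : ℤ) ∣ (P.br s 0).2.ord (φ (P.br s 0).1)
      · exact ⟨0, fun _ => hs, Or.inl ⟨rfl, hs⟩⟩
      · obtain ⟨a, ha, hga⟩ := exists_exponent hA P Ud f hf hf0 hdvd hs
        exact ⟨a, fun h => absurd h ha, Or.inr ⟨ha, hga⟩⟩
    set g : D.F0 := f * Ud.U ^ a with hg_def
    have hg : HasVal D (g : F) (n + fun i => (a : ℤ) * Ud.m i) (φ * Ud.ub ^ a) := by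
      rw [hg_def, Subfield.coe_mul, SubmonoidClass.coe_pow]; exact hf.mul (Ud.hasVal.pow a)
    set qg : ι → ℤ := fun i => q i + (a : ℤ) * (Ud.m i / (p : ℤ)) with hqg_def
    have hqg : ∀ i, (n + fun i => (a : ℤ) * Ud.m i) i = (p : ℤ) * qg i := fun i => by
      simp only [Pi.add_apply, hqg_def, hq i]
      conv_lhs => rw [← Int.mul_ediv_cancel' (W.m_dvd i)]
      ring
    have hd : ∀ l, (D.ϖ ^ qg l) ^ p * (D.ϖ ^ (n + fun i => (a : ℤ) * Ud.m i) l)⁻¹ = 1 :=
      fun l => by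
        rw [← zpow_natCast (D.ϖ ^ qg l) p, ← zpow_mul, mul_comm (qg l) (p : ℤ), ← hqg l,
          mul_inv_cancel₀ (zpow_ne_zero _ D.ϖ_ne_zero)]
    have hg0 : (g : F) ≠ 0 := by
      rw [hg_def, Subfield.coe_mul, SubmonoidClass.coe_pow]
      exact mul_ne_zero hf0 (pow_ne_zero _ Ud.ne_zero)
    obtain ⟨T, hT, hsep, hdv⟩ : ∃ T : Finset (Σ i, Place k (Fb i)),
        (∀ b ∈ T, ¬ (p : ℤ) ∣ b.2.ord ((φ * Ud.ub ^ a) b.1) ∧ ∀ s j, P.br s j ≠ b) ∧
        (indivisible p (divisorOf K (g : F))).card ≤ T.card ∧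
        (p : ℤ) ∣ (P.br s 0).2.ord ((φ * Ud.ub ^ a) (P.br s 0).1) := by
      rcases hga with ⟨ha0, hs⟩ | ⟨hna, hga'⟩
      · refine ⟨∅, fun b hb => absurd hb (by simp), ?_, by simpa [ha0] using hs⟩
        rw [hg_def, ha0, pow_zero, mul_one, hindiv]
        exact Nat.zero_le _
      · exact ⟨Ud.T, mem_T_mul_pow hA P Ud f hf hf0 hdvd hna,
          card_indivisible_mul_pow P Ud f hf0 hdvd a, hga'⟩
    obtain ⟨⟨N₁, hN₁⟩, hsides, -⟩ :=
      exists_slotFibre_eq (p := p) hA P hg0 hg.slot hg.ne_zero hd T hT hsep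
    obtain ⟨N₂, hN₂⟩ := exists_mem_rootFibre_node (p := p) P _ hg.ne_zero
    obtain ⟨r, hr, hr1⟩ := hN₂ (max N₁ N₂) (le_max_right _ _) s fun j => hsides s 0 j hdv
    have hval : ∀ j, bval (P.br s j) (fun i => r i ^ p * (φ * Ud.ub ^ a) i) ≠ 0 :=
      fun j => (hr1 s j).2 rfl
    have hr0 : ∀ i, r i ≠ 0 := fun i h0 => by
      rcases htwo s i with h | h
      · subst h
        refine hval 0 ?_
        simp only [bval, h0, zero_pow hp.out.ne_zero, zero_mul, placeValue_zero]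
      · subst h
        refine hval 1 ?_
        simp only [bval, h0, zero_pow hp.out.ne_zero, zero_mul, placeValue_zero]
    rw [← hN₁ _ (le_max_left _ _)] at hr
    obtain ⟨L, -, hn, -, hreg⟩ :=
      mk g (Ud.U ^ a) _ _ qg rfl (by rw [map_pow, W.map_U]) hg hqg (hspan a) _ r hr hr0
    refine ⟨a, L, hn, ha, fun B hB => ?_⟩
    have h1 := R.spFibre_polar_le _ (hreg B hB)
    have hregj : ∀ j, B (P.br s j).1 = 0 ∨ 0 ≤ (P.br s j).2.ord (B (P.br s j).1) := fun j => by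
      rcases eq_or_ne (B (P.br s j).1) 0 with h0 | h0
      · exact Or.inl h0
      refine Or.inr ?_
      have h2 := ord_nonneg_of_mem (P.br s j).2 (mem_node_of_polarFibre (P := P) h1 s j)
      have hm := mem_branch (p := p) (φ := φ * Ud.ub ^ a) (b := P.br s j)
        ((hN₁ _ (le_max_left N₁ N₂) ▸ hr).1) (P.regular s j)
      obtain ⟨hne, hord0⟩ := (placeValue_ne_zero_iff _ hm).1 (hval j)
      rw [(P.br s j).2.ord_mul h0 hne, hord0, add_zero] at h2
      exact h2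
    refine ⟨hregj, ?_⟩
    have h2 := glued_of_mem_spFibre (P := P) (hreg B hB) s
    have hBm : ∀ j, B (P.br s j).1 ∈ (P.br s j).2.toValuationSubring :=
      fun j => mem_of_zero_or_le _ (hregj j)
    have hm : ∀ j, r (P.br s j).1 ^ p * (φ * Ud.ub ^ a) (P.br s j).1
        ∈ (P.br s j).2.toValuationSubring := fun j =>
      mem_branch ((hN₁ _ (le_max_left N₁ N₂) ▸ hr).1) (P.regular s j)
    simp only [bval] at h2 ⊢
    rw [placeValue_mul _ (hBm 0) (hm 0), placeValue_mul _ (hBm 1) (hm 1)] at h2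
    have h3 := (hN₁ _ (le_max_left N₁ N₂) ▸ hr).2 s
    simp only [bval] at h3
    rw [← h3] at h2
    exact mul_right_cancel₀ (hval 0) h2

include hA hf hf0 hdvd hspan hC hz hℓ htwo hconn in
/-- The wild component step. -/
theorem dvd_ord_node_of_wild [Nonempty S] (W : WildData P Ud C) (hn : ∀ b, (p : ℤ) ∣ n b) (t : S) :
    (p : ℤ) ∣ (P.br t 0).2.ord (φ (P.br t 0).1) := by
  classical
  haveI := R.isAlgClosed_residue
  haveI : Nonempty ι := R.nonempty
  set q : ι → ℤ := fun i => n i / (p : ℤ) with hq_def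
  have hq : ∀ i, n i = (p : ℤ) * q i := fun i => (Int.mul_ediv_cancel' (hn i)).symm
  obtain ⟨hsm, hnd⟩ := exists_localRoots hA P Ud f hf hf0 hdvd hspan htwo W hq
  choose Ls hLs1 hLsn hLsreg using hsm
  choose a Ln hLnn hLna hLnreg using hnd
  let Dt : {b : Σ i, Place k (Fb i) // ∀ s j, P.br s j ≠ b} ⊕ S →
      D.redSystem.LocalRoot W.s.σ p f := Sum.elim (fun b => Ls b.1 b.2) Ln
  have hregular : ∀ B : ∀ b, Fb b, (∀ x, (Dt x).Reg B) →
      ∀ i (v : Place k (Fb i)), B i = 0 ∨ 0 ≤ v.ord (B i) := by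
    intro B hB i v
    by_cases hv : ∀ s j, P.br s j ≠ ⟨i, v⟩
    · exact hLsreg ⟨i, v⟩ hv B (hB (Sum.inl ⟨_, hv⟩))
    · push Not at hv
      obtain ⟨s, j, hsj⟩ := hv
      have h1 := (hLnreg s B (hB (Sum.inr s))).1 j
      rw [hsj] at h1
      exact h1
  obtain ⟨κ, hκ, Cc, hκ1, hlead, hregC⟩ :=
    RedSystem.exists_component_const (S := D.redSystem) Dt hp.out W.lead_p W.j_pos W.lt W.lead_π W.expand
      (fun b => ⟨n b, φ b, hf.ne_zero b, hf.lead b⟩)
      (fun B hB => by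
        choose c hc using fun i => exists_const_of_ord_nonneg (f := B i)
          fun h0 v => ((hregular B hB i v).resolve_left h0)
        obtain rfl : (fun i => algebraMap k (Fb i) (c i)) = B := funext hc
        exact ⟨c (Classical.arbitrary ι), fun i => congrArg _ (eq_of_glued_const (P := P) hconn
          (c := c) (fun s => (hLnreg s _ (hB (Sum.inr s))).2) i _)⟩)
      (fun B hB => by
        have hreg : ∀ i (v : Place k (Fb i)), B i ≠ 0 → 0 ≤ v.ord (B i) := by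
          intro i v h0
          have hmem : B i ∈ v.toValuationSubring := by
            by_cases hv : ∀ s j, P.br s j ≠ ⟨i, v⟩
            · obtain ⟨d, hd⟩ := hB (Sum.inl ⟨_, hv⟩)
              have h1 := mem_of_zero_or_le v (hLsreg ⟨i, v⟩ hv _ hd)
              simp only [Pi.add_apply] at h1
              simpa [RedSystem.constTuple] using sub_mem h1 (v.algebraMap_mem' (d i))
            · push Not at hv
              obtain ⟨s, j, hsj⟩ := hv
              obtain ⟨d, hd⟩ := hB (Sum.inr s)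
              have h1 := mem_of_zero_or_le _ ((hLnreg s _ hd).1 j)
              rw [hsj] at h1
              simp only [Pi.add_apply] at h1
              simpa [RedSystem.constTuple] using sub_mem h1 (v.algebraMap_mem' (d i))
          exact ord_nonneg_of_mem v hmem
        choose c hc using fun i => exists_const_of_ord_nonneg (f := B i) fun h0 v => hreg i v h0
        exact ⟨c, fun i => (hc i).symm⟩)
  set E : ι → k := fun b => Cc b + (((-q b : ℤ) : k) * W.c0) ^ p with hE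
  -- the two cusps
  have hcusp : ∀ b, (D.redSystem.R b).Lead (p * W.j) (κ⁻¹ - 1) (algebraMap k (Fb b) (E b)) := by
    intro b
    set C₀ := C b with hC₀
    obtain ⟨ρ, hρ⟩ := IsAlgClosed.exists_pow_nat_eq D.ϖ hp.out.pos
    have hsp : SpannedByFixed D p f := by simpa using hspan 0
    have hd : ∀ l, (D.ϖ ^ q l) ^ p * (D.ϖ ^ n l)⁻¹ = 1 := fun l => by
      rw [← zpow_natCast (D.ϖ ^ q l) p, ← zpow_mul, mul_comm (q l) (p : ℤ), ← hq l,
        mul_inv_cancel₀ (zpow_ne_zero _ D.ϖ_ne_zero)]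
    obtain ⟨⟨N₁, hN₁⟩, -, hsm'⟩ := exists_slotFibre_eq (p := p) hA P hf0 hf.slot hf.ne_zero hd ∅
      (fun b hb => absurd hb (by simp)) (by
        rw [show indivisible p (divisorOf K (f : F)) = ∅ from
          Finset.eq_empty_of_forall_notMem fun v hv =>
            mem_indivisible.1 hv (by simpa using hdvd v)]
        exact Nat.zero_le _)
    obtain ⟨N₂, hN₂⟩ := exists_mem_rootFibre_smooth (p := p) P φ hf.ne_zero
    set N := max N₁ N₂ with hN
    obtain ⟨r, hr, hr0⟩ := hN₂ N (le_max_right _ _) ⟨C₀.b, C₀.v⟩ C₀.regular C₀.smooth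
      (hsm' _ (by simp) C₀.smooth)
    rw [← hN₁ N (le_max_left _ _)] at hr
    obtain ⟨ψ, hψ1, hψ2, hψ3⟩ := exists_root hA f hf hq hsp hr
    set u : D.F0 := ψ ^ p * f with hu
    obtain ⟨huV, huφ⟩ := D.lead_zero_iff.1 (hψ2 C₀.b)
    set uv := placeValue C₀.v (r C₀.b ^ p * φ C₀.b) with huv
    have huv0 : uv ≠ 0 := hr0
    obtain ⟨hℓA, hℓval, hℓ1⟩ := C₀.ℓ_unit hψ3 (h := huV) (by rw [huφ]; exact huv0)
    have hψ0 : (ψ : F) ≠ 0 := fun h0 => huv0 (by
      have h := (hψ2 C₀.b).unique (B' := 0) (by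
        rw [hu, show ψ = 0 from Subtype.ext h0, zero_pow hp.out.ne_zero, zero_mul]
        exact UnifRed.lead_zero_zero 0)
      rw [huv, h, placeValue_zero])
    set y : D.K0 := ⟨C₀.ℓ ψ * z b, mul_mem (C₀.ℓ_fixed ψ.2) (hz b)⟩ with hy
    have hℓu : C₀.ℓ (u : F) = (y : K) ^ p := by
      rw [hu, Subfield.coe_mul, SubmonoidClass.coe_pow, C₀.ℓ_mul (pow_ne_zero _ hψ0) hf0,
        C₀.ℓ_pow hψ0, hℓ b, hy, mul_pow]
    have hy1 : A.valuation (y : K) = 1 := by
      have h := hℓ1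
      rw [hℓu, map_pow] at h
      exact (pow_eq_one_iff.1 h).resolve_right hp.out.ne_zero
    have hyA : (y : K) ∈ A := (A.valuation_le_one_iff _).1 hy1.le
    set Y : D.F0 := D.constHom (y ^ p) with hY
    have hYA : ((y ^ p : D.K0) : K) ∈ A := by push_cast; exact A.pow_mem hyA p
    have hℓu' : (⟨C₀.ℓ (u : F), hℓA⟩ : A) = ⟨((y ^ p : D.K0) : K), hYA⟩ :=
      Subtype.ext (by push_cast; exact hℓu)
    have hYlead : ∀ i, (D.redSystem.R i).Lead 0 Y (algebraMap k (Fb i) uv) := fun i => by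
      have h := D.lead_const (a := ⟨((y ^ p : D.K0) : K), hYA⟩) (y ^ p).2 i
      rw [show uv = R.π ⟨((y ^ p : D.K0) : K), hYA⟩ by rw [← hℓu', hℓval, huφ]]
      exact h
    -- `σ y / y` is a `p`-th power of something close to `1`
    have hy0 : y ≠ 0 := fun h0 => by rw [h0] at hy1; simp at hy1
    have hσy : (D.redSystem.R b).Lead (p * W.j) (W.s.σ Y / Y - 1) 0 := by
      set w := W.s.σ (D.constHom y) / D.constHom y with hw
      have hcy : D.constHom y ≠ 0 := (map_ne_zero D.constHom).2 hy0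
      have hylead : (D.redSystem.R b).Lead 0 (D.constHom y)
          (algebraMap k (Fb b) (R.π ⟨y, hyA⟩)) := D.lead_const (a := ⟨y, hyA⟩) y.2 b
      have hyne : algebraMap k (Fb b) (R.π ⟨y, hyA⟩) ≠ 0 := by
        refine (map_ne_zero _).2 fun h => ?_
        rw [R.π_eq_zero_iff_mem, ← ValuationSubring.coe_mem_nonunits_iff, A.mem_nonunits_iff] at h
        exact h.ne hy1
      have hz1 : (D.redSystem.R b).Div (W.j + 1) (w - 1) := by
        obtain ⟨c, hc⟩ := W.expand b _ hylead.div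
        obtain ⟨c', hc'⟩ := (hylead.inv hyne).div
        refine ⟨c * c', ?_⟩
        rw [hw, div_sub_one hcy, div_eq_mul_inv, hc, hc', pow_zero, one_mul, mul_assoc]
        rfl
      have h := UnifRed.lead_pow_sub_one hp.out (W.lead_p b) W.j_pos
        (hz1.lead_zero (Nat.lt_succ_self _)) (p * W.j) le_rfl W.lt.le
      rw [if_pos rfl, if_neg W.lt.ne, zero_pow hp.out.ne_zero,
        add_zero, add_sub_cancel] at h
      convert h using 1
      rw [hY, map_pow, hw, map_pow, div_pow]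
    -- the residue of `σ u / κ - u`
    have hfσ : (D.redSystem.R C₀.b).Lead (p * W.j) (W.s.σ u / κ - u)
        (algebraMap k (Fb C₀.b) (E C₀.b) * (r C₀.b ^ p * φ C₀.b)) := by
      have hψne : r C₀.b ≠ 0 := fun h0 => huv0 (by
        rw [huv, h0, zero_pow hp.out.ne_zero, zero_mul, placeValue_zero])
      have hz' := UnifRed.lead_map_div_sub_one W.s.σ W.j_pos (W.lead_π C₀.b) (W.expand C₀.b)
        (n := -q C₀.b) (by simpa using hψ1 C₀.b) hψne
      have h1 := UnifRed.lead_pow_sub_one hp.out (W.lead_p C₀.b) W.j_pos hz' (p * W.j) le_rfl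
        W.lt.le
      rw [if_pos rfl, if_neg W.lt.ne, add_zero, add_sub_cancel] at h1
      have h2 := (h1.sub_one_mul (Nat.mul_pos hp.out.pos W.j_pos) (hlead C₀.b)).mul (hψ2 C₀.b)
      rw [add_zero] at h2
      convert h2 using 1
      · have hψ0' : ψ ≠ 0 := fun h => hψ0 (congrArg Subtype.val h)
        have hf0' : f ≠ 0 := fun h => hf0 (congrArg Subtype.val h)
        rw [hu, map_mul, map_pow, div_pow]
        field_simp
      · simp only [hE, map_add, map_pow, map_mul, map_intCast]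
        ring
    obtain ⟨c, hc, hcred⟩ := hfσ
    -- evaluate at the cusp
    obtain ⟨κ', hκ'⟩ := hκ
    have hκ'0 : (κ' : K) ≠ 0 := fun h0 => by
      refine (hκ1 b).ne_zero one_ne_zero ?_
      rw [← hκ', show κ' = 0 from Subtype.ext h0, map_zero]
    have hσu : ((W.s.σ u : D.F0) : F) ∈ R.polarSp (p * N) := W.s.map_polar _ _ hψ3
    have hc' : ((c.1 : D.F0) : F)
        = (D.ϖ ^ (p * W.j))⁻¹ • ((κ' : K)⁻¹ • ((W.s.σ u : D.F0) : F) - (u : F)) := by
      have h := congrArg Subtype.val hc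
      simp only [Subfield.coe_sub, Subfield.coe_mul, SubmonoidClass.coe_pow, Subfield.coe_div,
        Descent.coe_πF, ← hκ'] at h
      rw [show ((D.constHom κ' : D.F0) : F) = algebraMap K F (κ' : K) from rfl] at h
      rw [eq_inv_smul_iff₀ (pow_ne_zero _ D.ϖ_ne_zero), Algebra.smul_def, map_pow,
        Algebra.smul_def, map_inv₀, ← h, div_eq_inv_mul]
    have hcp : ((c.1 : D.F0) : F) ∈ R.polarSp (p * N) := by
      rw [hc']; exact Submodule.smul_mem _ _ (sub_mem (Submodule.smul_mem _ _ hσu) hψ3)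
    obtain ⟨hev, hevval⟩ := C₀.ev_red _ hcp c.2
    obtain ⟨hσV, hσuφ⟩ := D.lead_zero_iff.1 (W.s.lead C₀.b _ _ (hψ2 C₀.b))
    obtain ⟨hev1, hev1v⟩ := C₀.ev_red _ hσu hσV
    obtain ⟨hev2, hev2v⟩ := C₀.ev_red _ hψ3 huV
    have hev1ne : C₀.ev ((W.s.σ u : D.F0) : F) ≠ 0 := fun h0 => huv0 (by
      rw [huv, ← hσuφ, ← hev1v, show (⟨_, hev1⟩ : A) = 0 from Subtype.ext h0, map_zero])
    have hev2ne : C₀.ev (u : F) ≠ 0 := fun h0 => huv0 (by
      rw [huv, ← huφ, ← hev2v, show (⟨_, hev2⟩ : A) = 0 from Subtype.ext h0, map_zero])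
    have hevc : C₀.ev ((c.1 : D.F0) : F)
        = (D.ϖ ^ (p * W.j))⁻¹ * ((κ' : K)⁻¹ * (W.s.σK (y ^ p) : K) - ((y ^ p : D.K0) : K)) := by
      rw [hc', C₀.ev_smul _ _ (sub_mem (Submodule.smul_mem _ _ hσu) hψ3),
        C₀.ev_sub _ (Submodule.smul_mem _ _ hσu) hψ3, C₀.ev_smul _ _ hσu,
        ← C₀.ℓ_eq_ev _ hψ3 hev2ne, ← C₀.ℓ_eq_ev _ hσu hev1ne, hℓu,
        W.ℓ_map b u, show (⟨C₀.ℓ (u : F), C₀.ℓ_fixed u.2⟩ : D.K0) = y ^ p from
          Subtype.ext (by push_cast; exact hℓu)]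
      push_cast
      ring
    have hEmem : C₀.ev ((c.1 : D.F0) : F) ∈ D.K0 := by
      rw [hevc]
      exact mul_mem (inv_mem (pow_mem D.ϖ_mem _))
        (sub_mem (mul_mem (inv_mem κ'.2) (W.s.σK (y ^ p)).2) (y ^ p).2)
    have hEval : R.π ⟨_, hev⟩ = E C₀.b * uv := by
      rw [hevval]
      have hm : r C₀.b ^ p * φ C₀.b ∈ C₀.v.toValuationSubring :=
        mem_branch (b := ⟨C₀.b, C₀.v⟩) ((hN₁ N (le_max_left _ _) ▸ hr).1) C₀.regular
      refine (congrArg (placeValue C₀.v) hcred).trans ?_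
      rw [placeValue_mul _ (C₀.v.algebraMap_mem' _) hm, placeValue_algebraMap]
    have hbb : C₀.b = b := hC b
    have hfinal : (D.redSystem.R b).Lead (p * W.j) (W.s.σ Y / κ - Y)
        (algebraMap k (Fb b) (E b * uv)) := by
      obtain ⟨c2, hc2, hc2r⟩ := D.lead_const (a := ⟨_, hev⟩) hEmem b
      rw [pow_zero, one_mul] at hc2
      refine ⟨c2, ?_, hc2r.trans (by rw [hEval, hbb])⟩
      rw [← hc2]
      apply Subtype.ext
      simp only [Subfield.coe_sub, Subfield.coe_mul, SubmonoidClass.coe_pow, Subfield.coe_div,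
        Descent.coe_πF, ← hκ', hY, W.s.map_const]
      show algebraMap K F _ / algebraMap K F _ - algebraMap K F _ = _ * algebraMap K F _
      rw [show ((⟨C₀.ev ((c.1 : D.F0) : F), hEmem⟩ : D.K0) : K) = _ from hevc, ← map_pow,
        ← map_mul, ← map_div₀, ← map_sub, mul_inv_cancel_left₀
        (pow_ne_zero _ D.ϖ_ne_zero), div_eq_inv_mul]
    have huvb : algebraMap k (Fb b) uv ≠ 0 := (map_ne_zero _).2 huv0
    have hYne : Y ≠ 0 := (hYlead b).ne_zero huvb
    have h3 := hfinal.mul ((hYlead b).inv huvb)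
    rw [add_zero, map_mul, mul_assoc, mul_inv_cancel₀ huvb, mul_one] at h3
    have h4 : (D.redSystem.R b).Lead (p * W.j) (W.s.σ Y / Y / κ - 1)
        (algebraMap k (Fb b) (E b)) := by
      convert h3 using 1
      field_simp
    have h5 := h4.sub_one_mul (Nat.mul_pos hp.out.pos W.j_pos)
      (hσy.sub_one_inv (Nat.mul_pos hp.out.pos W.j_pos))
    rw [neg_zero, add_zero] at h5
    convert h5 using 1
    have hσYne : W.s.σ Y ≠ 0 := (map_ne_zero W.s.σ).2 hYne
    field_simp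
  -- the node
  by_contra ht
  have hE' : E (P.br t 0).1 = E (P.br t 1).1 := by
    obtain ⟨c, hc⟩ := D.redSystem.lead_const
      (sub_mem (inv_mem hκ) (one_mem _)) hcusp
    exact ((algebraMap k (Fb (P.br t 0).1)).injective (hc (P.br t 0).1)).trans
      ((algebraMap k (Fb (P.br t 1).1)).injective (hc (P.br t 1).1)).symm
  have hnode := (hLnreg t _ (hregC (Sum.inr t))).2
  simp only [bval, RedSystem.constTuple, placeValue_algebraMap, Dt, Sum.elim_inr, hLnn t] at hnode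
  simp only [hE] at hE'
  push_cast at hnode hE'
  simp only [neg_add, add_mul, add_pow_char] at hnode
  have h1 : (((-((a t : ℤ) * (Ud.m (P.br t 0).1 / (p : ℤ))) : ℤ) : k) * W.c0) ^ p
      = (((-((a t : ℤ) * (Ud.m (P.br t 1).1 / (p : ℤ))) : ℤ) : k) * W.c0) ^ p := by
    push_cast
    linear_combination hnode - hE'
  have h2 := mul_right_cancel₀ W.c0_ne_zero (frobenius_inj k p h1)
  have h3 : (((a t : ℤ) * (Ud.m (P.br t 0).1 / (p : ℤ) - Ud.m (P.br t 1).1 / (p : ℤ)) : ℤ) : k)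
      = 0 := by
    push_cast at h2 ⊢
    linear_combination -h2
  rw [CharP.intCast_eq_zero_iff k p] at h3
  rcases (Nat.prime_iff_prime_int.1 hp.out).dvd_or_dvd h3 with h | h
  · exact ht (hLna t (by exact_mod_cast h))
  · refine W.m_not_dvd t ?_
    have := mul_dvd_mul_left (p : ℤ) h
    rwa [mul_sub, Int.mul_ediv_cancel' (W.m_dvd _), Int.mul_ediv_cancel' (W.m_dvd _)] at this

include hA hf hf0 hdvd hspan hC hz hℓ htwo hconn in
/-- The component step: `p` divides all valuations of `f` and all orders of its reductions. -/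
theorem dvd_val_and_ord [Nonempty S]
    (hcase : (∀ t, ¬ (p : ℤ) ∣ Ud.m (P.br t 0).1 - Ud.m (P.br t 1).1) ∨ Nonempty (WildData P Ud C)) :
    (∀ b, (p : ℤ) ∣ n b) ∧ ∀ (i : ι) (v : Place k (Fb i)), (p : ℤ) ∣ v.ord (φ i) := by
  have hn := dvd_val hA P Ud f hf hf0 hdvd hspan C hC z hz hℓ htwo
  refine ⟨hn, fun i v => ?_⟩
  by_cases hv : ∀ s j, P.br s j ≠ ⟨i, v⟩
  · exact dvd_ord_of_smooth hA P f hf hf0 hdvd hv
  push Not at hv
  obtain ⟨s, j, hsj⟩ := hv
  have h0 : (p : ℤ) ∣ (P.br s 0).2.ord (φ (P.br s 0).1) := by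
    rcases hcase with h | ⟨⟨W⟩⟩
    · exact dvd_ord_node_of_not_dvd hA P Ud f hf hf0 hdvd hspan htwo hn (h s)
    · exact dvd_ord_node_of_wild hA P Ud f hf hf0 hdvd hspan C hC z hz hℓ htwo hconn W hn s
  obtain ⟨ρ, hρ⟩ := IsAlgClosed.exists_pow_nat_eq D.ϖ hp.out.pos
  obtain ⟨-, h, -⟩ := exists_slotFibre_eq (p := p) hA P hf0 hf.slot hf.ne_zero
    (d := fun i => ρ ^ n i) (fun i => by
      rw [← zpow_natCast (ρ ^ n i) p, ← zpow_mul, mul_comm (n i) (p : ℤ), zpow_mul, zpow_natCast,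
        hρ, mul_inv_cancel₀ (zpow_ne_zero _ D.ϖ_ne_zero)])
    ∅ (fun b hb => absurd hb (by simp))
    (by
      rw [show indivisible p (divisorOf K (f : F)) = ∅ from
        Finset.eq_empty_of_forall_notMem fun v hv => mem_indivisible.1 hv (by simpa using hdvd v)]
      exact Nat.zero_le _)
  have h1 := h s 0 j h0
  rw [hsj] at h1
  exact h1

end Fermat.Agent.MazurPrinciple.Move

end
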