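/-
Mazur's principle at `p`: if the reductions of `f` are `p`-th powers, `f` is congruent to `p`-th
powers of fixed functions on the components (`RootData`), the input of the threshold step.
-/
import Fermat.Agent.MP.SecondComponentBridge

set_option autoImplicit false

noncomputable section

namespace Fermat.Agent.MazurPrinciple.Move

open AlgebraicCurve IntermediateField Fermat.Agent.Curve Fermat.Agent.Curve.RedAux
open Fermat.Agent.Bad Fermat.Agent.Bad.MultiReduction Fermat.Agent.Ribet.Slot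

universe uK uι uk uFb uS

variable {K : Type uK} [Field K] {A : ValuationSubring K}
  {F : Type uK} [Field F] [Algebra K F] {ι : Type uι} [Fintype ι]
  {k : Type uk} [Field k] {Fb : ι → Type uFb} [∀ i, Field (Fb i)] [∀ i, Algebra k (Fb i)]
  [IsAlgClosed K] [IsFunctionFieldOne K F] [∀ i, IsFunctionFieldOne k (Fb i)]
  {R : MultiReduction A F k Fb} {D : Descent R} {S : Type uS} [Fintype S]
  {p : ℕ} [hp : Fact p.Prime] [CharP k p]

/-- A presentation `f ≡ h ^ p` exists when the valuations are divisible by `p` and the reductions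
are `p`-th powers. -/
theorem exists_rootData (hA : RankLeOne A) (P : NodePairs R S) (f : D.F0) {n : ι → ℤ}
    {φ : ∀ i, Fb i} (hf : HasVal D (f : F) n φ) (hf0 : (f : F) ≠ 0)
    (hdvd : ∀ v : Place K F, (p : ℤ) ∣ v.ord (f : F)) (hspan : SpannedByFixed D p f)
    (hn : ∀ i, (p : ℤ) ∣ n i) (hpow : ∀ i, ∃ G : Fb i, φ i = G ^ p) :
    ∃ h : ι → D.F0, Nonempty (RootData D p h f) := by
  haveI := R.isAlgClosed_residue
  choose G hG using hpow
  choose q hq using hn
  have hG0 : ∀ i, G i ≠ 0 := fun i h0 => hf.ne_zero i (by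
    rw [hG i, h0, zero_pow hp.out.ne_zero])
  have hd : ∀ l, (D.ϖ ^ q l) ^ p * (D.ϖ ^ n l)⁻¹ = 1 := fun l => by
    rw [← zpow_natCast (D.ϖ ^ q l) p, ← zpow_mul, mul_comm (q l) (p : ℤ), ← hq l,
      mul_inv_cancel₀ (zpow_ne_zero _ D.ϖ_ne_zero)]
  obtain ⟨⟨N, hN⟩, -, -⟩ := exists_slotFibre_eq (p := p) hA P hf0 hf.slot hf.ne_zero hd ∅
    (fun b hb => absurd hb (by simp)) (by
      rw [show indivisible p (divisorOf K (f : F)) = ∅ from
        Finset.eq_empty_of_forall_notMem fun v hv => mem_indivisible.1 hv (by simpa using hdvd v)]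
      exact Nat.zero_le _)
  set r : ∀ i, Fb i := fun i => (G i)⁻¹ with hr
  have he : (fun i => r i ^ p * φ i) = 1 := funext fun i => by
    rw [hr, hG i, inv_pow, inv_mul_cancel₀ (pow_ne_zero _ (hG0 i))]; rfl
  have hmem : r ∈ rootFibre P p φ N := by
    refine ⟨mem_rootPolar.2 fun i => ?_, fun s => ?_⟩
    · rw [mem_rootSp_iff hp.out.pos (inv_ne_zero (hG0 i)) (hf.ne_zero i)]
      rw [show r i ^ p * φ i = 1 from congrFun he i]
      exact one_mem_L (Finsupp.le_def.2 fun v => by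
        simp only [Finsupp.zero_apply, Finsupp.smul_apply, poleDivisor_apply, nsmul_eq_mul]
        positivity)
    · rw [he]; simp [bval, placeValue_one]
  rw [← hN N le_rfl] at hmem
  obtain ⟨ψ, hψ1, -, -⟩ := exists_root hA f hf hq hspan hmem
  have hr0 : ∀ i, r i ≠ 0 := fun i => inv_ne_zero (hG0 i)
  refine ⟨fun i => D.constHom ⟨D.ϖ ^ q i, zpow_mem D.ϖ_mem _⟩ * (ψ * D.πF ^ q i)⁻¹,
    ⟨{
      d := fun i => D.ϖ ^ q i
      d_mem := fun i => zpow_mem D.ϖ_mem _
      d_ne_zero := fun i => zpow_ne_zero _ D.ϖ_ne_zero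
      L := fun i => (ψ * D.πF ^ q i)⁻¹
      G := G
      G_ne_zero := hG0
      lead_L := fun i => by
        have := (hψ1 i).inv (hr0 i)
        rwa [hr, inv_inv] at this
      h_eq := fun i => rfl
      lead_f := fun i => ?_ }⟩⟩
  have h1 := ((hψ1 i).pow p).mul (hf.lead i)
  rw [Nat.zero_mul, add_zero, show r i ^ p * φ i = 1 from congrFun he i] at h1
  convert h1 using 1
  have hπ : D.πF ≠ 0 := (D.redSystem.R i).π_ne_zero
  have hc : D.constHom ⟨D.ϖ ^ q i, zpow_mem D.ϖ_mem _⟩ = D.πF ^ q i := by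
    have : (⟨D.ϖ ^ q i, zpow_mem D.ϖ_mem _⟩ : D.K0) = (⟨D.ϖ, D.ϖ_mem⟩ : D.K0) ^ q i :=
      Subtype.ext (map_zpow₀ D.K0.subtype ⟨D.ϖ, D.ϖ_mem⟩ (q i)).symm
    rw [this, map_zpow₀]
    rfl
  rw [hc, hq i, mul_pow, mul_pow, inv_pow, mul_pow, ← zpow_natCast (D.πF ^ q i) p, ← zpow_mul,
    zpow_neg, mul_comm (p : ℤ) (q i)]
  have hz : D.πF ^ (q i * (p : ℤ)) ≠ 0 := zpow_ne_zero _ hπ
  field_simp

end Fermat.Agent.MazurPrinciple.Move

end
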