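/-
Mazur's principle at `p`: the inertia data of `X₀(Mq)` for the component step and for the twist,
from the local data of `E[q]`.
-/
import Fermat.Agent.MP.SecondComponentBridge
import Fermat.Agent.MazurPrinciple.Reps
import Fermat.Agent.MazurPrinciple.LocalData
import Fermat.Agent.MazurPrinciple.X0Cusps
import Fermat.Agent.MazurPrinciple.CriterionRoots

set_option autoImplicit false
set_option linter.style.haveILetI false
set_option synthInstance.maxHeartbeats 200000
set_option maxHeartbeats 1000000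

noncomputable section

namespace Fermat.Agent.MazurPrinciple

open ModularCurve AlgebraicCurve IsLocalRing
open Fermat.Agent.BadReduction

local notation "ℚbar" => AlgebraicClosure ℚ
local notation "Γℚ" => AlgebraicClosure ℚ ≃ₐ[ℚ] AlgebraicClosure ℚ

namespace Move

universe uK uF uι uk uFb

variable {K : Type uK} [Field K] {A : ValuationSubring K}
  {F : Type uF} [Field F] [Algebra K F] {ι : Type uι} [Fintype ι]
  {k : Type uk} [Field k] {Fb : ι → Type uFb} [∀ i, Field (Fb i)] [∀ i, Algebra k (Fb i)]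
  {R : Bad.MultiReduction A F k Fb}

/-- The leading datum of a fixed constant divisible by `ϖ ^ i`. -/
theorem Descent.lead_constHom (D : Descent R) (a : D.K0) {i : ℕ} (h : (a : K) / D.ϖ ^ i ∈ A)
    (b : ι) :
    (D.redSystem.R b).Lead i (D.constHom a) (algebraMap k (Fb b) (R.π ⟨_, h⟩)) := by
  have h0 := (UnifRed.lead_π_pow (R := D.redSystem.R b) i).mul
    (D.lead_const (a := ⟨_, h⟩) (div_mem a.2 (pow_mem D.ϖ_mem i)) b)
  rw [one_mul, add_zero] at h0
  convert h0 using 1
  refine Subtype.ext ?_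
  simp only [Subfield.coe_mul, SubmonoidClass.coe_pow, Descent.coe_πF]
  show algebraMap K F (a : K) = algebraMap K F D.ϖ ^ i * algebraMap K F _
  rw [← map_pow, ← map_mul, mul_div_cancel₀ _ (pow_ne_zero _ D.ϖ_ne_zero)]

end Move

/-- Galois on the leading coefficient of an expansion. -/
theorem leadingCoeff_coeffMap_galois (σ : Γℚ) (y : LaurentSeries ℚbar) :
    (coeffMap (σ : ℚbar →+* ℚbar) y).leadingCoeff = σ y.leadingCoeff := by
  rcases eq_or_ne y 0 with rfl | hy
  · simp
  have hc : ∀ n, (coeffMap (σ : ℚbar →+* ℚbar) y).coeff n = σ (y.coeff n) := fun n => by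
    rw [coeffMap_coeff]; rfl
  have hne : coeffMap (σ : ℚbar →+* ℚbar) y ≠ 0 := fun h => hy (HahnSeries.ext (funext fun n => by
    have := hc n
    rw [h, HahnSeries.coeff_zero] at this
    simpa using this.symm))
  have ho : (coeffMap (σ : ℚbar →+* ℚbar) y).order = y.order := by
    refine le_antisymm (HahnSeries.order_le_of_coeff_ne_zero ?_)
      (HahnSeries.order_le_of_coeff_ne_zero fun h => ?_)
    · rw [hc, map_ne_zero]
      exact fun h => hy (HahnSeries.coeff_order_eq_zero.1 h)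
    · refine hne (HahnSeries.coeff_order_eq_zero.1 ?_)
      rw [hc, h, map_zero]
  rw [HahnSeries.leadingCoeff_eq, HahnSeries.leadingCoeff_eq, ho, hc]

section

variable {M q : ℕ} [NeZero M] [hq : Fact q.Prime]

local instance neZero_prime_inertial : NeZero q := ⟨hq.out.ne_zero⟩

variable (hqM : ¬ q ∣ M) {A : ValuationSubring ℚbar} (hA : A.LiesOverPrime q) {H : Subgroup Γℚ}
  {π : ℚbar} {n : ℕ} {σ : Γℚ}

/-- The divided difference of an integral series under `σ`. -/
theorem exists_galois_sub (hπ0 : π ≠ 0)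
    (hwild : ∀ a ∈ A, IsFixedBy H a → (σ a - a) / π ^ n ∈ A) (y : LaurentSeries A)
    (hy : IsFixedSeries H (coeffMap A.subtype y)) :
    ∃ w : LaurentSeries A, coeffMap (σ : ℚbar →+* ℚbar) (coeffMap A.subtype y)
      = coeffMap A.subtype y + HahnSeries.single 0 (π ^ n) * coeffMap A.subtype w := by
  have hfix : ∀ m, IsFixedBy H (y.coeff m : ℚbar) := fun m => by
    have h := isFixedSeries_iff.1 hy m
    rwa [coeffMap_coeff] at h
  refine ⟨⟨fun m => ⟨_, hwild _ (y.coeff m).2 (hfix m)⟩,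
    y.isPWO_support.mono fun m hm h0 => hm (Subtype.ext (by simp [h0]))⟩, ?_⟩
  ext m
  rw [coeffMap_coeff, coeffMap_coeff, HahnSeries.coeff_add, HahnSeries.coeff_single_zero_mul,
    coeffMap_coeff, coeffMap_coeff]
  show σ (y.coeff m : ℚbar) = (y.coeff m : ℚbar) + π ^ n * ((σ (y.coeff m : ℚbar) - y.coeff m) / π ^ n)
  rw [mul_div_cancel₀ _ (pow_ne_zero _ hπ0), add_sub_cancel]

omit [NeZero M] hq in
/-- A function on the component through `∞` times an element of the maximal ideal has zero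
reduction. -/
theorem infV_false_of_scaled {f : X0F M q} (hfV : f ∈ infV M q A) {r : A} (hr : residue A r = 0)
    {y z : LaurentSeries A} (hy : coeffMap (residue A) y ≠ 0)
    (e : HahnSeries.single 0 (r : ℚbar) * (f : LaurentSeries ℚbar) * coeffMap A.subtype z
      = coeffMap A.subtype y) : False := by
  obtain ⟨y₁, y₂, hy₂, e₂'⟩ := id hfV
  have e₂ : (f : LaurentSeries ℚbar) * coeffMap A.subtype y₂ = coeffMap A.subtype y₁ := e₂'
  have h1 : coeffMap A.subtype (HahnSeries.single 0 r * y₁ * z) = coeffMap A.subtype (y * y₂) := by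
    rw [map_mul, map_mul, map_mul, coeffMap_single, ← e, show A.subtype r = (r : ℚbar) from rfl]
    linear_combination (HahnSeries.single 0 (r : ℚbar) * coeffMap A.subtype z) * e₂.symm
  have h2 : HahnSeries.single 0 r * y₁ * z = y * y₂ := by
    ext n
    have := congrArg (fun w : LaurentSeries ℚbar => w.coeff n) h1
    simp only [coeffMap_coeff] at this
    exact this
  have h3 := congrArg (coeffMap (residue A)) h2
  rw [map_mul, map_mul, map_mul, coeffMap_single, hr, map_zero, zero_mul, zero_mul] at h3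
  exact mul_ne_zero hy hy₂ h3.symm

/-- A fixed function on the component through `∞` is a quotient of fixed integral series with
primitive denominator. -/
theorem exists_fixed_integral_quotient {f : X0F M q} (hf : f ∈ fixedFun H M q)
    (hfV : f ∈ infV M q A) :
    ∃ y z : LaurentSeries A, IsFixedSeries H (coeffMap A.subtype y) ∧
      IsFixedSeries H (coeffMap A.subtype z) ∧ coeffMap (residue A) z ≠ 0 ∧
      (f : LaurentSeries ℚbar) * coeffMap A.subtype z = coeffMap A.subtype y := by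
  have hsingle : ∀ c : ℚbar, IsFixedBy H c →
      IsFixedSeries H (HahnSeries.single (0 : ℤ) c) := fun c hc τ hτ => by
    rw [coeffMap_single]; exact congrArg _ (hc τ hτ)
  rcases eq_or_ne f 0 with rfl | hf0
  · refine ⟨0, 1, ?_, ?_, by simp, by simp⟩ <;> · intro τ _; simp
  obtain ⟨a, b, ha, hb, hafix, hbfix, hb0, e⟩ := exists_fixed_num_den
    (mem_fixedFun_iff_series.1 hf) (modularFunctionFieldBar_le_finFrac (M * q) f.2)
  have ha0 : a ≠ 0 := e ▸ mul_ne_zero (fun h => hf0 (Subtype.ext h)) hb0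
  obtain ⟨c, hc, hcfix, y, hy, hy0⟩ := exists_fixed_primitive A ha hafix ha0
  obtain ⟨d, hd, hdfix, z, hz, hz0⟩ := exists_fixed_primitive A hb hbfix hb0
  have hyfix : IsFixedSeries H (coeffMap A.subtype y) := hy ▸ (hsingle c hcfix).mul hafix
  have hzfix : IsFixedSeries H (coeffMap A.subtype z) := hz ▸ (hsingle d hdfix).mul hbfix
  have hone : HahnSeries.single (0 : ℤ) (d / c) * HahnSeries.single (0 : ℤ) c
      = HahnSeries.single (0 : ℤ) d := by
    rw [HahnSeries.single_mul_single, add_zero, div_mul_cancel₀ d hc]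
  have key : (f : LaurentSeries ℚbar) * coeffMap A.subtype z
      = HahnSeries.single 0 (d / c) * coeffMap A.subtype y := by
    rw [hy, hz, ← e, ← hone]; ring
  by_cases hdc : d / c ∈ A
  · have h1 : coeffMap A.subtype (HahnSeries.single (0 : ℤ) (⟨_, hdc⟩ : A) * y)
        = HahnSeries.single 0 (d / c) * coeffMap A.subtype y := by
      rw [map_mul, coeffMap_single]; rfl
    refine ⟨HahnSeries.single 0 ⟨_, hdc⟩ * y, z, ?_, hzfix, hz0, key.trans h1.symm⟩
    rw [h1]
    exact (hsingle (d / c) (by rw [div_eq_mul_inv]; exact hdfix.mul hcfix.inv)).mul hyfix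
  -- otherwise the reduction of `(c / d) • f` would vanish
  exfalso
  have hcd : c / d ∈ A.nonunits := by
    rw [A.mem_nonunits_iff, map_div₀]
    have h1 := lt_of_not_ge fun h => hdc ((A.valuation_le_one_iff _).1 h)
    rw [map_div₀] at h1
    rw [show A.valuation c / A.valuation d = (A.valuation d / A.valuation c)⁻¹ by rw [inv_div]]
    exact inv_lt_one_of_one_lt₀ h1
  have hr : residue A (⟨_, A.nonunits_subset hcd⟩ : A) = 0 :=
    (residue_eq_zero_iff _).2 ((ValuationSubring.coe_mem_nonunits_iff (A := A)).1 hcd)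
  exact infV_false_of_scaled hfV hr hy0 (z := z) (by
    rw [mul_assoc, key, ← mul_assoc, HahnSeries.single_mul_single, add_zero,
      show c / d * (d / c) = 1 by field_simp, HahnSeries.single_zero_one, one_mul])

/-- The wild congruence on the component through `∞`. -/
theorem galois_sub_mem_infV (hπ0 : π ≠ 0)
    (hπn : π ^ n ∈ A.nonunits)
    (hwild : ∀ a ∈ A, IsFixedBy H a → (σ a - a) / π ^ n ∈ A) {f : X0F M q}
    (hf : f ∈ fixedFun H M q) (hfV : f ∈ infV M q A) :
    (π ^ n)⁻¹ • (arithmeticGalois (modularFunctionFieldFull (M * q)) σ • f - f) ∈ infV M q A := by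
  obtain ⟨y, z, hy, hz, hz0, e⟩ := exists_fixed_integral_quotient hf hfV
  obtain ⟨wy, hwy⟩ := exists_galois_sub hπ0 hwild y hy
  obtain ⟨wz, hwz⟩ := exists_galois_sub hπ0 hwild z hz
  let P : A := ⟨π ^ n, A.nonunits_subset hπn⟩
  refine ⟨wy * z - y * wz, z * (z + HahnSeries.single 0 P * wz), ?_, ?_⟩
  · rw [map_mul, map_add, map_mul, coeffMap_single,
      show residue A P = 0 from (residue_eq_zero_iff _).2
        ((ValuationSubring.coe_mem_nonunits_iff (A := A)).1 hπn),
      map_zero, zero_mul, add_zero]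
    exact mul_ne_zero hz0 hz0
  · have hP : coeffMap A.subtype (HahnSeries.single (0 : ℤ) P) = HahnSeries.single 0 (π ^ n) :=
      coeffMap_single _ _ _
    have hσf : ((arithmeticGalois (modularFunctionFieldFull (M * q)) σ • f : X0F M q) :
        LaurentSeries ℚbar) * (coeffMap A.subtype z + HahnSeries.single 0 (π ^ n) *
          coeffMap A.subtype wz) = coeffMap A.subtype y + HahnSeries.single 0 (π ^ n) *
          coeffMap A.subtype wy := by
      rw [coe_galois_smul, ← hwy, ← hwz, ← map_mul, e]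
    rw [map_mul, map_add, map_sub, map_mul, map_mul, map_mul, hP]
    show (((π ^ n)⁻¹ • (arithmeticGalois (modularFunctionFieldFull (M * q)) σ • f - f) : X0F M q) :
      LaurentSeries ℚbar) * _ = _
    rw [IntermediateField.coe_smul, Algebra.smul_def, algebraMap_laurentSeries_eq_single]
    have hinv : HahnSeries.single (0 : ℤ) (π ^ n)⁻¹ * HahnSeries.single (0 : ℤ) (π ^ n) = 1 := by
      rw [HahnSeries.single_mul_single, add_zero, inv_mul_cancel₀ (pow_ne_zero _ hπ0),
        HahnSeries.single_zero_one]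
    push_cast
    linear_combination (HahnSeries.single (0 : ℤ) (π ^ n)⁻¹ * coeffMap A.subtype z) * hσf
      - HahnSeries.single (0 : ℤ) (π ^ n)⁻¹ * (coeffMap A.subtype z + HahnSeries.single 0 (π ^ n) *
          coeffMap A.subtype wz) * e
      + (coeffMap A.subtype wy * coeffMap A.subtype z
          - coeffMap A.subtype y * coeffMap A.subtype wz) * hinv

/-- The wild congruence on both components. -/
theorem galois_sub_mem_compV (hπ0 : π ≠ 0)
    (hπn : π ^ n ∈ A.nonunits)
    (hwild : ∀ a ∈ A, IsFixedBy H a → (σ a - a) / π ^ n ∈ A) {f : X0F M q}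
    (hf : f ∈ fixedFun H M q) : ∀ i : Fin 2, f ∈ compV hqM A i →
    (π ^ n)⁻¹ • (arithmeticGalois (modularFunctionFieldFull (M * q)) σ • f - f) ∈ compV hqM A i
  | 0, hfV => galois_sub_mem_infV hπ0 hπn hwild hf hfV
  | 1, hfV => by
    rw [mem_compV_one] at hfV ⊢
    have hw : atkinLehner hqM f ∈ fixedFun H M q := mem_fixedFun.2 fun τ hτ => by
      rw [← atkinLehner_galois, mem_fixedFun.1 hf τ hτ]
    rw [atkinLehner_smul, map_sub, atkinLehner_galois]
    exact galois_sub_mem_infV hπ0 hπn hwild hw hfV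

end

section

variable {M q : ℕ} [NeZero M] [hq : Fact q.Prime]

local instance neZero_prime_inertial' : NeZero q := ⟨hq.out.ne_zero⟩

variable (hqM : ¬ q ∣ M) {A : ValuationSubring ℚbar} (hA : A.LiesOverPrime q)
  {W : WeierstrassCurve ℤ} (L : LocalData W q A)

omit [NeZero M] hq in
theorem LocalData.apply_fixed {σ : Γℚ} (hσ : σ ∈ A.inertiaSubgroupIn ℚ) {a : ℚbar}
    (ha : IsFixedBy L.H a) : IsFixedBy L.H (σ a) := fun τ hτ => by
  have h := ha _ (L.normal σ⁻¹ (inv_mem hσ) τ hτ)
  rw [inv_inv] at h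
  have h2 := congrArg σ h
  rw [← AlgEquiv.mul_apply, mul_assoc, mul_inv_cancel_left, AlgEquiv.mul_apply] at h2
  exact h2

omit [NeZero M] hq in
/-- The uniformiser exponent of a nonzero fixed element of `A`. -/
theorem LocalData.exists_pow {a : ℚbar} (ha : a ∈ A) (ha0 : a ≠ 0) (hfix : IsFixedBy L.H a) :
    ∃ j : ℕ, A.valuation a = A.valuation L.U.π ^ j := by
  obtain ⟨i, hi⟩ := L.U.exists_zpow a ha0 hfix
  have hπ0 : (0 : _) < A.valuation L.U.π := zero_lt_iff.2 ((Valuation.ne_zero_iff _).2 L.U.ne_zero)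
  have hπ1 : A.valuation L.U.π < 1 := (A.mem_nonunits_iff).1 L.U.mem_nonunits
  have h1 : A.valuation L.U.π ^ i ≤ 1 := hi ▸ (A.valuation_le_one_iff _).2 ha
  have h2 : 0 ≤ i := by
    by_contra hcon
    exact h1.not_gt (one_lt_zpow_of_neg₀ hπ0 hπ1 (by omega))
  exact ⟨i.toNat, by rw [hi, ← zpow_natCast, Int.toNat_of_nonneg h2]⟩

omit [NeZero M] hq in
/-- A nonzero residue of a fixed element divided by its power of the uniformiser. -/
theorem LocalData.div_pow {a : ℚbar} {j : ℕ} (hj : A.valuation a = A.valuation L.U.π ^ j) :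
    ∃ h : a / L.U.π ^ j ∈ A, residue A ⟨_, h⟩ ≠ 0 := by
  have h1 : A.valuation (a / L.U.π ^ j) = 1 := by
    rw [map_div₀, map_pow, hj, div_self (pow_ne_zero _ ((Valuation.ne_zero_iff _).2 L.U.ne_zero))]
  refine ⟨(A.valuation_le_one_iff _).1 h1.le, fun h => ?_⟩
  rw [residue_eq_zero_iff, ← ValuationSubring.coe_mem_nonunits_iff, A.mem_nonunits_iff] at h
  exact h.ne h1

/-- The leading datum of `q`. -/
theorem exists_lead_prime :
    ∃ u0 : ResidueField A, u0 ≠ 0 ∧ ∀ b : Fin 2,
      ((x0Descent hqM hA L.le_inertia L.U).redSystem.R b).Lead L.U.e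
        ((q : ℕ) : (x0Descent hqM hA L.le_inertia L.U).F0)
        (algebraMap (ResidueField A) (X0Res M A) u0) := by
  obtain ⟨h, h0⟩ := L.div_pow (a := (q : ℚbar)) (j := L.U.e) L.U.valuation_p
  refine ⟨_, h0, fun b => ?_⟩
  convert (x0Descent hqM hA L.le_inertia L.U).lead_constHom
    ⟨(q : ℚbar), natCast_mem (x0Descent hqM hA L.le_inertia L.U).K0 q⟩ (i := L.U.e) h b using 1
  swap
  · rfl
  refine Subtype.ext ?_
  show ((q : (x0Descent hqM hA L.le_inertia L.U).F0) : X0F M q)
    = algebraMap ℚbar (X0F M q) (q : ℚbar)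
  rw [map_natCast]
  exact map_natCast (x0Descent hqM hA L.le_inertia L.U).F0.subtype q

theorem exists_map_of_mem {σ : Γℚ} (hσ : σ ∈ A.inertiaSubgroupIn ℚ) :
    ∃ s : Move.InertialMap (x0Descent hqM hA L.le_inertia L.U),
      (∀ a, ((s.σK a : (x0Descent hqM hA L.le_inertia L.U).K0) : ℚbar) = σ (a : ℚbar)) ∧
      ∀ f, ((s.σ f : (x0Descent hqM hA L.le_inertia L.U).F0) : X0F M q) =
        arithmeticGalois (modularFunctionFieldFull (M * q)) σ • (f : X0F M q) :=
  exists_inertialMap hqM hA L.le_inertia L.U hσ fun τ hτ => by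
    have h := L.normal σ⁻¹ (inv_mem hσ) τ hτ
    rwa [inv_inv] at h

/-- The two cases of the component step: the valuations of the unit differ modulo `q` at every
node, or there is wild inertia data. -/
theorem tame_or_wildData (hq5 : 5 ≤ q) {S : Type} [Fintype S]
    (P : Move.NodePairs (x0Reduction hqM A hA) S)
    (Ud : Move.UnitData (x0Descent hqM hA L.le_inertia L.U) q P)
    (hU : ∀ σ : Γℚ, arithmeticGalois (modularFunctionFieldFull (M * q)) σ • (Ud.U : X0F M q)
      = Ud.U)
    (hm0 : Ud.m 0 = 0) (hm1 : (Ud.m 1).natAbs = 12 * L.U.e)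
    (hne : ∀ t, (P.br t 0).1 ≠ (P.br t 1).1)
    (C : Fin 2 → Move.CuspLead (x0Descent hqM hA L.le_inertia L.U) P)
    (hℓ : ∀ b f, (C b).ℓ f = (atCusp hqM b f).leadingCoeff) :
    (∀ t, ¬ (q : ℤ) ∣ Ud.m (P.br t 0).1 - Ud.m (P.br t 1).1) ∨
      Nonempty (Move.WildData P Ud C) := by
  have h12 : ¬ q ∣ 12 := fun h => by
    have h' : q ∣ 2 * (2 * 3) := h
    rcases hq.out.dvd_mul.1 h' with h1 | h1
    · have := Nat.le_of_dvd (by norm_num) h1; omega
    rcases hq.out.dvd_mul.1 h1 with h1 | h1 <;> (have := Nat.le_of_dvd (by norm_num) h1; omega)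
  have hdiff : ∀ t, (Ud.m (P.br t 0).1 - Ud.m (P.br t 1).1).natAbs = 12 * L.U.e := by
    intro t
    have h := hne t
    revert h
    generalize (P.br t 0).1 = x
    generalize (P.br t 1).1 = y
    intro h
    fin_cases x <;> fin_cases y
    · exact absurd rfl h
    · show (Ud.m 0 - Ud.m 1).natAbs = _
      rw [hm0, zero_sub, Int.natAbs_neg, hm1]
    · show (Ud.m 1 - Ud.m 0).natAbs = _
      rw [hm0, sub_zero, hm1]
    · exact absurd rfl h
  by_cases hqe : q ∣ L.U.e
  swap
  · refine Or.inl fun t h => ?_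
    rw [Int.natCast_dvd, hdiff t] at h
    exact hqe ((hq.out.dvd_mul.1 h).resolve_left h12)
  obtain ⟨σ, hσ, hσq, a, haA, hafix, hamove, hζ⟩ := L.wild hqe
  obtain ⟨ζ, hζp⟩ := HasEnoughRootsOfUnity.exists_primitiveRoot ℚbar q
  set π := L.U.π with hπdef
  have hπ0 : π ≠ 0 := L.U.ne_zero
  have hπv0 : A.valuation π ≠ 0 := (Valuation.ne_zero_iff _).2 hπ0
  have hπv1 : A.valuation π < 1 := (A.mem_nonunits_iff).1 L.U.mem_nonunits
  have hmove : A.valuation (σ a - a) ≤ A.valuation (σ π - π) :=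
    valuation_sub_le hq.out hA L.le_inertia L.U hσ haA hafix hamove
  set x := σ π / π - 1 with hx
  have hxπ : σ π - π = π * x := by rw [hx]; field_simp
  have hxfix : IsFixedBy L.H x := by
    rw [hx, div_eq_mul_inv]
    exact ((L.apply_fixed hσ L.U.fixed).mul L.U.fixed.inv).sub fun τ _ => map_one τ
  have hxnu : x ∈ A.nonunits := div_sub_one_mem_nonunits hq.out hA L.U hσ hσq
  have hx0 : x ≠ 0 := by
    intro h0
    rw [hxπ, h0, mul_zero, map_zero, le_zero_iff, Valuation.zero_iff, sub_eq_zero] at hmove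
    exact hamove hmove
  obtain ⟨j, hj⟩ := L.exists_pow (A.nonunits_subset hxnu) hx0 hxfix
  have hjpos : 0 < j := by
    rcases Nat.eq_zero_or_pos j with rfl | h
    · rw [pow_zero] at hj; exact absurd hj ((A.mem_nonunits_iff).1 hxnu).ne
    · exact h
  have hσπ : A.valuation (σ π - π) = A.valuation π ^ (j + 1) := by
    rw [hxπ, map_mul, hj, pow_succ']
  -- `(q - 1) (j + 1) ≤ e`
  have hbound : (q - 1) * (j + 1) ≤ L.U.e := by
    have h1 : A.valuation π ^ L.U.e ≤ A.valuation π ^ ((q - 1) * (j + 1)) := by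
      rw [← L.U.valuation_p, ← valuation_sub_one_pow_eq hq.out hζp, mul_comm (q - 1), pow_mul,
        ← hσπ]
      exact pow_le_pow_left₀ zero_le ((hζ ζ hζp).trans hmove) _
    by_contra hlt
    exact h1.not_gt (pow_lt_pow_right_of_lt_one₀ (zero_lt_iff.2 hπv0) hπv1 (by omega))
  have hwild : ∀ b ∈ A, IsFixedBy L.H b → (σ b - b) / π ^ (j + 1) ∈ A := by
    intro b hb hbfix
    rcases eq_or_ne (σ b) b with h | h
    · simp [h]
    rw [← A.valuation_le_one_iff, map_div₀, map_pow,
      div_le_one₀ (pow_pos (zero_lt_iff.2 hπv0) _), ← hσπ]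
    exact valuation_sub_le hq.out hA L.le_inertia L.U hσ hb hbfix h
  have hπn : π ^ (j + 1) ∈ A.nonunits := by
    rw [A.mem_nonunits_iff, map_pow]; exact pow_lt_one₀ zero_le hπv1 (by omega)
  obtain ⟨s, hsK, hsσ⟩ := exists_map_of_mem hqM hA L hσ
  obtain ⟨hc0A, hc0⟩ := L.div_pow hj
  obtain ⟨u0, -, hu0⟩ := exists_lead_prime hqM hA L
  refine Or.inr ⟨{
    s := s
    map_U := Subtype.ext ((hsσ _).trans (hU σ))
    j := j
    c0 := residue A ⟨_, hc0A⟩
    j_pos := hjpos
    c0_ne_zero := hc0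
    e := L.U.e
    u0 := u0
    lead_p := hu0
    lt := ?_
    lead_π := fun b => ?_
    expand := fun b f hf => ?_
    ℓ_map := fun b g => ?_
    m_dvd := fun b => ?_
    m_not_dvd := fun t h => ?_ }⟩
  · have h1 : q * (j + 1) ≤ L.U.e + (j + 1) := by
      calc q * (j + 1) = (q - 1) * (j + 1) + (j + 1) := by
            rw [← Nat.succ_mul, show (q - 1).succ = q by omega]
        _ ≤ _ := by omega
    rw [mul_add, mul_one] at h1
    omega
  · have hxK : x ∈ (x0Descent hqM hA L.le_inertia L.U).K0 := hxfix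
    convert (x0Descent hqM hA L.le_inertia L.U).lead_constHom ⟨x, hxK⟩ (i := j) hc0A b using 1
    refine Subtype.ext ?_
    simp only [Subfield.coe_sub, Subfield.coe_div, Subfield.coe_one]
    rw [hsσ, Move.Descent.coe_πF]
    show arithmeticRingAut (modularFunctionFieldFull (M * q)) σ (algebraMap ℚbar (X0F M q) π) /
        algebraMap ℚbar (X0F M q) π - 1 = algebraMap ℚbar (X0F M q) x
    rw [arithmeticRingAut_algebraMap, hx, map_sub, map_div₀, map_one]
    rfl
  · obtain ⟨c, hc⟩ := hf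
    rw [pow_zero, one_mul] at hc
    subst hc
    set g := (c : (x0Descent hqM hA L.le_inertia L.U).F0)
    have hgV : (g : X0F M q) ∈ compV hqM A b := c.2
    have hmem := galois_sub_mem_compV hqM hπ0 hπn hwild g.2 b hgV
    refine ⟨⟨⟨_, (x0Descent hqM hA L.le_inertia L.U).smul_mem
      (inv_mem (pow_mem (x0Descent hqM hA L.le_inertia L.U).ϖ_mem (j + 1))) (s.σ g - g).2⟩, ?_⟩, Subtype.ext ?_⟩
    · show (π ^ (j + 1))⁻¹ • (((s.σ g - g : (x0Descent hqM hA L.le_inertia L.U).F0)) : X0F M q)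
        ∈ compV hqM A b
      rw [Subfield.coe_sub, hsσ]
      exact hmem
    · simp only [Subfield.coe_mul, SubmonoidClass.coe_pow, Move.Descent.coe_πF]
      show (((s.σ g - g : (x0Descent hqM hA L.le_inertia L.U).F0)) : X0F M q)
        = algebraMap ℚbar (X0F M q) π ^ (j + 1) * ((π ^ (j + 1))⁻¹ •
          (((s.σ g - g : (x0Descent hqM hA L.le_inertia L.U).F0)) : X0F M q))
      rw [← map_pow, ← Algebra.smul_def, smul_inv_smul₀ (pow_ne_zero _ hπ0)]
  · rw [hsK]
    simp only [hℓ, hsσ]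
    fin_cases b
    · show ((arithmeticGalois _ σ • (g : X0F M q) : X0F M q) :
        LaurentSeries ℚbar).leadingCoeff = σ ((g : X0F M q) : LaurentSeries ℚbar).leadingCoeff
      rw [coe_galois_smul, leadingCoeff_coeffMap_galois]
    · show ((atkinLehner hqM (arithmeticGalois _ σ • (g : X0F M q)) : X0F M q) :
        LaurentSeries ℚbar).leadingCoeff
          = σ ((atkinLehner hqM (g : X0F M q) : X0F M q) : LaurentSeries ℚbar).leadingCoeff
      rw [atkinLehner_galois, coe_galois_smul, leadingCoeff_coeffMap_galois]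
  · fin_cases b
    · show (q : ℤ) ∣ Ud.m 0
      rw [hm0]; exact dvd_zero _
    · show (q : ℤ) ∣ Ud.m 1
      rw [Int.natCast_dvd, hm1]
      exact dvd_mul_of_dvd_right hqe _
  · rw [← Nat.cast_mul, Int.natCast_dvd, hdiff t] at h
    refine L.sq_not_dvd ?_
    rw [sq]
    exact (Nat.Coprime.mul_left ((hq.out.coprime_iff_not_dvd).2 h12)
      ((hq.out.coprime_iff_not_dvd).2 h12)).dvd_of_dvd_mul_left h

/-- The inputs of the twist for an inertia element. -/
theorem exists_twist_data {z : Γℚ} (hz : z ∈ A.inertiaSubgroupIn ℚ) :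
    ∃ (i₀ a c : ℕ) (u0 w : ResidueField A)
      (s : Move.InertialMap (x0Descent hqM hA L.le_inertia L.U)),
      u0 ≠ 0 ∧
      (∀ b : Fin 2, ((x0Descent hqM hA L.le_inertia L.U).redSystem.R b).Lead L.U.e
        ((q : ℕ) : (x0Descent hqM hA L.le_inertia L.U).F0)
        (algebraMap (ResidueField A) (X0Res M A) u0)) ∧
      0 < i₀ ∧ (q - 1) * i₀ = q * L.U.e ∧
      (∀ x, ((s.σK x : (x0Descent hqM hA L.le_inertia L.U).K0) : ℚbar) = z (x : ℚbar)) ∧
      (∀ f, ((s.σ f : (x0Descent hqM hA L.le_inertia L.U).F0) : X0F M q) =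
        arithmeticGalois (modularFunctionFieldFull (M * q)) z • (f : X0F M q)) ∧
      (∀ b : Fin 2, ((x0Descent hqM hA L.le_inertia L.U).redSystem.R b).Lead 1
        (s.σ (x0Descent hqM hA L.le_inertia L.U).πF)
        (algebraMap (ResidueField A) (X0Res M A) w)) ∧
      (∀ ζ : ℚbar, ζ ^ q = 1 → z ζ = ζ ^ a) ∧ q ∣ a + c ∧ w ^ i₀ + (c : ResidueField A) = 0 := by
  obtain ⟨ζ, hζp⟩ := HasEnoughRootsOfUnity.exists_primitiveRoot ℚbar q
  haveI := charP_residueField A hq.out hA
  set π := L.U.π with hπdef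
  have hπv0 : A.valuation π ≠ 0 := (Valuation.ne_zero_iff _).2 L.U.ne_zero
  have hπv1 : A.valuation π < 1 := (A.mem_nonunits_iff).1 L.U.mem_nonunits
  obtain ⟨a, -, ha⟩ := hζp.eq_pow_of_pow_eq_one (ξ := z ζ) (by
    rw [← map_pow, hζp.pow_eq_one, map_one])
  have hζ1 : ζ - 1 ≠ 0 := sub_ne_zero.2 (hζp.ne_one hq.out.one_lt)
  have hζA : ζ ∈ A := Mult.mem_of_pow_mem hq.out.ne_zero (hζp.pow_eq_one ▸ A.one_mem)
  have hζfix : IsFixedBy L.H (ζ - 1) := (L.zeta_fixed ζ hζp.pow_eq_one).sub fun τ _ => map_one τ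
  obtain ⟨i, hi⟩ := L.exists_pow (sub_mem hζA A.one_mem) hζ1 hζfix
  have hie : (q - 1) * i = L.U.e := by
    refine (pow_right_strictAnti₀ (zero_lt_iff.2 hπv0) hπv1).injective ?_
    show A.valuation π ^ ((q - 1) * i) = A.valuation π ^ L.U.e
    rw [mul_comm, pow_mul, ← hi, valuation_sub_one_pow_eq hq.out hζp, L.U.valuation_p]
  have hi0 : 0 < i := Nat.pos_of_ne_zero fun h => L.U.e_pos.ne' (by rw [← hie, h, mul_zero])
  obtain ⟨u0, hu00, hu0⟩ := exists_lead_prime hqM hA L
  obtain ⟨s, hsK, hsσ⟩ := exists_map_of_mem hqM hA L hz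
  have hzπ : A.valuation (z π) = A.valuation π ^ 1 := by
    rw [pow_one, valuation_inertia_apply hz]
  obtain ⟨hwA, -⟩ := L.div_pow hzπ
  obtain ⟨huA, hu1⟩ := L.div_pow hi
  set u : A := ⟨_, huA⟩
  set w : A := ⟨_, hwA⟩
  -- `z (ζ - 1) = ζ ^ a - 1`
  have hzu : z (u : ℚbar) ∈ A :=
    (Mult.apply_mem_iff_of_mem_decomposition (Mult.mem_decomposition_of_mem_inertia hz) _).2 u.2
  have hgeo : residue A (w ^ i * ⟨z u, hzu⟩) = residue A (u * ∑ l ∈ Finset.range a,
      (⟨ζ, hζA⟩ : A) ^ l) := by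
    refine congrArg _ (Subtype.ext ?_)
    push_cast
    have h1 : z (ζ - 1) = (ζ - 1) * ∑ l ∈ Finset.range a, ζ ^ l := by
      rw [map_sub, map_one, ← ha, ← geom_sum_mul, mul_comm]
    have hu : (u : ℚbar) = (ζ - 1) / π ^ i := rfl
    have hw : (w : ℚbar) = z π / π ^ 1 := rfl
    have hπ0 : π ≠ 0 := L.U.ne_zero
    have hzπ0 : z π ≠ 0 := by simpa using hπ0
    rw [hw, hu, map_div₀, map_pow, h1, pow_one]
    field_simp
    rw [div_pow]
    field_simp
  have hzres : residue A ⟨z u, hzu⟩ = residue A u := by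
    rw [← sub_eq_zero, ← map_sub, residue_eq_zero_iff, ← ValuationSubring.coe_mem_nonunits_iff]
    exact Mult.sub_mem_nonunits_of_mem_inertia hz u.2
  have hζres : residue A (⟨ζ, hζA⟩ : A) = 1 := by
    rw [← sub_eq_zero, ← map_one (residue A), ← map_sub, residue_eq_zero_iff,
      ← ValuationSubring.coe_mem_nonunits_iff, A.mem_nonunits_iff]
    show A.valuation (ζ - 1) < 1
    rw [hi]
    exact pow_lt_one₀ zero_le hπv1 hi0.ne'
  have hwa : residue A w ^ i = (a : ResidueField A) := by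
    rw [map_mul, map_mul, map_pow, hzres, map_sum] at hgeo
    simp only [map_pow, hζres, one_pow, Finset.sum_const, Finset.card_range, nsmul_one] at hgeo
    rw [mul_comm (residue A u)] at hgeo
    exact mul_right_cancel₀ hu1 hgeo
  refine ⟨q * i, a, (q - a % q), u0, residue A w, s, hu00, hu0,
    Nat.mul_pos hq.out.pos hi0, by rw [← hie]; ring, hsK, hsσ, fun b => ?_, fun μ hμ => ?_, ?_, ?_⟩
  · have hK : z π ∈ (x0Descent hqM hA L.le_inertia L.U).K0 := L.apply_fixed hz L.U.fixed
    convert (x0Descent hqM hA L.le_inertia L.U).lead_constHom ⟨z π, hK⟩ (i := 1) hwA b using 1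
    swap
    · rfl
    refine Subtype.ext ?_
    rw [hsσ, Move.Descent.coe_πF]
    exact arithmeticRingAut_algebraMap _ _ _
  · obtain ⟨l, -, rfl⟩ := hζp.eq_pow_of_pow_eq_one hμ
    rw [map_pow, ← ha, ← pow_mul, ← pow_mul, mul_comm]
  · refine ⟨a / q + 1, ?_⟩
    have := Nat.div_add_mod a q
    have := Nat.mod_lt a hq.out.pos
    rw [mul_add, mul_one]; omega
  · have hc : ((q - a % q : ℕ) : ResidueField A) = -(a : ResidueField A) := by
      rw [eq_neg_iff_add_eq_zero, ← Nat.cast_add, CharP.cast_eq_zero_iff (ResidueField A) q]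
      refine ⟨a / q + 1, ?_⟩
      have := Nat.div_add_mod a q
      have := Nat.mod_lt a hq.out.pos
      rw [mul_add, mul_one]; omega
    rw [mul_comm q i, pow_mul, hwa, hc, ← frobenius_def, map_natCast, add_neg_cancel]

end

end Fermat.Agent.MazurPrinciple

end
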